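import Mathlib
import Fermat.Prelude.Def_FLTPrelim_Modularity

/-!
# Quadratic twists of Weierstrass curves and traces of Frobenius

* `trace_eq`: `a = -∑ x, χ(4x³ + b₂x² + 2b₄x + b₆)` over a finite field of odd characteristic;
* `quadTwist W d`: the curve `y² = x³ + d b₂ x² + 8 d² b₄ x + 16 d³ b₆`;
* `apOfModel_quadTwist`: `a_p(W_d) = (d / p) a_p(W)` at the good primes `p` of `W_d`.
-/

set_option autoImplicit false
set_option linter.unusedSectionVars false

noncomputable section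

open WeierstrassCurve

namespace Fermat.Agent.Cor.Twist

/-! ### The twisted curve -/

section Curve

variable {R : Type*} [CommRing R]

/-- The quadratic twist by `d`. -/
def quadTwist (W : WeierstrassCurve R) (d : R) : WeierstrassCurve R :=
  ⟨0, d * W.b₂, 0, 8 * d ^ 2 * W.b₄, 16 * d ^ 3 * W.b₆⟩

variable (W : WeierstrassCurve R) (d : R)

theorem quadTwist_b₂ : (quadTwist W d).b₂ = 4 * d * W.b₂ := by
  simp only [WeierstrassCurve.b₂, quadTwist]
  ring

theorem quadTwist_b₄ : (quadTwist W d).b₄ = 16 * d ^ 2 * W.b₄ := by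
  simp only [WeierstrassCurve.b₄, quadTwist]
  ring

theorem quadTwist_b₆ : (quadTwist W d).b₆ = 64 * d ^ 3 * W.b₆ := by
  simp only [WeierstrassCurve.b₆, quadTwist]
  ring

theorem quadTwist_c₄ : (quadTwist W d).c₄ = 16 * d ^ 2 * W.c₄ := by
  rw [WeierstrassCurve.c₄, quadTwist_b₂, quadTwist_b₄, WeierstrassCurve.c₄]
  ring

theorem quadTwist_c₆ : (quadTwist W d).c₆ = 64 * d ^ 3 * W.c₆ := by
  rw [WeierstrassCurve.c₆, quadTwist_b₂, quadTwist_b₄, quadTwist_b₆, WeierstrassCurve.c₆]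
  ring

theorem quadTwist_Δ : (quadTwist W d).Δ = 4096 * d ^ 6 * W.Δ := by
  simp only [WeierstrassCurve.Δ, WeierstrassCurve.b₂, WeierstrassCurve.b₄, WeierstrassCurve.b₆,
    WeierstrassCurve.b₈, quadTwist]
  ring

theorem map_quadTwist {S : Type*} [CommRing S] (f : R →+* S) :
    (quadTwist W d).map f = quadTwist (W.map f) (f d) := by
  have h8 : f 8 = 8 := by simpa using map_ofNat f 8
  have h16 : f 16 = 16 := by simpa using map_ofNat f 16
  ext <;> simp [quadTwist, h8, h16]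

end Curve

/-! ### Counting points -/

section Count

variable {F : Type*} [Field F] [Fintype F] [DecidableEq F] (W : WeierstrassCurve F)

/-- Points are solutions of the equation, and the point at infinity. -/
def pointEquiv (hΔ : W.Δ ≠ 0) :
    W.toAffine.Point ≃ Option (Σ x : F, {y : F // W.toAffine.Equation x y}) where
  toFun
    | .zero => none
    | .some x y h => some ⟨x, y, h.1⟩
  invFun
    | none => .zero
    | some z => .some z.1 z.2.1 ((Affine.equation_iff_nonsingular_of_Δ_ne_zero hΔ).mp z.2.2)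
  left_inv := by
    rintro (_ | ⟨x, y, h⟩) <;> rfl
  right_inv := by
    rintro (_ | ⟨x, y, h⟩) <;> rfl

/-- The fibre over `x` is a set of square roots. -/
def fibreEquiv (h2 : (2 : F) ≠ 0) (x : F) : {y : F // W.toAffine.Equation x y} ≃
    {Y : F // Y ^ 2 = 4 * x ^ 3 + W.b₂ * x ^ 2 + 2 * W.b₄ * x + W.b₆} where
  toFun y := ⟨2 * y.1 + W.a₁ * x + W.a₃, by
    have h := (Affine.equation_iff' _ _).mp y.2
    simp only [WeierstrassCurve.b₂, WeierstrassCurve.b₄, WeierstrassCurve.b₆]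
    linear_combination 4 * h⟩
  invFun Y := ⟨2⁻¹ * (Y.1 - W.a₁ * x - W.a₃), by
    have h := Y.2
    simp only [WeierstrassCurve.b₂, WeierstrassCurve.b₄, WeierstrassCurve.b₆] at h
    refine (Affine.equation_iff' _ _).mpr ?_
    have h3 : (2 : F) * 2⁻¹ = 1 := mul_inv_cancel₀ h2
    field_simp
    linear_combination h⟩
  left_inv y := Subtype.ext (by
    show 2⁻¹ * ((2 * y.1 + W.a₁ * x + W.a₃) - W.a₁ * x - W.a₃) = y.1
    field_simp
    ring)
  right_inv Y := Subtype.ext (by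
    show 2 * (2⁻¹ * (Y.1 - W.a₁ * x - W.a₃)) + W.a₁ * x + W.a₃ = Y.1
    field_simp
    ring)

/-- **The trace of Frobenius as a character sum.** -/
theorem trace_eq (hF : ringChar F ≠ 2) (hΔ : W.Δ ≠ 0) : W.traceOfFrobenius =
    -∑ x : F, quadraticChar F (4 * x ^ 3 + W.b₂ * x ^ 2 + 2 * W.b₄ * x + W.b₆) := by
  classical
  have h2 : (2 : F) ≠ 0 := Ring.two_ne_zero hF
  have h1 : W.card = 1 + ∑ x : F, Nat.card {y : F // W.toAffine.Equation x y} := by
    rw [WeierstrassCurve.card, Nat.card_congr (pointEquiv W hΔ), Finite.card_option,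
      Nat.card_sigma, add_comm]
  have h3 : ∀ x : F, (Nat.card {y : F // W.toAffine.Equation x y} : ℤ) =
      quadraticChar F (4 * x ^ 3 + W.b₂ * x ^ 2 + 2 * W.b₄ * x + W.b₆) + 1 := by
    intro x
    rw [Nat.card_congr (fibreEquiv W h2 x), ← quadraticChar_card_sqrts hF]
    congr 1
    rw [Nat.card_eq_fintype_card, Set.toFinset_card]
    rfl
  rw [WeierstrassCurve.traceOfFrobenius, h1]
  push_cast
  rw [Finset.sum_congr rfl fun x _ => h3 x, Finset.sum_add_distrib, Finset.sum_const,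
    Finset.card_univ, Nat.card_eq_fintype_card]
  simp only [mul_one, nsmul_eq_mul]
  ring

/-- **The trace of Frobenius of a quadratic twist.** -/
theorem trace_quadTwist (hF : ringChar F ≠ 2) {d : F} (hΔ : W.Δ ≠ 0) (hd : d ≠ 0) :
    (quadTwist W d).traceOfFrobenius = quadraticChar F d * W.traceOfFrobenius := by
  have h2 : (2 : F) ≠ 0 := Ring.two_ne_zero hF
  have h4 : (4 : F) ≠ 0 := by
    have : (4 : F) = 2 * 2 := by norm_num
    rw [this]
    exact mul_ne_zero h2 h2
  have hΔ' : (quadTwist W d).Δ ≠ 0 := by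
    rw [quadTwist_Δ]
    have h5 : (4096 : F) = 4 ^ 6 := by norm_num
    rw [h5]
    exact mul_ne_zero (mul_ne_zero (pow_ne_zero _ h4) (pow_ne_zero _ hd)) hΔ
  rw [trace_eq _ hF hΔ', trace_eq _ hF hΔ, mul_neg, Finset.mul_sum]
  congr 1
  refine (Fintype.sum_equiv (Equiv.mulLeft₀ (4 * d) (mul_ne_zero h4 hd)) _ _ fun x => ?_).symm
  rw [Equiv.mulLeft₀_apply, quadTwist_b₂, quadTwist_b₄, quadTwist_b₆, ← map_mul]
  have h6 : (4 * (4 * d * x) ^ 3 + 4 * d * W.b₂ * (4 * d * x) ^ 2 +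
      2 * (16 * d ^ 2 * W.b₄) * (4 * d * x) + 64 * d ^ 3 * W.b₆) =
      (8 * d) ^ 2 * (d * (4 * x ^ 3 + W.b₂ * x ^ 2 + 2 * W.b₄ * x + W.b₆)) := by ring
  rw [h6, map_mul (quadraticChar F) ((8 * d) ^ 2)]
  have h8 : (8 * d) ≠ 0 := by
    have : (8 : F) = 2 * 4 := by norm_num
    rw [this]
    exact mul_ne_zero (mul_ne_zero h2 h4) hd
  rw [quadraticChar_sq_one' h8, one_mul]

end Count

/-! ### Integral models -/

section Model

variable (W : WeierstrassCurve ℤ) {d : ℤ}

theorem isGoodPrimeFor_quadTwist {p : ℕ} (hp : p.Prime)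
    (h : (quadTwist W d).IsGoodPrimeFor p) :
    p ≠ 2 ∧ ¬ (p : ℤ) ∣ d ∧ W.IsGoodPrimeFor p := by
  rw [WeierstrassCurve.IsGoodPrimeFor, quadTwist_Δ] at h
  refine ⟨?_, fun h1 => h ?_, fun h1 => h (h1.mul_left _)⟩
  · rintro rfl
    exact h (Dvd.dvd.mul_right (Dvd.dvd.mul_right (by norm_num) _) _)
  · exact ((h1.trans (dvd_pow_self d (by norm_num))).mul_left _).mul_right _

/-- **`a_p` of a quadratic twist.** -/
theorem apOfModel_quadTwist {p : ℕ} [Fact p.Prime] (hp2 : p ≠ 2) (hpd : ¬ (p : ℤ) ∣ d)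
    (h : W.IsGoodPrimeFor p) :
    (quadTwist W d).apOfModel p = legendreSym p d * W.apOfModel p := by
  have hΔ : (W.map (Int.castRingHom (ZMod p))).Δ ≠ 0 := by
    rw [WeierstrassCurve.map_Δ, eq_intCast, Ne, ZMod.intCast_zmod_eq_zero_iff_dvd]
    exact h
  have hd : (Int.castRingHom (ZMod p)) d ≠ 0 := by
    rw [eq_intCast, Ne, ZMod.intCast_zmod_eq_zero_iff_dvd]
    exact hpd
  have hF : ringChar (ZMod p) ≠ 2 := by
    rw [ZMod.ringChar_zmod_n]
    exact hp2
  have h1 := trace_quadTwist (W.map (Int.castRingHom (ZMod p))) hF hΔ hd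
  rw [← map_quadTwist, eq_intCast] at h1
  exact h1

end Model

end Fermat.Agent.Cor.Twist

end
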