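import Mathlib

/-!
# The quadratic character attached to an integer

`chiD d`: the Dirichlet character modulo `4 |d|` with `χ n = (d / n)` (Jacobi symbol) for `n`
prime to `4 d`.
-/

set_option autoImplicit false

noncomputable section

open scoped NumberTheorySymbols

namespace Fermat.Agent.Cor.Twist

variable {d : ℤ}

theorem neZero_mod (hd : d ≠ 0) : NeZero (4 * d.natAbs) :=
  ⟨mul_ne_zero (by norm_num) (Int.natAbs_ne_zero.mpr hd)⟩

theorem odd_of_coprime {n : ℕ} (h : n.Coprime (4 * d.natAbs)) : Odd n := by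
  rw [← Nat.coprime_two_right]
  exact Nat.Coprime.coprime_dvd_right (Dvd.dvd.mul_right (by norm_num) _) h

theorem gcd_of_coprime {n : ℕ} (h : n.Coprime (4 * d.natAbs)) : d.gcd n = 1 := by
  rw [Int.gcd_eq_natAbs, Int.natAbs_natCast]
  exact (Nat.Coprime.coprime_dvd_right (Dvd.intro_left _ rfl) h).symm

theorem coprime_val {x : ZMod (4 * d.natAbs)} (hd : d ≠ 0) (hx : IsUnit x) :
    x.val.Coprime (4 * d.natAbs) := by
  have := neZero_mod hd
  rw [← ZMod.isUnit_iff_coprime, ZMod.natCast_zmod_val]
  exact hx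

open Classical in
/-- **The quadratic character attached to `d`.** -/
def chiD (d : ℤ) (hd : d ≠ 0) : DirichletCharacter ℂ (4 * d.natAbs) where
  toFun x := if IsUnit x then ((J(d | x.val) : ℤ) : ℂ) else 0
  map_one' := by
    have := neZero_mod hd
    have h1 : 1 < 4 * d.natAbs := by
      have := Int.natAbs_pos.mpr hd
      omega
    have : Fact (1 < 4 * d.natAbs) := ⟨h1⟩
    rw [if_pos isUnit_one, ZMod.val_one, jacobiSym.one_right, Int.cast_one]
  map_mul' x y := by
    have := neZero_mod hd
    by_cases hx : IsUnit x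
    · by_cases hy : IsUnit y
      · have hxy : (x.val * y.val).Coprime (4 * d.natAbs) :=
          (coprime_val hd hx).mul_left (coprime_val hd hy)
        have : NeZero x.val := ⟨fun h => by
          have := odd_of_coprime (coprime_val hd hx)
          rw [h] at this
          exact (by decide : ¬ Odd 0) this⟩
        have : NeZero y.val := ⟨fun h => by
          have := odd_of_coprime (coprime_val hd hy)
          rw [h] at this
          exact (by decide : ¬ Odd 0) this⟩
        rw [if_pos (hx.mul hy), if_pos hx, if_pos hy, ZMod.val_mul,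
          ← jacobiSym.mod_right d (odd_of_coprime hxy), jacobiSym.mul_right, Int.cast_mul]
      · rw [if_neg hy, mul_zero, if_neg fun h => hy (isUnit_of_mul_isUnit_right h)]
    · rw [if_neg hx, zero_mul, if_neg fun h => hx (isUnit_of_mul_isUnit_left h)]
  map_nonunit' x hx := if_neg hx

theorem chiD_natCast (hd : d ≠ 0) {n : ℕ} (hn : n.Coprime (4 * d.natAbs)) :
    chiD d hd (n : ZMod (4 * d.natAbs)) = ((J(d | n) : ℤ) : ℂ) := by
  classical
  have hu : IsUnit (n : ZMod (4 * d.natAbs)) := (ZMod.isUnit_iff_coprime _ _).mpr hn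
  have h1 : chiD d hd (n : ZMod (4 * d.natAbs)) =
      ((J(d | (n : ZMod (4 * d.natAbs)).val) : ℤ) : ℂ) := if_pos hu
  rw [h1, ZMod.val_natCast, ← jacobiSym.mod_right d (odd_of_coprime hn)]

/-- At a prime the character is the Legendre symbol. -/
theorem chiD_prime (hd : d ≠ 0) {p : ℕ} [Fact p.Prime] (hp : ¬ p ∣ 4 * d.natAbs) :
    chiD d hd (p : ZMod (4 * d.natAbs)) = ((legendreSym p d : ℤ) : ℂ) := by
  rw [chiD_natCast hd ((Nat.Prime.coprime_iff_not_dvd Fact.out).mpr hp),
    jacobiSym.legendreSym.to_jacobiSym]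

theorem chiD_sq (hd : d ≠ 0) : chiD d hd ^ 2 = 1 := by
  classical
  have := neZero_mod hd
  ext x
  rw [MulChar.pow_apply_coe, MulChar.one_apply_coe]
  have h1 : chiD d hd (x : ZMod (4 * d.natAbs)) =
      ((J(d | (x : ZMod (4 * d.natAbs)).val) : ℤ) : ℂ) := if_pos x.isUnit
  rw [h1, ← Int.cast_pow, jacobiSym.sq_one (gcd_of_coprime (coprime_val hd x.isUnit)),
    Int.cast_one]

end Fermat.Agent.Cor.Twist

end
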