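import Fermat.Agent.TwES.Twist
import Fermat.Agent.Oldforms.Basic

/-!
# Quadratic twists of cusp forms of weight two

* `exists_twist`: for a Dirichlet character `χ` modulo `D ∣ M` with `χ ^ 2 = 1` and
  `f ∈ S₂(Γ₀(M))` there is `g ∈ S₂(Γ₀(D * M))` with coefficients `χ n * aₙ(f)`;
* `exists_eigenform_twist`: the twist of a normalised eigenform of level `N` is a normalised
  eigenform of level `D ^ 2 * N`.
-/

set_option autoImplicit false
set_option linter.unusedSectionVars false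

noncomputable section

open UpperHalfPlane Filter Topology Complex Function CongruenceSubgroup ModularFormClass
open scoped MatrixGroups Manifold ModularForm Real ComplexConjugate ZMod

namespace Fermat.Agent.Cor.Twist

open GenES TwES

section Form

variable {D M : ℕ} [NeZero D] [NeZero M] (hDM : D ∣ M) {χ : DirichletCharacter ℂ D}
  (hχ : χ ^ 2 = 1) (f : CuspForm (Gamma0 M) 2)

omit [NeZero D] in
include hχ in
theorem chi_sq {x : ZMod D} (hx : IsUnit x) : χ x * χ x = 1 := by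
  rw [← MulChar.mul_apply, ← sq, hχ, MulChar.one_apply hx]

include hDM hχ in
/-- Transformation law of the twist. -/
theorem addTwist_slash_quad {γ : SL(2, ℤ)} (hγ : γ ∈ Gamma0 (D * M)) :
    (addTwist (fun x => χ x) (f : ℍ → ℂ)) ∣[(2 : ℤ)] γ =
      addTwist (fun x => χ x) (f : ℍ → ℂ) := by
  classical
  have hγ0 : γ ∈ Gamma0 D := Oldforms.Gamma0_le_of_dvd (Dvd.intro M rfl) hγ
  have had : ((γ 0 0 : ℤ) : ZMod D) * ((γ 1 1 : ℤ) : ZMod D) = 1 :=
    Fermat.Agent.X1.gamma0_00_mul_11 hγ0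
  obtain ⟨d, hd⟩ : ∃ d : (ZMod D)ˣ, (d : ZMod D) = ((γ 1 1 : ℤ) : ZMod D) :=
    ⟨Units.mkOfMulEqOne _ _ (by rw [mul_comm]; exact had), rfl⟩
  have key : ∀ u : ZMod D, ((f : ℍ → ℂ) ∣[(2 : ℤ)] tmat D (u.val : ℤ)) ∣[(2 : ℤ)] γ =
      (f : ℍ → ℂ) ∣[(2 : ℤ)] tmat D ((((d ^ 2 : (ZMod D)ˣ) : ZMod D) * u).val : ℤ) := by
    intro u
    obtain ⟨γ', hγ', -, hmul⟩ := exists_tmat_mul' hDM hγ (u.val : ℤ)
      ((((d ^ 2 : (ZMod D)ˣ) : ZMod D) * u).val : ℤ) (by
        rw [Int.cast_natCast, Int.cast_natCast, ZMod.natCast_zmod_val, ZMod.natCast_zmod_val, ← hd,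
          Units.val_pow_eq_pow_val])
    have h1 : (f : ℍ → ℂ) ∣[(2 : ℤ)] (Matrix.SpecialLinearGroup.mapGL ℝ γ') = (f : ℍ → ℂ) :=
      SlashInvariantFormClass.slash_action_eq f _ (Subgroup.mem_map_of_mem _ hγ')
    rw [ModularForm.SL_slash, ← SlashAction.slash_mul]
    change (f : ℍ → ℂ) ∣[(2 : ℤ)] (tmat D (u.val : ℤ) * (Matrix.SpecialLinearGroup.mapGL ℝ γ)) = _
    rw [hmul, SlashAction.slash_mul, h1]
  have hdft : ∀ v : ZMod D, 𝓕 (fun x => χ x) (((d ^ 2)⁻¹ : (ZMod D)ˣ) * v) =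
      𝓕 (fun x => χ x) v := by
    intro v
    rw [← ZMod.dft_comp_unitMul]
    rw [ZMod.dft_apply, ZMod.dft_apply]
    refine Finset.sum_congr rfl fun j _ => ?_
    rw [map_mul, Units.val_pow_eq_pow_val, map_pow, sq, chi_sq hχ d.isUnit, one_mul]
  rw [addTwist, ModularForm.SL_slash, sum_slash_GL]
  have h4 : ∀ u : ZMod D, (((D : ℂ)⁻¹ * 𝓕 (fun x => χ x) u) •
      ((f : ℍ → ℂ) ∣[(2 : ℤ)] tmat D (u.val : ℤ))) ∣[(2 : ℤ)] (γ : GL (Fin 2) ℝ) =
      ((D : ℂ)⁻¹ * 𝓕 (fun x => χ x) u) •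
        ((f : ℍ → ℂ) ∣[(2 : ℤ)] tmat D ((((d ^ 2 : (ZMod D)ˣ) : ZMod D) * u).val : ℤ)) := by
    intro u
    rw [← ModularForm.SL_slash, ModularForm.SL_smul_slash, key]
  simp only [h4]
  refine Fintype.sum_equiv ((d ^ 2).mulLeft) _ _ fun u => ?_
  rw [Units.mulLeft_apply]
  congr 1
  have h5 := hdft (((d ^ 2 : (ZMod D)ˣ) : ZMod D) * u)
  rw [Units.inv_mul_cancel_left] at h5
  rw [h5]

include hDM hχ in
/-- **Quadratic twists of cusp forms.** -/
theorem exists_twist : ∃ g : CuspForm (Gamma0 (D * M)) 2,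
    ∀ n : ℕ, qCoeff ⇑g n = χ (n : ZMod D) * qCoeff ⇑f n := by
  have : NeZero (D * M) := ⟨mul_ne_zero (NeZero.ne D) (NeZero.ne M)⟩
  let g : CuspForm (Gamma0 (D * M)) 2 :=
    ((QCusp.of_form f).addTwist (fun x => χ x)).toForm fun _ hγ => addTwist_slash_quad hDM hχ f hγ
  refine ⟨g, fun n => ?_⟩
  exact QSer.coeff_eq (CongruenceSubgroup.one_mem_strictPeriods_Gamma0 _) (f := g)
    ((QSer.of_form (CongruenceSubgroup.one_mem_strictPeriods_Gamma0 _) f).addTwist _) n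

end Form

section Eigen

open CuspForm

variable {N D : ℕ} [NeZero N] [NeZero D] {χ : DirichletCharacter ℂ D}

/-- **The quadratic twist of a normalised eigenform is a normalised eigenform.** -/
theorem exists_eigenform_twist (hχ : χ ^ 2 = 1) {f : CuspForm (Gamma0 N) 2}
    (hf : f.IsNormalizedEigenform) :
    ∃ g : CuspForm (Gamma0 (D * (D * N))) 2, g.IsNormalizedEigenform ∧
      ∀ n : ℕ, qCoeff ⇑g n = χ (n : ZMod D) * qCoeff ⇑f n := by
  have : NeZero (D * N) := ⟨mul_ne_zero (NeZero.ne D) (NeZero.ne N)⟩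
  obtain ⟨g, hg⟩ := exists_twist (dvd_mul_right D N) hχ
    (Oldforms.restr (D * N) (dvd_mul_left N D) 2 f)
  rw [Oldforms.coe_restr] at hg
  refine ⟨g, ⟨?_, fun m n hmn => ?_, fun p r hp hpN => ?_, fun p r hp hpN => ?_⟩, hg⟩
  · rw [hg, hf.qCoeff_one, Nat.cast_one, map_one, one_mul]
  · rw [hg, hg, hg, hf.qCoeff_mul_of_coprime m n hmn, Nat.cast_mul, map_mul]
    ring
  · have hpN' : ¬ p ∣ N := fun h => hpN ((h.mul_left D).mul_left D)
    have hpD : ¬ p ∣ D := fun h => hpN (h.mul_right _)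
    have hu : IsUnit (p : ZMod D) := (ZMod.isUnit_iff_coprime p D).mpr
      ((Nat.Prime.coprime_iff_not_dvd hp).mpr hpD)
    rw [hg, hg, hg, hg, hf.qCoeff_prime_pow_of_not_dvd p r hp hpN']
    push_cast
    rw [map_pow, map_pow, map_pow]
    have h1 := chi_sq hχ hu
    linear_combination -(p : ℂ) * qCoeff ⇑f (p ^ r) * χ (p : ZMod D) ^ r * h1
  · by_cases hpD : p ∣ D
    · have hu : ¬ IsUnit (p : ZMod D) := by
        rw [ZMod.isUnit_iff_coprime, Nat.coprime_comm]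
        intro h
        exact hp.one_lt.ne' (Nat.eq_one_of_dvd_coprimes h hpD dvd_rfl)
      have h0 : χ (p : ZMod D) = 0 := χ.map_nonunit hu
      rw [hg, hg, hg]
      push_cast
      rw [map_pow, map_pow, h0, zero_pow (by omega), zero_mul, zero_mul, zero_mul]
    · have hpN' : p ∣ N := by
        rcases hp.dvd_mul.mp hpN with h | h
        · exact absurd h hpD
        · exact (hp.dvd_mul.mp h).resolve_left hpD
      rw [hg, hg, hg, hf.qCoeff_prime_pow_of_dvd p r hp hpN']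
      push_cast
      rw [map_pow, map_pow]
      ring

end Eigen

end Fermat.Agent.Cor.Twist

end
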