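import Mathlib

/-!
# The Tate normal form at a rational point

Let `P = (x, y)` be a point of an elliptic curve `E` over a field with `2 P ≠ 0`, `3 P ≠ 0`.  Then
`E` is isomorphic to `tate b c : y² + (1 - c) x y - b y = x³ - b x²`, with `P ↦ (0, 0)`, and
`c = 0`, `c = b`, ... if `P` has order `4`, `5`, ...
-/

set_option autoImplicit false

noncomputable section

open WeierstrassCurve

namespace Fermat.Agent.Cor.Twist

/-- `y² + (1 - c) x y - b y = x³ - b x²`. -/
def tate {F : Type*} [CommRing F] (b c : F) : WeierstrassCurve F := ⟨1 - c, -b, -b, 0, 0⟩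

/-- The change of variables `(g, x, s, y)` carries `E` to `tate b c`. -/
structure TateData {F : Type*} [Field F] (E : WeierstrassCurve F) (x y s g b c : F) : Prop where
  hg : g ≠ 0
  hb : b ≠ 0
  h1 : E.a₁ + 2 * s = g * (1 - c)
  h2 : E.a₂ - s * E.a₁ + 3 * x - s ^ 2 = -(g ^ 2 * b)
  h3 : E.a₃ + x * E.a₁ + 2 * y = -(g ^ 3 * b)
  h4 : E.a₄ - s * E.a₃ + 2 * x * E.a₂ - (y + x * s) * E.a₁ + 3 * x ^ 2 - 2 * s * y = 0
  h6 : E.a₆ + x * E.a₄ + x ^ 2 * E.a₂ + x ^ 3 - y * E.a₃ - y ^ 2 - x * y * E.a₁ = 0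

namespace TateData

section Field

variable {F : Type*} [Field F] {E : WeierstrassCurve F} {x y s g b c : F}
  (h : TateData E x y s g b c)

include h

theorem smul_eq : (⟨Units.mk0 g h.hg, x, s, y⟩ : VariableChange F) • E = tate b c := by
  have hg := h.hg
  ext
  · rw [variableChange_a₁, Units.val_inv_eq_inv_val, Units.val_mk0]
    simp only [tate]
    rw [h.h1]
    field_simp
  · rw [variableChange_a₂, Units.val_inv_eq_inv_val, Units.val_mk0]
    simp only [tate]
    rw [h.h2]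
    field_simp
  · rw [variableChange_a₃, Units.val_inv_eq_inv_val, Units.val_mk0]
    simp only [tate]
    rw [h.h3]
    field_simp
  · rw [variableChange_a₄, Units.val_inv_eq_inv_val, Units.val_mk0]
    simp only [tate]
    rw [h.h4, mul_zero]
  · rw [variableChange_a₆, Units.val_inv_eq_inv_val, Units.val_mk0]
    simp only [tate]
    rw [h.h6, mul_zero]

theorem c₄_eq : E.c₄ = (g ^ 2) ^ 2 * (tate b c).c₄ := by
  have hg := h.hg
  rw [← h.smul_eq, variableChange_c₄, Units.val_inv_eq_inv_val, Units.val_mk0]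
  field_simp

theorem c₆_eq : E.c₆ = (g ^ 2) ^ 3 * (tate b c).c₆ := by
  have hg := h.hg
  rw [← h.smul_eq, variableChange_c₆, Units.val_inv_eq_inv_val, Units.val_mk0]
  field_simp

theorem Δ_eq : E.Δ = g ^ 12 * (tate b c).Δ := by
  have hg := h.hg
  rw [← h.smul_eq, variableChange_Δ, Units.val_inv_eq_inv_val, Units.val_mk0]
  field_simp

end Field

end TateData

section Points

variable {F : Type*} [Field F] [DecidableEq F] {E : WeierstrassCurve F}

theorem add_eq_some {x₁ y₁ x₂ y₂ X Y ℓ : F} {h₁ : E.toAffine.Nonsingular x₁ y₁}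
    {h₂ : E.toAffine.Nonsingular x₂ y₂} (hxy : ¬(x₁ = x₂ ∧ y₁ = E.toAffine.negY x₂ y₂))
    (hℓ : E.toAffine.slope x₁ x₂ y₁ y₂ = ℓ) (hX : E.toAffine.addX x₁ x₂ ℓ = X)
    (hY : E.toAffine.addY x₁ x₂ y₁ ℓ = Y) :
    ∃ h', Affine.Point.some x₁ y₁ h₁ + Affine.Point.some x₂ y₂ h₂ = Affine.Point.some X Y h' := by
  subst hℓ hX hY
  exact ⟨_, Affine.Point.add_some hxy⟩

namespace TateData

variable {x y s g b c : F} (h : TateData E x y s g b c) {hP : E.toAffine.Nonsingular x y}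

include h

/-- `2 P`. -/
theorem two : ∃ h', Affine.Point.some x y hP + Affine.Point.some x y hP =
    Affine.Point.some (x + g ^ 2 * b) (y + g ^ 3 * b * c + s * g ^ 2 * b) h' := by
  have hg3 : g ^ 3 * b ≠ 0 := mul_ne_zero (pow_ne_zero _ h.hg) h.hb
  have h3 := h.h3
  have hy : y ≠ E.toAffine.negY x y := fun h' => hg3 <| by
    rw [Affine.negY] at h'
    linear_combination -h' + h3
  have hsl : E.toAffine.slope x x y y = s := by
    rw [Affine.slope_of_Y_ne rfl hy, Affine.negY]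
    have h5 : y - (-y - E.a₁ * x - E.a₃) ≠ 0 := fun h' => hg3 (by linear_combination h3 - h')
    rw [div_eq_iff h5]
    linear_combination h.h4
  refine add_eq_some (fun h' => hy h'.2) hsl ?_ ?_
  · rw [Affine.addX]
    linear_combination -h.h2
  · rw [Affine.addY, Affine.negAddY, Affine.addX, Affine.negY]
    linear_combination (s + E.a₁) * h.h2 - h.h3 - g ^ 2 * b * h.h1

/-- `3 P`. -/
theorem three {h₂ : E.toAffine.Nonsingular (x + g ^ 2 * b)
    (y + g ^ 3 * b * c + s * g ^ 2 * b)} : ∃ h', Affine.Point.some x y hP +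
      Affine.Point.some (x + g ^ 2 * b) (y + g ^ 3 * b * c + s * g ^ 2 * b) h₂ =
    Affine.Point.some (x + g ^ 2 * c) (y + g ^ 3 * (b - c) + s * g ^ 2 * c) h' := by
  have hg2 : g ^ 2 * b ≠ 0 := mul_ne_zero (pow_ne_zero _ h.hg) h.hb
  have hx : x ≠ x + g ^ 2 * b := fun h' => hg2 (by linear_combination -h')
  have hsl : E.toAffine.slope x (x + g ^ 2 * b) y (y + g ^ 3 * b * c + s * g ^ 2 * b) =
      g * c + s := by
    rw [Affine.slope_of_X_ne hx]
    have h5 : x - (x + g ^ 2 * b) ≠ 0 := sub_ne_zero.2 hx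
    rw [div_eq_iff h5]
    ring
  refine add_eq_some (fun h' => hx h'.1) hsl ?_ ?_
  · rw [Affine.addX]
    linear_combination g * c * h.h1 - h.h2
  · rw [Affine.addY, Affine.negAddY, Affine.addX, Affine.negY]
    linear_combination (-(g * c + s + E.a₁) * (g * c) - g ^ 2 * c) * h.h1 +
      (g * c + s + E.a₁) * h.h2 - h.h3

/-- `4 P`, if `3 P ≠ ± P`. -/
theorem four {d : F} (hc : c ≠ 0) (hd : b = d * c) {h₂ : E.toAffine.Nonsingular (x + g ^ 2 * c)
    (y + g ^ 3 * (b - c) + s * g ^ 2 * c)} : ∃ Y h', Affine.Point.some x y hP +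
      Affine.Point.some (x + g ^ 2 * c) (y + g ^ 3 * (b - c) + s * g ^ 2 * c) h₂ =
    Affine.Point.some (x + g ^ 2 * (d ^ 2 - d)) Y h' := by
  have hg2 : g ^ 2 * c ≠ 0 := mul_ne_zero (pow_ne_zero _ h.hg) hc
  have hx : x ≠ x + g ^ 2 * c := fun h' => hg2 (by linear_combination -h')
  have hsl : E.toAffine.slope x (x + g ^ 2 * c) y (y + g ^ 3 * (b - c) + s * g ^ 2 * c) =
      g * (d - 1) + s := by
    rw [Affine.slope_of_X_ne hx]
    have h5 : x - (x + g ^ 2 * c) ≠ 0 := sub_ne_zero.2 hx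
    rw [div_eq_iff h5, hd]
    ring
  refine ⟨_, add_eq_some (fun h' => hx h'.1) hsl ?_ rfl⟩
  rw [Affine.addX]
  linear_combination g * (d - 1) * h.h1 - h.h2 + g ^ 2 * hd

end TateData

/-- **The Tate normal form** at a point `P` with `2 P ≠ 0`, `3 P ≠ 0`. -/
theorem exists_tateData {x y : F} {hP : E.toAffine.Nonsingular x y}
    (h2 : (2 : ℕ) • Affine.Point.some x y hP ≠ 0) (h3 : (3 : ℕ) • Affine.Point.some x y hP ≠ 0) :
    ∃ s g b c : F, TateData E x y s g b c := by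
  have hy : y ≠ E.toAffine.negY x y := fun h' => h2 (by
    rw [two_nsmul]
    exact Affine.Point.add_of_Y_eq rfl h')
  have hD : E.a₃ + x * E.a₁ + 2 * y ≠ 0 := fun h' => hy (by
    rw [Affine.negY]
    linear_combination h')
  set s : F := (3 * x ^ 2 + 2 * E.a₂ * x + E.a₄ - E.a₁ * y) / (E.a₃ + x * E.a₁ + 2 * y) with hs
  have hs' : s * (E.a₃ + x * E.a₁ + 2 * y) = 3 * x ^ 2 + 2 * E.a₂ * x + E.a₄ - E.a₁ * y :=
    div_mul_cancel₀ _ hD
  set A₁ : F := E.a₁ + 2 * s with hA₁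
  set A₂ : F := E.a₂ - s * E.a₁ + 3 * x - s ^ 2 with hA₂
  set A₃ : F := E.a₃ + x * E.a₁ + 2 * y with hA₃
  have hA2 : A₂ ≠ 0 := fun h0 => by
    have hsl : E.toAffine.slope x x y y = s := by
      rw [Affine.slope_of_Y_ne rfl hy, Affine.negY]
      have h5 : y - (-y - E.a₁ * x - E.a₃) ≠ 0 := fun h' => hD (by linear_combination h')
      rw [div_eq_iff h5]
      linear_combination -hs'
    obtain ⟨h', e⟩ := add_eq_some (h₁ := hP) (h₂ := hP) (X := x)
      (Y := E.toAffine.addY x x y s) (fun h' => hy h'.2) hsl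
      (by
        rw [Affine.addX]
        linear_combination -h0 + hA₂) rfl
    have e2 : Affine.Point.some x (E.toAffine.addY x x y s) h' = -Affine.Point.some x y hP := by
      rw [Affine.Point.neg_some, Affine.Point.some.injEq]
      refine ⟨rfl, ?_⟩
      have e3 : E.toAffine.addX x x s = x := by
        rw [Affine.addX]
        linear_combination -h0 + hA₂
      rw [Affine.addY, Affine.negAddY, e3, sub_self, mul_zero, zero_add]
    apply h3
    rw [show (3 : ℕ) = 2 + 1 from rfl, add_nsmul, two_nsmul, one_nsmul, e, e2, neg_add_cancel]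
  refine ⟨s, A₃ / A₂, -(A₂ * (A₂ / A₃) ^ 2), 1 - A₁ * (A₂ / A₃), ⟨div_ne_zero hD hA2,
    neg_ne_zero.2 (mul_ne_zero hA2 (pow_ne_zero _ (div_ne_zero hA2 hD))), ?_, ?_, ?_, ?_, ?_⟩⟩
  · field_simp
    ring
  · field_simp
    exact hA₂.symm
  · field_simp
    exact hA₃.symm
  · linear_combination -hs'
  · have h5 := (Affine.equation_iff' _ _).1 hP.1
    linear_combination -h5

/-- The multiples `2 P`, `3 P` of a point of order `n ≥ 4`. -/
theorem exists_multiples {P : E.toAffine.Point} {n : ℕ} (hn : 4 ≤ n) (hP : addOrderOf P = n) :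
    ∃ (x y s g b c : F) (h₁ : E.toAffine.Nonsingular x y)
      (h₂ : E.toAffine.Nonsingular (x + g ^ 2 * b) (y + g ^ 3 * b * c + s * g ^ 2 * b))
      (h₃ : E.toAffine.Nonsingular (x + g ^ 2 * c) (y + g ^ 3 * (b - c) + s * g ^ 2 * c)),
      TateData E x y s g b c ∧ P = Affine.Point.some _ _ h₁ ∧
        (2 : ℕ) • P = Affine.Point.some _ _ h₂ ∧ (3 : ℕ) • P = Affine.Point.some _ _ h₃ := by
  have hk : ∀ k : ℕ, 0 < k → k < 4 → k • P ≠ 0 := fun k h0 h4 h' => by
    have h5 := addOrderOf_dvd_of_nsmul_eq_zero h'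
    rw [hP] at h5
    exact absurd (Nat.le_of_dvd h0 h5) (by omega)
  rcases P with _ | ⟨x, y, h⟩
  · exact absurd rfl (hk 1 one_pos (by norm_num))
  obtain ⟨s, g, b, c, hT⟩ := exists_tateData (hP := h) (hk 2 (by norm_num) (by norm_num))
    (hk 3 (by norm_num) (by norm_num))
  obtain ⟨h₂, e₂⟩ := hT.two (hP := h)
  obtain ⟨h₃, e₃⟩ := hT.three (hP := h) (h₂ := h₂)
  refine ⟨x, y, s, g, b, c, h, h₂, h₃, hT, rfl, ?_, ?_⟩
  · rw [two_nsmul, e₂]
  · exact (succ_nsmul' _ 2).trans (by rw [two_nsmul, e₂, e₃])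

theorem nsmul_ne_zero_of_lt {P : E.toAffine.Point} {n k : ℕ} (hP : addOrderOf P = n) (h0 : 0 < k)
    (hk : k < n) : k • P ≠ 0 := fun h' => by
  have h5 := addOrderOf_dvd_of_nsmul_eq_zero h'
  rw [hP] at h5
  exact absurd (Nat.le_of_dvd h0 h5) (by omega)

theorem nsmul_eq_neg {P : E.toAffine.Point} {n k l : ℕ} (hP : addOrderOf P = n)
    (h : k + l = n) : k • P = -(l • P) := by
  rw [eq_neg_iff_add_eq_zero, ← add_nsmul, h, ← hP]
  exact addOrderOf_nsmul_eq_zero P

/-- The Tate normal form at a point of order `4`. -/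
theorem exists_tate_four {P : E.toAffine.Point} (hP : addOrderOf P = 4) :
    ∃ x y s g b : F, TateData E x y s g b 0 := by
  obtain ⟨x, y, s, g, b, c, h₁, h₂, h₃, hT, e₁, e₂, e₃⟩ := exists_multiples le_rfl hP
  have h4 : (3 : ℕ) • P = -P := by
    have h5 := nsmul_eq_neg (k := 3) (l := 1) hP rfl
    rwa [one_nsmul] at h5
  rw [e₃] at h4
  rw [e₁, Affine.Point.neg_some, Affine.Point.some.injEq] at h4
  have h5 : g ^ 2 * c = 0 := by linear_combination h4.1
  have h6 : c = 0 := (mul_eq_zero.1 h5).resolve_left (pow_ne_zero _ hT.hg)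
  subst h6
  exact ⟨x, y, s, g, b, hT⟩

/-- The Tate normal form at a point of order `5`. -/
theorem exists_tate_five {P : E.toAffine.Point} (hP : addOrderOf P = 5) :
    ∃ x y s g t : F, TateData E x y s g t t := by
  obtain ⟨x, y, s, g, b, c, h₁, h₂, h₃, hT, e₁, e₂, e₃⟩ := exists_multiples (by norm_num) hP
  have h4 := nsmul_eq_neg (k := 3) (l := 2) hP rfl
  rw [e₃, e₂, Affine.Point.neg_some, Affine.Point.some.injEq] at h4
  have h5 : g ^ 2 * (c - b) = 0 := by linear_combination h4.1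
  have h6 : c = b := sub_eq_zero.1 ((mul_eq_zero.1 h5).resolve_left (pow_ne_zero _ hT.hg))
  subst h6
  exact ⟨x, y, s, g, c, hT⟩

/-- `c ≠ 0` for a point of order `> 4`. -/
theorem c_ne_zero {P : E.toAffine.Point} {n : ℕ} (hn : 4 < n) (hP : addOrderOf P = n)
    {x y X Y : F} {h₁ : E.toAffine.Nonsingular x y} {h₃ : E.toAffine.Nonsingular X Y}
    (e₁ : P = Affine.Point.some _ _ h₁) (e₃ : (3 : ℕ) • P = Affine.Point.some _ _ h₃) :
    x ≠ X := fun h => by
  rcases (Affine.Point.X_eq_iff (h₁ := h₁) (h₂ := h₃)).1 h with h' | h'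
  · rw [← e₁, ← e₃] at h'
    refine nsmul_ne_zero_of_lt hP (k := 2) (by norm_num) (by omega) ?_
    have h5 : P + (2 : ℕ) • P = P + 0 := by
      rw [add_zero]
      nth_rewrite 3 [h']
      exact (succ_nsmul' _ 2).symm
    exact add_left_cancel h5
  · rw [← e₁, ← e₃] at h'
    refine nsmul_ne_zero_of_lt hP (k := 4) (by norm_num) hn ?_
    exact (succ_nsmul' _ 3).trans (eq_neg_iff_add_eq_zero.1 h')

/-- `4 P`. -/
theorem exists_four_nsmul {P : E.toAffine.Point} {n : ℕ} (hn : 4 < n) (hP : addOrderOf P = n)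
    {x y s g b c : F} {h₁ : E.toAffine.Nonsingular x y}
    {h₃ : E.toAffine.Nonsingular (x + g ^ 2 * c) (y + g ^ 3 * (b - c) + s * g ^ 2 * c)}
    (hT : TateData E x y s g b c) (e₁ : P = Affine.Point.some _ _ h₁)
    (e₃ : (3 : ℕ) • P = Affine.Point.some _ _ h₃) : ∃ d : F, c ≠ 0 ∧ b = d * c ∧
      ∃ Y h₄, (4 : ℕ) • P = Affine.Point.some (x + g ^ 2 * (d ^ 2 - d)) Y h₄ := by
  have hc : c ≠ 0 := fun h0 => c_ne_zero hn hP e₁ e₃ (by rw [h0, mul_zero, add_zero])
  have hd : b = b / c * c := (div_mul_cancel₀ _ hc).symm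
  obtain ⟨Y, h₄, e₄⟩ := hT.four (hP := h₁) hc hd (h₂ := h₃)
  refine ⟨b / c, hc, hd, Y, h₄, ?_⟩
  exact (succ_nsmul' _ 3).trans (by rw [e₃, e₁, e₄])

/-- The Tate normal form at a point of order `6`. -/
theorem exists_tate_six {P : E.toAffine.Point} (hP : addOrderOf P = 6) :
    ∃ x y s g c : F, TateData E x y s g (c + c ^ 2) c := by
  obtain ⟨x, y, s, g, b, c, h₁, h₂, h₃, hT, e₁, e₂, e₃⟩ := exists_multiples (by norm_num) hP
  obtain ⟨d, hc, hd, Y, h₄, e₄⟩ := exists_four_nsmul (by norm_num) hP hT e₁ e₃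
  have h4 := nsmul_eq_neg (k := 4) (l := 2) hP rfl
  rw [e₄, e₂, Affine.Point.neg_some, Affine.Point.some.injEq] at h4
  have h5 : g ^ 2 * (d ^ 2 - d - b) = 0 := by linear_combination h4.1
  have h6 : d ^ 2 - d - b = 0 := (mul_eq_zero.1 h5).resolve_left (pow_ne_zero _ hT.hg)
  have hd0 : d ≠ 0 := fun h0 => hT.hb (by rw [hd, h0, zero_mul])
  have h7 : d * (d - 1 - c) = 0 := by linear_combination h6 + hd
  have h8 : d = 1 + c := by
    have h9 := (mul_eq_zero.1 h7).resolve_left hd0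
    linear_combination h9
  have h9 : b = c + c ^ 2 := by rw [hd, h8]; ring
  subst h9
  exact ⟨x, y, s, g, c, hT⟩

/-- The Tate normal form at a point of order `7`. -/
theorem exists_tate_seven {P : E.toAffine.Point} (hP : addOrderOf P = 7) :
    ∃ x y s g d : F, TateData E x y s g (d ^ 3 - d ^ 2) (d ^ 2 - d) := by
  obtain ⟨x, y, s, g, b, c, h₁, h₂, h₃, hT, e₁, e₂, e₃⟩ := exists_multiples (by norm_num) hP
  obtain ⟨d, hc, hd, Y, h₄, e₄⟩ := exists_four_nsmul (by norm_num) hP hT e₁ e₃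
  have h4 := nsmul_eq_neg (k := 4) (l := 3) hP rfl
  rw [e₄, e₃, Affine.Point.neg_some, Affine.Point.some.injEq] at h4
  have h5 : g ^ 2 * (d ^ 2 - d - c) = 0 := by linear_combination h4.1
  have h6 : c = d ^ 2 - d := by
    have h7 := (mul_eq_zero.1 h5).resolve_left (pow_ne_zero _ hT.hg)
    linear_combination -h7
  have h9 : b = d ^ 3 - d ^ 2 := by rw [hd, h6]; ring
  subst h9 h6
  exact ⟨x, y, s, g, d, hT⟩

end Points

end Fermat.Agent.Cor.Twist

end
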