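import Fermat.Agent.Corollaries.Twist.Main

/-!
# Modularity depends only on the numbers `a_p` for almost all `p`

* `isModularModel_of_ap_eq`: if `a_p(W) = a_p(W')` for all primes `p` outside a finite set and `W` is
  modular, then `W'` is modular.
-/

set_option autoImplicit false

noncomputable section

open WeierstrassCurve CongruenceSubgroup ModularFormClass

namespace Fermat.Agent.Cor.Twist

/-- Removing the coefficients at the primes dividing `D`. -/
theorem exists_deplete {N D : ℕ} [NeZero N] [NeZero D] {f : CuspForm (Gamma0 N) 2}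
    (hf : f.IsNormalizedEigenform) :
    ∃ g : CuspForm (Gamma0 (D * (D * N))) 2, g.IsNormalizedEigenform ∧
      ∀ n : ℕ, n.Coprime D → qCoeff ⇑g n = qCoeff ⇑f n := by
  obtain ⟨g, hg, h⟩ := exists_eigenform_twist (N := N) (D := D) (χ := 1) (one_pow 2) hf
  refine ⟨g, hg, fun n hn => ?_⟩
  rw [h n, MulChar.one_apply ((ZMod.isUnit_iff_coprime n D).mpr hn), one_mul]

/-- **Modularity depends only on `a_p` for almost all `p`.** -/
theorem isModularModel_of_ap_eq {W W' : WeierstrassCurve ℤ} (h : W.IsModularModel)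
    (hΔ : W.Δ ≠ 0) (S : Finset ℕ)
    (hap : ∀ p : ℕ, p.Prime → p ∉ S → W.IsGoodPrimeFor p → W'.IsGoodPrimeFor p →
      W.apOfModel p = W'.apOfModel p) : W'.IsModularModel := by
  obtain ⟨N, hN, f, hf, hfp⟩ := h
  set D : ℕ := W.Δ.natAbs * ∏ q ∈ S.filter Nat.Prime, q with hD
  have hD0 : D ≠ 0 := mul_ne_zero (Int.natAbs_ne_zero.mpr hΔ)
    (Finset.prod_ne_zero_iff.mpr fun q hq => (Finset.mem_filter.mp hq).2.ne_zero)
  have : NeZero N := ⟨hN.ne'⟩
  have : NeZero D := ⟨hD0⟩
  obtain ⟨g, hg, h⟩ := exists_deplete (D := D) hf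
  refine ⟨D * (D * N), Nat.pos_of_ne_zero (mul_ne_zero hD0 (mul_ne_zero hD0 hN.ne')), g, hg,
    fun p hp hgood hpN => ?_⟩
  have hpD : ¬ p ∣ D := fun h' => hpN (h'.mul_right _)
  have hpN' : ¬ p ∣ N := fun h' => hpN ((h'.mul_left _).mul_left _)
  have hpΔ : W.IsGoodPrimeFor p := fun h' => hpD (by
    rw [hD]
    exact (Int.natCast_dvd.mp h').mul_right _)
  have hpS : p ∉ S := fun h' => hpD (by
    rw [hD]
    exact (Finset.dvd_prod_of_mem (fun q => q) (Finset.mem_filter.mpr ⟨h', hp⟩)).mul_left _)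
  rw [h p ((Nat.Prime.coprime_iff_not_dvd hp).mpr hpD), hfp p hp hpΔ hpN',
    hap p hp hpS hpΔ hgood]

end Fermat.Agent.Cor.Twist

end
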