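import Fermat.Agent.Corollaries.Twist.TwoTorsion

/-!
# Duplication and points of order `3`

* `dup_root`: if `2 P = (X, Z)`, `P = (x, y)` and `e` is a root of the `2`-division polynomial, then
  `(X - e) (2 y + a₁ x + a₃)² = ((x - e)² - B)²`, `B = 3 e² + b₂ e / 2 + b₄ / 2`;
* `exists_flex`: if `P = (x₀, y₀)` has order `3` then
  `4 x³ + b₂ x² + 2 b₄ x + b₆ = 4 (x - x₀)³ + (a (x - x₀) + b)²`, `b ≠ 0`.
-/

set_option autoImplicit false

noncomputable section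

open WeierstrassCurve

namespace Fermat.Agent.Cor.Twist

variable {E : WeierstrassCurve ℚ}

/-- `(2 y + a₁ x + a₃)² = 4 x³ + b₂ x² + 2 b₄ x + b₆`. -/
theorem sq_Y {x y : ℚ} (h : E.toAffine.Equation x y) : (2 * y + E.a₁ * x + E.a₃) ^ 2 =
    4 * x ^ 3 + E.b₂ * x ^ 2 + 2 * E.b₄ * x + E.b₆ := by
  have h1 := (Affine.equation_iff' _ _).mp h
  simp only [WeierstrassCurve.b₂, WeierstrassCurve.b₄, WeierstrassCurve.b₆]
  linear_combination 4 * h1

/-- Duplication. -/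
theorem dup {x y X Z : ℚ} {h : E.toAffine.Nonsingular x y} {h' : E.toAffine.Nonsingular X Z}
    (h2 : (2 : ℕ) • Affine.Point.some x y h = Affine.Point.some X Z h') :
    2 * y + E.a₁ * x + E.a₃ ≠ 0 ∧ X * (2 * y + E.a₁ * x + E.a₃) ^ 2 =
      x ^ 4 - E.b₄ * x ^ 2 - 2 * E.b₆ * x - E.b₈ := by
  rw [two_nsmul] at h2
  have hy : y ≠ E.toAffine.negY x y := fun hy => by
    rw [Affine.Point.add_of_Y_eq rfl hy] at h2
    exact absurd h2.symm (Affine.Point.some_ne_zero h')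
  have hY : 2 * y + E.a₁ * x + E.a₃ ≠ 0 := fun h0 => hy (by
    rw [Affine.negY]
    linear_combination h0)
  refine ⟨hY, ?_⟩
  rw [Affine.Point.add_self_of_Y_ne hy, Affine.Point.some.injEq] at h2
  set l : ℚ := E.toAffine.slope x x y y with hl
  have hl' : l * (2 * y + E.a₁ * x + E.a₃) = 3 * x ^ 2 + 2 * E.a₂ * x + E.a₄ - E.a₁ * y := by
    rw [hl, Affine.slope_of_Y_ne rfl hy, Affine.negY]
    have h5 : y - (-y - E.a₁ * x - E.a₃) ≠ 0 := fun h' => hY (by linear_combination h')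
    rw [div_mul_eq_mul_div, div_eq_iff h5]
    ring
  have h3 := h2.1
  rw [Affine.addX] at h3
  have h4 := (Affine.equation_iff' _ _).mp h.1
  simp only [WeierstrassCurve.b₄, WeierstrassCurve.b₆, WeierstrassCurve.b₈]
  rw [← h3]
  linear_combination (l * (2 * y + E.a₁ * x + E.a₃) + (3 * x ^ 2 + 2 * E.a₂ * x + E.a₄ -
    E.a₁ * y) + E.a₁ * (2 * y + E.a₁ * x + E.a₃)) * hl' +
    (-E.a₁ ^ 2 - 4 * E.a₂ - 8 * x) * h4

/-- Duplication and a root `e` of the `2`-division polynomial. -/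
theorem dup_root {x y X Z e : ℚ} {h : E.toAffine.Nonsingular x y}
    {h' : E.toAffine.Nonsingular X Z}
    (h2 : (2 : ℕ) • Affine.Point.some x y h = Affine.Point.some X Z h')
    (he : 4 * e ^ 3 + E.b₂ * e ^ 2 + 2 * E.b₄ * e + E.b₆ = 0) :
    (X - e) * (2 * y + E.a₁ * x + E.a₃) ^ 2 =
      ((x - e) ^ 2 - (3 * e ^ 2 + E.b₂ / 2 * e + E.b₄ / 2)) ^ 2 := by
  have h3 := (dup h2).2
  have h4 := sq_Y h.1
  have h5 := E.b_relation
  linear_combination h3 - e * h4 - (2 * x + e + E.b₂ / 4) * he - h5 / 4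

/-- The invariants of a curve with a point of order `3` above `x₀`. -/
structure Flex (E : WeierstrassCurve ℚ) (x₀ a b : ℚ) : Prop where
  hb : b ≠ 0
  b₂ : E.b₂ = a ^ 2 - 12 * x₀
  b₄ : E.b₄ = a * b - a ^ 2 * x₀ + 6 * x₀ ^ 2
  b₆ : E.b₆ = b ^ 2 - 2 * a * b * x₀ + a ^ 2 * x₀ ^ 2 - 4 * x₀ ^ 3

theorem exists_flex {P : E.toAffine.Point} (hP : addOrderOf P = 3) :
    ∃ x₀ a b : ℚ, Flex E x₀ a b := by
  rcases P with _ | ⟨x, y, h⟩
  · exfalso
    have h1 : addOrderOf (0 : E.toAffine.Point) = 3 := hP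
    rw [addOrderOf_zero] at h1
    exact absurd h1 (by norm_num)
  have h3 : (2 : ℕ) • Affine.Point.some x y h = -Affine.Point.some x y h := by
    rw [eq_neg_iff_add_eq_zero]
    have h4 : (3 : ℕ) • Affine.Point.some x y h = 0 := by
      rw [← hP]
      exact addOrderOf_nsmul_eq_zero _
    exact (succ_nsmul _ 2).symm.trans h4
  rw [Affine.Point.neg_some] at h3
  obtain ⟨hY, hX⟩ := dup h3
  rw [two_nsmul] at h3
  have hy : y ≠ E.toAffine.negY x y := fun hy => hY (by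
    rw [Affine.negY] at hy
    linear_combination hy)
  rw [Affine.Point.add_self_of_Y_ne hy, Affine.Point.some.injEq] at h3
  set l : ℚ := E.toAffine.slope x x y y with hl
  have hl' : l * (2 * y + E.a₁ * x + E.a₃) = 3 * x ^ 2 + 2 * E.a₂ * x + E.a₄ - E.a₁ * y := by
    rw [hl, Affine.slope_of_Y_ne rfl hy, Affine.negY]
    have h5 : y - (-y - E.a₁ * x - E.a₃) ≠ 0 := fun h' => hY (by linear_combination h')
    rw [div_mul_eq_mul_div, div_eq_iff h5]
    ring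
  have h4 := h3.1
  rw [Affine.addX] at h4
  have h5 := (Affine.equation_iff' _ _).mp h.1
  have e2 : E.b₂ = (E.a₁ + 2 * l) ^ 2 - 12 * x := by
    rw [WeierstrassCurve.b₂]
    linear_combination -4 * h4
  have e4 : E.b₄ = (E.a₁ + 2 * l) * (2 * y + E.a₁ * x + E.a₃) - (E.a₁ + 2 * l) ^ 2 * x +
      6 * x ^ 2 := by
    rw [WeierstrassCurve.b₄]
    linear_combination -2 * hl' + 4 * x * h4
  have e6 := sq_Y h.1
  refine ⟨x, E.a₁ + 2 * l, 2 * y + E.a₁ * x + E.a₃, hY, e2, e4, ?_⟩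
  linear_combination -e6 - x ^ 2 * e2 - 2 * x * e4

namespace Flex

variable {x₀ a b : ℚ} (h : Flex E x₀ a b)

include h

theorem c₄ : E.c₄ = a ^ 4 - 24 * (a * b) := by
  rw [WeierstrassCurve.c₄, h.b₂, h.b₄]
  ring

theorem c₆ : E.c₆ = -a ^ 6 + 36 * a ^ 3 * b - 216 * b ^ 2 := by
  rw [WeierstrassCurve.c₆, h.b₂, h.b₄, h.b₆]
  ring

theorem Δ : E.Δ = b ^ 3 * (a ^ 3 - 27 * b) := by
  have h1 := E.c_relation
  rw [h.c₄, h.c₆] at h1
  have h2 : (1728 : ℚ) ≠ 0 := by norm_num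
  apply mul_left_cancel₀ h2
  linear_combination h1

/-- A root of the `2`-division polynomial is `x₀ - z²` with `2 z³ - a z² + b = 0`. -/
theorem exists_root {e : ℚ} (he : 4 * e ^ 3 + E.b₂ * e ^ 2 + 2 * E.b₄ * e + E.b₆ = 0) :
    ∃ z : ℚ, z ≠ 0 ∧ e = x₀ - z ^ 2 ∧ 2 * z ^ 3 - a * z ^ 2 + b = 0 := by
  have h1 : 4 * (e - x₀) ^ 3 + (a * (e - x₀) + b) ^ 2 = 0 := by
    rw [h.b₂, h.b₄, h.b₆] at he
    linear_combination he
  have hX : e - x₀ ≠ 0 := fun h0 => h.hb (by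
    rw [h0] at h1
    have h2 : b ^ 2 = 0 := by linear_combination h1
    exact pow_eq_zero_iff two_ne_zero |>.mp h2)
  set X : ℚ := e - x₀ with hXd
  set z : ℚ := (a * X + b) / (2 * X) with hz
  have hzX : z * (2 * X) = a * X + b := div_mul_cancel₀ _ (mul_ne_zero two_ne_zero hX)
  have hz2 : z ^ 2 = -X := by
    have h3 : X ^ 2 * (z ^ 2 + X) = 0 := by
      linear_combination (z * (2 * X) + (a * X + b)) / 4 * hzX + h1 / 4
    have h4 := (mul_eq_zero.1 h3).resolve_left (pow_ne_zero _ hX)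
    linear_combination h4
  refine ⟨z, fun h0 => hX (by rw [h0] at hz2; linear_combination hz2), ?_, ?_⟩
  · rw [hz2]
    ring
  · linear_combination -hzX + (2 * z - a) * hz2

end Flex

end Fermat.Agent.Cor.Twist

end
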