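import Fermat.Agent.Corollaries.Twist.Torsion

/-!
# Modularity of elliptic curves with a rational point of order `n ≥ 4`

* `isModular_of_order_nine`: an elliptic curve over `ℚ` with a rational point of order `9`,
  semistable at `3` up to a local quadratic twist, is modular;
* `isModular_of_torsion`: an elliptic curve over `ℚ` with a rational point of order
  `n = 4, 5, 6, 7, 8, 9, 10` or `12`, semistable at the primes dividing `n` up to local quadratic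
  twists, is modular.
-/

set_option autoImplicit false

noncomputable section

open WeierstrassCurve

namespace Fermat.Agent.Cor.Twist

/-! ### The Tate normal form at a point of order `9` -/

section Points

variable {F : Type*} [Field F] [DecidableEq F] {E : WeierstrassCurve F}

namespace TateData

variable {x y s g b c : F} (h : TateData E x y s g b c) {hP : E.toAffine.Nonsingular x y}

include h

/-- `4 P`, with its second coordinate. -/
theorem four_eq {d : F} (hc : c ≠ 0) (hd : b = d * c)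
    {h₂ : E.toAffine.Nonsingular (x + g ^ 2 * c) (y + g ^ 3 * (b - c) + s * g ^ 2 * c)} :
    ∃ h', Affine.Point.some x y hP +
      Affine.Point.some (x + g ^ 2 * c) (y + g ^ 3 * (b - c) + s * g ^ 2 * c) h₂ =
    Affine.Point.some (x + g ^ 2 * (d ^ 2 - d))
      (y + g ^ 3 * (d ^ 2 * (c - d + 1)) + s * g ^ 2 * (d ^ 2 - d)) h' := by
  have hg2 : g ^ 2 * c ≠ 0 := mul_ne_zero (pow_ne_zero _ h.hg) hc
  have hx : x ≠ x + g ^ 2 * c := fun h' => hg2 (by linear_combination -h')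
  have hsl : E.toAffine.slope x (x + g ^ 2 * c) y (y + g ^ 3 * (b - c) + s * g ^ 2 * c) =
      g * (d - 1) + s := by
    rw [Affine.slope_of_X_ne hx]
    have h5 : x - (x + g ^ 2 * c) ≠ 0 := sub_ne_zero.2 hx
    rw [div_eq_iff h5, hd]
    ring
  refine add_eq_some (fun h' => hx h'.1) hsl ?_ ?_
  · rw [Affine.addX]
    linear_combination g * (d - 1) * h.h1 - h.h2 + g ^ 2 * hd
  · rw [Affine.addY, Affine.negAddY, Affine.addX, Affine.negY]
    linear_combination (-(g * (d - 1) + s + E.a₁) * (g * (d - 1)) - g ^ 2 * (d ^ 2 - d)) * h.h1 +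
      (g * (d - 1) + s + E.a₁) * h.h2 - h.h3 +
      (-(g * (d - 1) + s + E.a₁) * g ^ 2 + g ^ 3) * hd

/-- The first coordinate of `5 P`. -/
theorem five {d e : F} (hd0 : d ^ 2 - d ≠ 0) (hd : b = d * c) (he : c = e * (d - 1))
    {h₂ : E.toAffine.Nonsingular (x + g ^ 2 * (d ^ 2 - d))
      (y + g ^ 3 * (d ^ 2 * (c - d + 1)) + s * g ^ 2 * (d ^ 2 - d))} :
    ∃ Y h', Affine.Point.some x y hP + Affine.Point.some (x + g ^ 2 * (d ^ 2 - d))
      (y + g ^ 3 * (d ^ 2 * (c - d + 1)) + s * g ^ 2 * (d ^ 2 - d)) h₂ =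
    Affine.Point.some (x + g ^ 2 * (d * e * (e - 1))) Y h' := by
  have hg2 : g ^ 2 * (d ^ 2 - d) ≠ 0 := mul_ne_zero (pow_ne_zero _ h.hg) hd0
  have hx : x ≠ x + g ^ 2 * (d ^ 2 - d) := fun h' => hg2 (by linear_combination -h')
  have hsl : E.toAffine.slope x (x + g ^ 2 * (d ^ 2 - d)) y
      (y + g ^ 3 * (d ^ 2 * (c - d + 1)) + s * g ^ 2 * (d ^ 2 - d)) =
      g * (d * (e - 1)) + s := by
    rw [Affine.slope_of_X_ne hx]
    have h5 : x - (x + g ^ 2 * (d ^ 2 - d)) ≠ 0 := sub_ne_zero.2 hx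
    rw [div_eq_iff h5, he]
    ring
  refine ⟨_, add_eq_some (fun h' => hx h'.1) hsl ?_ rfl⟩
  rw [Affine.addX]
  linear_combination g * (d * (e - 1)) * h.h1 - h.h2 + g ^ 2 * hd +
    (g ^ 2 * d - g ^ 2 * (d * (e - 1))) * he

end TateData

/-- The Tate normal form at a point of order `9`. -/
theorem exists_tate_nine {P : E.toAffine.Point} (hP : addOrderOf P = 9) :
    ∃ x y s g e : F, TateData E x y s g ((e ^ 2 - e + 1) * (e ^ 3 - e ^ 2)) (e ^ 3 - e ^ 2) := by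
  obtain ⟨x, y, s, g, b, c, h₁, h₂, h₃, hT, e₁, e₂, e₃⟩ := exists_multiples (by norm_num) hP
  have hc : c ≠ 0 := fun h0 => c_ne_zero (by norm_num) hP e₁ e₃ (by rw [h0, mul_zero, add_zero])
  set d : F := b / c with hdd
  have hd : b = d * c := (div_mul_cancel₀ _ hc).symm
  obtain ⟨h₄, e₄'⟩ := hT.four_eq (hP := h₁) hc hd (h₂ := h₃)
  have e₄ : (4 : ℕ) • P = Affine.Point.some _ _ h₄ :=
    (succ_nsmul' _ 3).trans (by rw [e₃, e₁, e₄'])
  have hd0 : d ≠ 0 := fun h0 => hT.hb (by rw [hd, h0, zero_mul])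
  -- `4 P ≠ ± P`
  have hx : x ≠ x + g ^ 2 * (d ^ 2 - d) := fun h0 => by
    rcases (Affine.Point.X_eq_iff (h₁ := h₁) (h₂ := h₄)).1 h0 with h' | h'
    · rw [← e₁, ← e₄] at h'
      refine nsmul_ne_zero_of_lt hP (k := 3) (by norm_num) (by norm_num) ?_
      have h5 : P + (3 : ℕ) • P = P + 0 := by
        rw [add_zero]
        nth_rewrite 3 [h']
        exact (succ_nsmul' _ 3).symm
      exact add_left_cancel h5
    · rw [← e₁, ← e₄] at h'
      exact nsmul_ne_zero_of_lt hP (k := 5) (by norm_num) (by norm_num)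
        ((succ_nsmul' _ 4).trans (eq_neg_iff_add_eq_zero.1 h'))
  have hdd0 : d ^ 2 - d ≠ 0 := fun h0 => hx (by rw [h0, mul_zero, add_zero])
  have hd1 : d - 1 ≠ 0 := fun h0 => hdd0 (by linear_combination d * h0)
  obtain ⟨e, he⟩ : ∃ e : F, c = e * (d - 1) := ⟨c / (d - 1), (div_mul_cancel₀ _ hd1).symm⟩
  obtain ⟨Y, h₅, e₅'⟩ := hT.five (hP := h₁) hdd0 hd he (h₂ := h₄)
  have e₅ : (5 : ℕ) • P = Affine.Point.some _ _ h₅ :=
    (succ_nsmul' _ 4).trans (by rw [e₄, e₁, e₅'])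
  have h6 := nsmul_eq_neg (k := 5) (l := 4) hP rfl
  rw [e₅, e₄, Affine.Point.neg_some, Affine.Point.some.injEq] at h6
  have h7 : g ^ 2 * (d * (e ^ 2 - e - (d - 1))) = 0 := by linear_combination h6.1
  have h8 : d = e ^ 2 - e + 1 := by
    have h9 := (mul_eq_zero.1 ((mul_eq_zero.1 h7).resolve_left
      (pow_ne_zero _ hT.hg))).resolve_left hd0
    linear_combination -h9
  have h9 : c = e ^ 3 - e ^ 2 := by rw [he, h8]; ring
  have h10 : b = (e ^ 2 - e + 1) * (e ^ 3 - e ^ 2) := by rw [hd, h8, h9]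
  rw [h10, h9] at hT
  exact ⟨x, y, s, g, e, hT⟩

end Points

/-! ### The family -/

/-- The Tate normal form with the point `(0, 0)` of order `9`, `t = u / v`. -/
def curve9 (u v : ℤ) : WeierstrassCurve ℤ :=
  ⟨v ^ 3 - u ^ 3 + u ^ 2 * v, -(v * (u ^ 2 - u * v + v ^ 2) * (u ^ 3 - u ^ 2 * v)),
    -(v ^ 4 * (u ^ 2 - u * v + v ^ 2) * (u ^ 3 - u ^ 2 * v)), 0, 0⟩

theorem curve9_c₄ (u v : ℤ) : (curve9 u v).c₄ =
    u ^ 12 - 12 * u ^ 11 * v + 54 * u ^ 10 * v ^ 2 - 128 * u ^ 9 * v ^ 3 + 189 * u ^ 8 * v ^ 4 -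
      180 * u ^ 7 * v ^ 5 + 114 * u ^ 6 * v ^ 6 - 36 * u ^ 5 * v ^ 7 - 18 * u ^ 4 * v ^ 8 +
      28 * u ^ 3 * v ^ 9 - 12 * u ^ 2 * v ^ 10 + v ^ 12 := by
  simp only [curve9, WeierstrassCurve.c₄, WeierstrassCurve.b₂, WeierstrassCurve.b₄]
  ring

theorem curve9_Δ (u v : ℤ) : (curve9 u v).Δ = u ^ 9 * v ^ 9 * (u - v) ^ 9 *
    ((u ^ 2 - u * v + v ^ 2) ^ 3 * (u ^ 3 - 6 * u ^ 2 * v + 3 * u * v ^ 2 + v ^ 3)) := by
  simp only [curve9, WeierstrassCurve.Δ, WeierstrassCurve.b₂, WeierstrassCurve.b₄,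
    WeierstrassCurve.b₆, WeierstrassCurve.b₈]
  ring

theorem curve9_semi {u v : ℤ} (h : IsCoprime u v) {p : ℕ} (hp : p.Prime) (h3 : p ≠ 3)
    (hΔ : (p : ℤ) ∣ (curve9 u v).Δ) : ¬ (p : ℤ) ∣ (curve9 u v).c₄ := by
  intro h4
  have hP := Nat.prime_iff_prime_int.1 hp
  have n3 : ¬ (p : ℤ) ∣ 3 := fun h' =>
    h3 ((Nat.prime_dvd_prime_iff_eq hp Nat.prime_three).1 (by exact_mod_cast h'))
  rw [curve9_Δ] at hΔ
  rw [curve9_c₄] at h4
  have hu : ¬ (p : ℤ) ∣ u := fun hu => by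
    have h1 : (p : ℤ) ∣ v ^ 12 := by
      have h2 := dvd_sub h4 (hu.mul_right (u ^ 11 - 12 * u ^ 10 * v + 54 * u ^ 9 * v ^ 2 -
        128 * u ^ 8 * v ^ 3 + 189 * u ^ 7 * v ^ 4 - 180 * u ^ 6 * v ^ 5 + 114 * u ^ 5 * v ^ 6 -
        36 * u ^ 4 * v ^ 7 - 18 * u ^ 3 * v ^ 8 + 28 * u ^ 2 * v ^ 9 - 12 * u * v ^ 10))
      ring_nf at h2
      exact h2
    exact not_both hp h hu (hP.dvd_of_dvd_pow h1)
  have hv : ¬ (p : ℤ) ∣ v := fun hv => by
    have h1 : (p : ℤ) ∣ u ^ 12 := by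
      have h2 := dvd_sub h4 (hv.mul_right (-12 * u ^ 11 + 54 * u ^ 10 * v -
        128 * u ^ 9 * v ^ 2 + 189 * u ^ 8 * v ^ 3 - 180 * u ^ 7 * v ^ 4 + 114 * u ^ 6 * v ^ 5 -
        36 * u ^ 5 * v ^ 6 - 18 * u ^ 4 * v ^ 7 + 28 * u ^ 3 * v ^ 8 - 12 * u ^ 2 * v ^ 9 +
        v ^ 11))
      ring_nf at h2
      exact h2
    exact hu (hP.dvd_of_dvd_pow h1)
  have huv : ¬ (p : ℤ) ∣ u - v := fun huv => by
    have h1 : (p : ℤ) ∣ v ^ 12 := by
      have h2 := dvd_sub h4 (huv.mul_right (u ^ 11 - 11 * u ^ 10 * v + 43 * u ^ 9 * v ^ 2 -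
        85 * u ^ 8 * v ^ 3 + 104 * u ^ 7 * v ^ 4 - 76 * u ^ 6 * v ^ 5 + 38 * u ^ 5 * v ^ 6 +
        2 * u ^ 4 * v ^ 7 - 16 * u ^ 3 * v ^ 8 + 12 * u ^ 2 * v ^ 9))
      ring_nf at h2
      exact h2
    exact hv (hP.dvd_of_dvd_pow h1)
  have h9 : ∀ k : ℕ, ¬ (p : ℤ) ∣ 3 ^ 2 * v ^ k := fun k h' => by
    rcases hP.dvd_or_dvd h' with h' | h'
    · exact n3 (hP.dvd_of_dvd_pow h')
    · exact hv (hP.dvd_of_dvd_pow h')
  rcases hP.dvd_or_dvd hΔ with h' | h'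
  · rcases hP.dvd_or_dvd h' with h' | h'
    · rcases hP.dvd_or_dvd h' with h' | h'
      · exact hu (hP.dvd_of_dvd_pow h')
      · exact hv (hP.dvd_of_dvd_pow h')
    · exact huv (hP.dvd_of_dvd_pow h')
  · rcases hP.dvd_or_dvd h' with h' | h'
    · have hq := hP.dvd_of_dvd_pow h'
      apply h9 13
      have h8 := dvd_add (h4.mul_left (-u))
        (hq.mul_left (u ^ 11 - 11 * u ^ 10 * v + 42 * u ^ 9 * v ^ 2 - 75 * u ^ 8 * v ^ 3 +
          72 * u ^ 7 * v ^ 4 - 33 * u ^ 6 * v ^ 5 + 9 * u ^ 5 * v ^ 6 + 6 * u ^ 4 * v ^ 7 -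
          21 * u ^ 3 * v ^ 8 + u ^ 2 * v ^ 9 + 10 * u * v ^ 10 + 9 * v ^ 11))
      ring_nf at h8 ⊢
      exact h8
    · apply h9 14
      have h8 := dvd_add (h4.mul_left (-377 * u ^ 2 + 1925 * u * v + 623 * v ^ 2))
        (h'.mul_left (377 * u ^ 11 - 4187 * u ^ 10 * v + 16582 * u ^ 9 * v ^ 2 -
          33054 * u ^ 8 * v ^ 3 + 40128 * u ^ 7 * v ^ 4 - 28593 * u ^ 6 * v ^ 5 +
          12843 * u ^ 5 * v ^ 6 + 1827 * u ^ 4 * v ^ 7 - 7482 * u ^ 3 * v ^ 8 +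
          4418 * u ^ 2 * v ^ 9 - 83 * u * v ^ 10 - 614 * v ^ 11))
      ring_nf at h8 ⊢
      exact h8

/-- **An elliptic curve over `ℚ` with a rational point of order `9`, semistable at `3` up to a
local quadratic twist, is modular.** -/
theorem isModular_of_order_nine (E : WeierstrassCurve ℚ) [E.IsElliptic]
    {P : E.toAffine.Point} (hP : addOrderOf P = 9) (h3 : LocSemi 3 E) : E.IsModular := by
  obtain ⟨x, y, s, g, t, hT⟩ := exists_tate_nine hP
  refine isModular_of_locSemi (Δ_ne_zero E) fun p hp => ?_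
  by_cases hp3 : p = 3
  · subst hp3
    exact h3
  have hg := hT.hg
  have hn0 : (t.den : ℚ) ≠ 0 := by exact_mod_cast t.den_ne_zero
  have hm := num_eq t
  have e4 : ((curve9 t.num t.den).c₄ : ℚ) = (t.den : ℚ) ^ 12 *
      (tate ((t ^ 2 - t + 1) * (t ^ 3 - t ^ 2)) (t ^ 3 - t ^ 2)).c₄ := by
    simp only [curve9, tate, WeierstrassCurve.c₄, WeierstrassCurve.b₂, WeierstrassCurve.b₄]
    push_cast
    rw [hm]
    ring
  have e6 : ((curve9 t.num t.den).c₆ : ℚ) = (t.den : ℚ) ^ 18 *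
      (tate ((t ^ 2 - t + 1) * (t ^ 3 - t ^ 2)) (t ^ 3 - t ^ 2)).c₆ := by
    simp only [curve9, tate, WeierstrassCurve.c₆, WeierstrassCurve.b₂, WeierstrassCurve.b₄,
      WeierstrassCurve.b₆]
    push_cast
    rw [hm]
    ring
  refine locSemi_of_int (curve9 t.num t.den) (curve9_semi (isCoprime_num_den t) hp.out hp3)
    (d := (t.den : ℚ) ^ 6 / g ^ 2) (div_ne_zero (pow_ne_zero _ hn0) (pow_ne_zero _ hg)) ?_ ?_
  · rw [e4, hT.c₄_eq]
    field_simp
  · rw [e6, hT.c₆_eq]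
    field_simp

/-! ### All the orders -/

attribute [local instance] fact_five fact_seven

/-- A multiple of exact order `m`. -/
theorem exists_order_of_dvd {E : WeierstrassCurve ℚ} {P : E.toAffine.Point} {m : ℕ}
    (h0 : addOrderOf P ≠ 0) (hm : m ∣ addOrderOf P) :
    ∃ Q : E.toAffine.Point, addOrderOf Q = m :=
  ⟨(addOrderOf P / m) • P, addOrderOf_nsmul_addOrderOf_sub h0 hm⟩

/-- **An elliptic curve over `ℚ` with a rational torsion point of order `n`, divisible by `4`, `5`,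
`6`, `7` or `9`, which is semistable at the primes dividing `n` up to local quadratic twists, is
modular.**  By Mazur's theorem these are all the `n ≥ 4` which occur. -/
theorem isModular_of_torsion (E : WeierstrassCurve ℚ) [E.IsElliptic] {P : E.toAffine.Point}
    (h0 : addOrderOf P ≠ 0)
    (hn : 4 ∣ addOrderOf P ∨ 5 ∣ addOrderOf P ∨ 6 ∣ addOrderOf P ∨ 7 ∣ addOrderOf P ∨
      9 ∣ addOrderOf P)
    (hE : ∀ (p : ℕ) [Fact p.Prime], p ∣ addOrderOf P → LocSemi p E) : E.IsModular := by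
  rcases hn with h | h | h | h | h
  · obtain ⟨Q, hQ⟩ := exists_order_of_dvd h0 h
    exact isModular_of_order_four E hQ (hE 2 (Dvd.dvd.trans (by norm_num) h))
  · obtain ⟨Q, hQ⟩ := exists_order_of_dvd h0 h
    exact isModular_of_order_five E hQ (hE 5 h)
  · obtain ⟨Q, hQ⟩ := exists_order_of_dvd h0 h
    exact isModular_of_order_six E hQ (hE 2 (Dvd.dvd.trans (by norm_num) h))
      (hE 3 (Dvd.dvd.trans (by norm_num) h))
  · obtain ⟨Q, hQ⟩ := exists_order_of_dvd h0 h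
    exact isModular_of_order_seven E hQ (hE 7 h)
  · obtain ⟨Q, hQ⟩ := exists_order_of_dvd h0 h
    exact isModular_of_order_nine E hQ (hE 3 (Dvd.dvd.trans (by norm_num) h))

end Fermat.Agent.Cor.Twist

end
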