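import Fermat.Agent.Corollaries.Twist.Large
import Fermat.Agent.Corollaries.Twist.Nine

/-!
# Points of order `9` and the prime `3`; orders `18` and `35`

* `locSemi_or_of_order_nine`: if `E` has a rational point of order `9` then `E` is semistable at `3`
  up to a local quadratic twist, or `v₃(j) = 1`;
* `isModular_of_order_nine_of_val`: an elliptic curve over `ℚ` with a rational point of order `9` and
  `v₃(j) ≠ 1` is modular;
* `three_dvd_val_of_two`: if `E` has a rational point of order `2` and `v₃(j) > 0` then `3 ∣ v₃(j)`;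
* `isModular_of_order_eighteen`, `isModular_of_order_thirtyfive`.
-/

set_option autoImplicit false

noncomputable section

open WeierstrassCurve

namespace Fermat.Agent.Cor.Twist

attribute [local instance] fact_five fact_seven

variable {E : WeierstrassCurve ℚ}

/-- If `j W = pᵏ U` with `U`, `W` prime to `p` then `v_p(j) = k`. -/
theorem val_eq {p : ℕ} [hp : Fact p.Prime] {j : ℚ} {W U : ℤ} {k : ℕ} (hW : ¬ (p : ℤ) ∣ W)
    (hU : ¬ (p : ℤ) ∣ U) (h : j * (W : ℚ) = (p : ℚ) ^ k * (U : ℚ)) : padicValRat p j = k := by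
  have hW0 : (W : ℚ) ≠ 0 := by
    intro h0
    have h1 : W = 0 := by exact_mod_cast h0
    exact hW (h1 ▸ dvd_zero _)
  have hU0 : (U : ℚ) ≠ 0 := by
    intro h0
    have h1 : U = 0 := by exact_mod_cast h0
    exact hU (h1 ▸ dvd_zero _)
  have hp0 : (p : ℚ) ≠ 0 := by exact_mod_cast hp.out.ne_zero
  have hj0 : j ≠ 0 := by
    rintro rfl
    rw [zero_mul] at h
    exact mul_ne_zero (pow_ne_zero _ hp0) hU0 h.symm
  have h3 := congrArg (padicValRat p) h
  rw [padicValRat.mul hj0 hW0, padicValRat.mul (pow_ne_zero _ hp0) hU0, padicValRat.of_int,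
    padicValRat.of_int, padicValInt.eq_zero_of_not_dvd hW, padicValInt.eq_zero_of_not_dvd hU,
    padicValRat.pow, padicValRat.self hp.out.one_lt] at h3
  push_cast at h3
  linarith

/-! ### A rational point of order `2` -/

theorem c₄_of_root (E : WeierstrassCurve ℚ) (e : ℚ) :
    E.c₄ = (E.b₂ + 12 * e) ^ 2 - 24 * (6 * e ^ 2 + E.b₂ * e + E.b₄) := by
  rw [WeierstrassCurve.c₄]
  ring

theorem Δ_of_root {e : ℚ} (h : 4 * e ^ 3 + E.b₂ * e ^ 2 + 2 * E.b₄ * e + E.b₆ = 0) :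
    4 * E.Δ = (6 * e ^ 2 + E.b₂ * e + E.b₄) ^ 2 *
      ((E.b₂ + 12 * e) ^ 2 - 32 * (6 * e ^ 2 + E.b₂ * e + E.b₄)) := by
  have h6 : E.b₆ = -4 * e ^ 3 - E.b₂ * e ^ 2 - 2 * E.b₄ * e := by linear_combination h
  have h8 := E.b_relation
  have h7 : 4 * E.Δ = -E.b₂ ^ 2 * (4 * E.b₈) - 32 * E.b₄ ^ 3 - 108 * E.b₆ ^ 2 +
      36 * E.b₂ * E.b₄ * E.b₆ := by
    rw [WeierstrassCurve.Δ]
    ring
  rw [h7, h8, h6]
  ring

/-- If `E` has a rational point of order `2` and `v₃(j) > 0` then `3 ∣ v₃(j)`. -/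
theorem three_dvd_val_of_two [E.IsElliptic] {T : E.toAffine.Point} (hT : addOrderOf T = 2)
    (h : 0 < padicValRat 3 E.j) : 3 ∣ padicValRat 3 E.j := by
  have hΔ := Δ_ne_zero E
  obtain ⟨e, y, h₁, he, hy⟩ := two_torsion_coords hT
  have g := cubic_of_coords h₁.1 hy
  have hj0 : E.j ≠ 0 := by
    intro h'
    rw [h', padicValRat.zero] at h
    exact lt_irrefl _ h
  have hD := Δ_of_root g
  have hc := c₄_of_root E e
  have hj := j_mul_Δ E
  set A : ℚ := E.b₂ + 12 * e with hA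
  set B : ℚ := 6 * e ^ 2 + E.b₂ * e + E.b₄ with hB
  have hB0 : B ≠ 0 := by
    intro h0
    rw [h0] at hD
    exact hΔ (by linear_combination hD / 4)
  obtain ⟨r, s, hrs, hs, hr⟩ := exists_coprime ((A ^ 2 - 24 * B) / B)
  have hsQ : (s : ℚ) ≠ 0 := by exact_mod_cast hs
  have hr' : (r : ℚ) * B = (A ^ 2 - 24 * B) * s := by
    rw [hr]
    field_simp
  have hj1 : E.j * (((s ^ 2 * (r - 8 * s)) : ℤ) : ℚ) = 4 * (r : ℚ) ^ 3 := by
    apply mul_left_cancel₀ (pow_ne_zero 3 hB0)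
    have h1 : E.j * (B ^ 2 * (A ^ 2 - 32 * B)) = 4 * (A ^ 2 - 24 * B) ^ 3 := by
      rw [← hD, ← hc]
      linear_combination 4 * hj
    push_cast
    have h2 : B ^ 3 * (4 * (r : ℚ) ^ 3) = 4 * ((A ^ 2 - 24 * B) * s) ^ 3 := by
      rw [← hr']
      ring
    rw [h2]
    linear_combination (s : ℚ) ^ 3 * h1 + E.j * B ^ 2 * (s : ℚ) ^ 2 * hr'
  have hr0 : (r : ℚ) ≠ 0 := by
    intro h0
    rw [h0] at hj1
    have h2 : (((s ^ 2 * (r - 8 * s)) : ℤ) : ℚ) = 0 := by
      have h3 : E.j * (((s ^ 2 * (r - 8 * s)) : ℤ) : ℚ) = 0 := by rw [hj1]; ring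
      exact (mul_eq_zero.1 h3).resolve_left hj0
    push_cast at h2
    rw [h0] at h2
    have h4 : (s : ℚ) ^ 3 = 0 := by linear_combination -h2 / 8
    exact pow_ne_zero _ hsQ h4
  have hne : (((s ^ 2 * (r - 8 * s)) : ℤ) : ℚ) ≠ 0 := by
    intro h0
    rw [h0, mul_zero] at hj1
    exact mul_ne_zero four_ne_zero (pow_ne_zero _ hr0) hj1.symm
  have h5 := congrArg (padicValRat 3) hj1
  have v4 : padicValRat 3 (4 : ℚ) = 0 := by
    have h6 := padicValRat.of_int (p := 3) (z := 4)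
    rw [padicValInt.eq_zero_of_not_dvd (by norm_num), Nat.cast_zero] at h6
    rw [← h6]
    norm_num
  rw [padicValRat.mul hj0 hne, padicValRat.mul four_ne_zero (pow_ne_zero _ hr0), v4,
    padicValRat.pow, padicValRat.of_int, padicValRat.of_int] at h5
  by_cases h3 : (3 : ℤ) ∣ r
  · have h7 : ¬ (3 : ℤ) ∣ s ^ 2 * (r - 8 * s) := by
      intro h8
      have hs3 : (3 : ℤ) ∣ s := by
        rcases Int.prime_three.dvd_or_dvd h8 with h9 | h9
        · exact Int.prime_three.dvd_of_dvd_pow h9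
        · omega
      exact Int.prime_three.not_isUnit (hrs.isUnit_of_dvd' h3 hs3)
    rw [padicValInt.eq_zero_of_not_dvd (by exact_mod_cast h7)] at h5
    exact ⟨(padicValInt 3 r : ℤ), by push_cast at h5; linarith⟩
  · rw [padicValInt.eq_zero_of_not_dvd (z := r) (by exact_mod_cast h3)] at h5
    push_cast at h5
    omega

/-! ### A rational point of order `9` -/

/-- If `E` has a rational point of order `9` then `E` is semistable at `3` up to a local quadratic
twist, or `v₃(j) = 1`. -/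
theorem locSemi_or_of_order_nine [E.IsElliptic] {P : E.toAffine.Point} (hP : addOrderOf P = 9) :
    LocSemi 3 E ∨ padicValRat 3 E.j = 1 := by
  obtain ⟨x, y, s, g, t, hT⟩ := exists_tate_nine hP
  have hg := hT.hg
  have hn0 : (t.den : ℚ) ≠ 0 := by exact_mod_cast t.den_ne_zero
  have hm := num_eq t
  have e4 : ((curve9 t.num t.den).c₄ : ℚ) = (t.den : ℚ) ^ 12 *
      (tate ((t ^ 2 - t + 1) * (t ^ 3 - t ^ 2)) (t ^ 3 - t ^ 2)).c₄ := by
    simp only [curve9, tate, WeierstrassCurve.c₄, WeierstrassCurve.b₂, WeierstrassCurve.b₄]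
    push_cast
    rw [hm]
    ring
  have e6 : ((curve9 t.num t.den).c₆ : ℚ) = (t.den : ℚ) ^ 18 *
      (tate ((t ^ 2 - t + 1) * (t ^ 3 - t ^ 2)) (t ^ 3 - t ^ 2)).c₆ := by
    simp only [curve9, tate, WeierstrassCurve.c₆, WeierstrassCurve.b₂, WeierstrassCurve.b₄,
      WeierstrassCurve.b₆]
    push_cast
    rw [hm]
    ring
  have eΔ : ((curve9 t.num t.den).Δ : ℚ) = (t.den : ℚ) ^ 36 *
      (tate ((t ^ 2 - t + 1) * (t ^ 3 - t ^ 2)) (t ^ 3 - t ^ 2)).Δ := by
    simp only [curve9, tate, WeierstrassCurve.Δ, WeierstrassCurve.b₂, WeierstrassCurve.b₄,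
      WeierstrassCurve.b₆, WeierstrassCurve.b₈]
    push_cast
    rw [hm]
    ring
  have hco := isCoprime_num_den t
  have hj : E.j * ((curve9 t.num t.den).Δ : ℚ) = ((curve9 t.num t.den).c₄ : ℚ) ^ 3 := by
    rw [e4, eΔ]
    have h1 := j_mul_Δ E
    rw [hT.c₄_eq, hT.Δ_eq] at h1
    have h2 : g ^ 12 ≠ 0 := pow_ne_zero _ hg
    apply mul_left_cancel₀ h2
    linear_combination (t.den : ℚ) ^ 36 * h1
  set u : ℤ := t.num with hu
  set v : ℤ := (t.den : ℤ) with hv
  by_cases h3 : (3 : ℤ) ∣ u + v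
  · right
    obtain ⟨k, hk⟩ := h3
    have hu' : u = 3 * k - v := by linarith
    have hv3 : ¬ (3 : ℤ) ∣ v := by
      intro h4
      have h5 : (3 : ℤ) ∣ u := by omega
      exact Int.prime_three.not_isUnit (hco.isUnit_of_dvd' h5 h4)
    have hc : (curve9 u v).c₄ = 9 * (v ^ 12 + 3 * (24 * v ^ 12 - 588 * k * v ^ 11 +
        6234 * k ^ 2 * v ^ 10 - 38856 * k ^ 3 * v ^ 9 + 159975 * k ^ 4 * v ^ 8 -
        460404 * k ^ 5 * v ^ 7 + 951102 * k ^ 6 * v ^ 6 - 1420092 * k ^ 7 * v ^ 5 +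
        1517778 * k ^ 8 * v ^ 4 - 1128492 * k ^ 9 * v ^ 3 + 551124 * k ^ 10 * v ^ 2 -
        157464 * k ^ 11 * v + 19683 * k ^ 12)) := by
      rw [curve9_c₄, hu']
      ring
    have hΔ : (curve9 u v).Δ = 243 * (u ^ 9 * v ^ 9 * (u - v) ^ 9 *
        ((v ^ 2 + 3 * (k ^ 2 - k * v)) ^ 3 * (-v ^ 3 + 3 * (k ^ 3 - 3 * k ^ 2 * v +
          2 * k * v ^ 2)))) := by
      rw [curve9_Δ, hu']
      ring
    rw [hc, hΔ] at hj
    set C : ℤ := v ^ 12 + 3 * (24 * v ^ 12 - 588 * k * v ^ 11 +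
        6234 * k ^ 2 * v ^ 10 - 38856 * k ^ 3 * v ^ 9 + 159975 * k ^ 4 * v ^ 8 -
        460404 * k ^ 5 * v ^ 7 + 951102 * k ^ 6 * v ^ 6 - 1420092 * k ^ 7 * v ^ 5 +
        1517778 * k ^ 8 * v ^ 4 - 1128492 * k ^ 9 * v ^ 3 + 551124 * k ^ 10 * v ^ 2 -
        157464 * k ^ 11 * v + 19683 * k ^ 12) with hC
    set W : ℤ := u ^ 9 * v ^ 9 * (u - v) ^ 9 *
        ((v ^ 2 + 3 * (k ^ 2 - k * v)) ^ 3 * (-v ^ 3 + 3 * (k ^ 3 - 3 * k ^ 2 * v +
          2 * k * v ^ 2))) with hW
    have hpow : ∀ n : ℕ, ¬ (3 : ℤ) ∣ v ^ n := fun n h => hv3 (Int.prime_three.dvd_of_dvd_pow h)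
    have hC3 : ¬ (3 : ℤ) ∣ C := fun h => hpow 12 ((dvd_add_left (dvd_mul_right _ _)).1 h)
    have hW3 : ¬ (3 : ℤ) ∣ W := by
      intro h
      rcases Int.prime_three.dvd_or_dvd h with h | h
      · rcases Int.prime_three.dvd_or_dvd h with h | h
        · rcases Int.prime_three.dvd_or_dvd h with h | h
          · have h5 := Int.prime_three.dvd_of_dvd_pow h
            omega
          · exact hpow 9 h
        · have h5 := Int.prime_three.dvd_of_dvd_pow h
          omega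
      · rcases Int.prime_three.dvd_or_dvd h with h | h
        · exact hpow 2 ((dvd_add_left (dvd_mul_right _ _)).1 (Int.prime_three.dvd_of_dvd_pow h))
        · exact hpow 3 ((dvd_neg).1 ((dvd_add_left (dvd_mul_right _ _)).1 h))
    refine val_eq (p := 3) (W := W) (U := C ^ 3) (k := 1) (by exact_mod_cast hW3)
      (fun h => hC3 (Int.prime_three.dvd_of_dvd_pow (by exact_mod_cast h))) ?_
    have h243 : (243 : ℚ) ≠ 0 := by norm_num
    apply mul_left_cancel₀ h243
    push_cast at hj ⊢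
    linear_combination hj
  · left
    refine locSemi_of_int (curve9 u v) (fun _ h4 => h3 ?_)
      (d := (t.den : ℚ) ^ 6 / g ^ 2) (div_ne_zero (pow_ne_zero _ hn0) (pow_ne_zero _ hg)) ?_ ?_
    · have h5 : (3 : ℤ) ∣ (u + v) ^ 12 := by
        have h6 : (u + v) ^ 12 = (curve9 u v).c₄ + 3 * (8 * u ^ 11 * v + 4 * u ^ 10 * v ^ 2 +
            116 * u ^ 9 * v ^ 3 + 102 * u ^ 8 * v ^ 4 + 324 * u ^ 7 * v ^ 5 +
            270 * u ^ 6 * v ^ 6 + 276 * u ^ 5 * v ^ 7 + 171 * u ^ 4 * v ^ 8 +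
            64 * u ^ 3 * v ^ 9 + 26 * u ^ 2 * v ^ 10 + 4 * u * v ^ 11) := by
          rw [curve9_c₄]
          ring
        rw [h6]
        exact dvd_add (by exact_mod_cast h4) (dvd_mul_right _ _)
      exact Int.prime_three.dvd_of_dvd_pow h5
    · rw [e4, hT.c₄_eq]
      field_simp
    · rw [e6, hT.c₆_eq]
      field_simp

/-- **An elliptic curve over `ℚ` with a rational point of order `9` and `v₃(j) ≠ 1` is
modular.** -/
theorem isModular_of_order_nine_of_val (E : WeierstrassCurve ℚ) [E.IsElliptic]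
    {P : E.toAffine.Point} (hP : addOrderOf P = 9) (h : padicValRat 3 E.j ≠ 1) : E.IsModular :=
  isModular_of_order_nine E hP ((locSemi_or_of_order_nine hP).resolve_right h)

/-- An elliptic curve over `ℚ` with a rational point of order `18` is modular. -/
theorem isModular_of_order_eighteen (E : WeierstrassCurve ℚ) [E.IsElliptic]
    {R : E.toAffine.Point} (hR : addOrderOf R = 18) : E.IsModular := by
  have h9 : addOrderOf ((2 : ℕ) • R) = 9 := by
    rw [addOrderOf_nsmul_of_dvd (by norm_num) (by rw [hR]; norm_num), hR]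
  have h2 : addOrderOf ((9 : ℕ) • R) = 2 := by
    rw [addOrderOf_nsmul_of_dvd (by norm_num) (by rw [hR]; norm_num), hR]
  refine isModular_of_order_nine_of_val E h9 fun h => ?_
  have h3 := three_dvd_val_of_two h2 (by rw [h]; norm_num)
  rw [h] at h3
  omega

/-! ### Order `35` -/

/-- If `E` has a rational point of order `5` then `E` is semistable at every `p ≠ 5` up to a local
quadratic twist. -/
theorem locSemi_of_order_five {P : E.toAffine.Point} (hP : addOrderOf P = 5) {p : ℕ}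
    [hp : Fact p.Prime] (hp5 : p ≠ 5) : LocSemi p E := by
  obtain ⟨x, y, s, g, t, hT⟩ := exists_tate_five hP
  have hg := hT.hg
  have hn0 : (t.den : ℚ) ≠ 0 := by exact_mod_cast t.den_ne_zero
  have hm := num_eq t
  have e4 : ((curve5 t.num t.den).c₄ : ℚ) = (t.den : ℚ) ^ 4 * (tate t t).c₄ := by
    simp only [curve5, tate, WeierstrassCurve.c₄, WeierstrassCurve.b₂, WeierstrassCurve.b₄]
    push_cast
    rw [hm]
    ring
  have e6 : ((curve5 t.num t.den).c₆ : ℚ) = (t.den : ℚ) ^ 6 * (tate t t).c₆ := by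
    simp only [curve5, tate, WeierstrassCurve.c₆, WeierstrassCurve.b₂, WeierstrassCurve.b₄,
      WeierstrassCurve.b₆]
    push_cast
    rw [hm]
    ring
  refine locSemi_of_int (curve5 t.num t.den) (fun hΔ => curve5_semi (isCoprime_num_den t) hp.out
    (fun h => absurd h hp5) hΔ) (d := (t.den : ℚ) ^ 2 / g ^ 2)
    (div_ne_zero (pow_ne_zero _ hn0) (pow_ne_zero _ hg)) ?_ ?_
  · rw [e4, hT.c₄_eq]
    field_simp
  · rw [e6, hT.c₆_eq]
    field_simp

/-- An elliptic curve over `ℚ` with a rational point of order `35` is modular. -/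
theorem isModular_of_order_thirtyfive (E : WeierstrassCurve ℚ) [E.IsElliptic]
    {R : E.toAffine.Point} (hR : addOrderOf R = 35) : E.IsModular := by
  have h5 : addOrderOf ((7 : ℕ) • R) = 5 := by
    rw [addOrderOf_nsmul_of_dvd (by norm_num) (by rw [hR]; norm_num), hR]
  have h7 : addOrderOf ((5 : ℕ) • R) = 7 := by
    rw [addOrderOf_nsmul_of_dvd (by norm_num) (by rw [hR]; norm_num), hR]
  exact isModular_of_order_seven E h7 (locSemi_of_order_five h5 (by norm_num))

end Fermat.Agent.Cor.Twist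

end
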