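import Fermat.Agent.Corollaries.Twist.LargeMazur
import Fermat.Agent.Corollaries.Twist.Eighteen

/-!
# Elliptic curves over `ℚ` whose number of rational torsion points is divisible by `8`

* `val_j_of_eight`: if `E` has a rational point of order `8` then `v₂(j) ≤ 0` or `v₂(j) = 1`;
* `val_j_of_two_four`: if `E` has a rational point of order `4` and full rational `2`-torsion then
  `v₂(j) ≤ 0` or `v₂(j) = 2` or `v₂(j) = 4`;
* `isModular_of_eight_dvd`: if the number of rational torsion points is divisible by `8` and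
  `v₂(j) ≠ 1, 2, 4` then `E` is modular.
-/

set_option autoImplicit false

noncomputable section

open WeierstrassCurve

namespace Fermat.Agent.Cor.Twist

variable {E : WeierstrassCurve ℚ}

theorem odd_not_dvd {z : ℤ} (h : Odd z) : ¬ 2 ∣ z := fun h' =>
  Int.not_even_iff_odd.2 h (even_iff_two_dvd.2 h')

/-- The `2`-adic valuation of the modular function of `X₁(8)`. -/
theorem val_of_eq_eight {j : ℚ} {u v : ℤ} (hco : IsCoprime u v)
    (hK0 : u ^ 8 * v ^ 8 * ((u - v) ^ 4 * ((u + v) ^ 2 * (u ^ 2 - 6 * u * v + v ^ 2))) ≠ 0)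
    (hj : j * ((u ^ 8 * v ^ 8 * ((u - v) ^ 4 * ((u + v) ^ 2 * (u ^ 2 - 6 * u * v + v ^ 2))) : ℤ) :
      ℚ) = ((((u ^ 4 - 4 * u ^ 3 * v - 2 * u ^ 2 * v ^ 2 - 4 * u * v ^ 3 + v ^ 4) ^ 2 -
        48 * u ^ 4 * v ^ 4) ^ 3 : ℤ) : ℚ)) :
    j ≠ 0 ∧ (padicValRat 2 j ≤ 0 ∨ padicValRat 2 j = 1) := by
  by_cases hodd : Odd u ∧ Odd v
  · obtain ⟨hu2, hv2⟩ := hodd
    obtain ⟨α, hα⟩ := odd_sq hu2
    obtain ⟨β, hβ⟩ := odd_sq hv2
    set w : ℤ := 8 * (α + β) ^ 2 - 32 * α * β - u * v * (1 + 4 * (α + β)) with hw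
    have hP : u ^ 4 - 4 * u ^ 3 * v - 2 * u ^ 2 * v ^ 2 - 4 * u * v ^ 3 + v ^ 4 = 8 * w := by
      have h1 : u ^ 4 - 4 * u ^ 3 * v - 2 * u ^ 2 * v ^ 2 - 4 * u * v ^ 3 + v ^ 4 =
          (u ^ 2 + v ^ 2) ^ 2 - 4 * (u * v) * (u ^ 2 + v ^ 2) - 4 * (u ^ 2 * v ^ 2) := by ring
      rw [h1, hα, hβ, hw]
      ring
    set M : ℤ := 4 * w ^ 2 - 3 * ((1 + 8 * α) ^ 2 * (1 + 8 * β) ^ 2) with hM
    have hN : (u ^ 4 - 4 * u ^ 3 * v - 2 * u ^ 2 * v ^ 2 - 4 * u * v ^ 3 + v ^ 4) ^ 2 -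
        48 * u ^ 4 * v ^ 4 = 16 * M := by
      rw [hP, hM, ← hα, ← hβ]
      ring
    have hMo : Odd M := by
      rw [hM]
      refine Even.sub_odd ⟨2 * w ^ 2, by ring⟩ ((by decide : Odd (3 : ℤ)).mul
        (Odd.mul (Odd.pow ⟨4 * α, by ring⟩) (Odd.pow ⟨4 * β, by ring⟩)))
    rw [hN] at hj
    have h4 : 4 ∣ u - v ∨ 4 ∣ u + v := by
      obtain ⟨a, rfl⟩ := hu2
      obtain ⟨b, rfl⟩ := hv2
      omega
    rcases h4 with ⟨δ, hδ⟩ | ⟨σ, hσ⟩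
    · have e1 : u = v + 4 * δ := by linarith
      have h := val_le_zero (j := j) (U := M ^ 3) (K := u ^ 8 * v ^ 8 * ((u - v) ^ 4 *
        ((u + v) ^ 2 * (u ^ 2 - 6 * u * v + v ^ 2)))) (k := 12) (odd_not_dvd hMo.pow) hK0 ?_ ?_
      · exact ⟨h.1, Or.inl h.2⟩
      · exact ⟨u ^ 8 * v ^ 8 * (δ ^ 4 * ((v + 2 * δ) ^ 2 * (4 * δ ^ 2 - (v + 4 * δ) * v))), by
          nth_rewrite 2 3 4 5 [e1]
          ring⟩
      · rw [hj]
        push_cast
        ring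
    · have e1 : u = 4 * σ - v := by linarith
      have hj' : j * ((u ^ 8 * v ^ 8 * ((2 * σ - v) ^ 4 * (σ ^ 2 * (2 * σ ^ 2 - u * v))) : ℤ) : ℚ) =
          2 ^ 1 * ((M ^ 3 : ℤ) : ℚ) := by
        have h11 : (2 : ℚ) ^ 11 ≠ 0 := pow_ne_zero _ two_ne_zero
        apply mul_left_cancel₀ h11
        have h5 : u ^ 8 * v ^ 8 * ((u - v) ^ 4 * ((u + v) ^ 2 * (u ^ 2 - 6 * u * v + v ^ 2))) =
            2 ^ 11 * (u ^ 8 * v ^ 8 * ((2 * σ - v) ^ 4 * (σ ^ 2 * (2 * σ ^ 2 - u * v)))) := by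
          have h6 : u ^ 2 - 6 * u * v + v ^ 2 = 8 * (2 * σ ^ 2 - u * v) := by
            rw [e1]
            ring
          have h7 : u - v = 2 * (2 * σ - v) := by linarith
          rw [h6, h7, hσ]
          ring
        rw [h5] at hj
        push_cast at hj ⊢
        linear_combination hj
      have hL0 : u ^ 8 * v ^ 8 * ((2 * σ - v) ^ 4 * (σ ^ 2 * (2 * σ ^ 2 - u * v))) ≠ 0 := by
        intro h0
        rw [h0, Int.cast_zero, mul_zero] at hj'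
        have h8 : ((M ^ 3 : ℤ) : ℚ) = 0 := by linarith
        have h9 : M ^ 3 = 0 := by exact_mod_cast h8
        exact odd_not_dvd hMo.pow (h9 ▸ dvd_zero _ : (2 : ℤ) ∣ M ^ 3)
      rcases Int.even_or_odd σ with ⟨ρ, hρ⟩ | hσo
      · have h := val_le_zero (j := j) (U := M ^ 3) (k := 1) (odd_not_dvd hMo.pow) hL0 ?_ hj'
        · exact ⟨h.1, Or.inl h.2⟩
        · exact ⟨u ^ 8 * v ^ 8 * ((2 * σ - v) ^ 4 * (2 * ρ ^ 2 * (2 * σ ^ 2 - u * v))), by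
            rw [show σ ^ 2 = 4 * ρ ^ 2 by rw [hρ]; ring]
            ring⟩
      · have hW : Odd (u ^ 8 * v ^ 8 * ((2 * σ - v) ^ 4 * (σ ^ 2 * (2 * σ ^ 2 - u * v)))) :=
          (hu2.pow.mul hv2.pow).mul ((Even.sub_odd ⟨σ, by ring⟩ hv2).pow.mul
            (hσo.pow.mul (Even.sub_odd ⟨σ ^ 2, by ring⟩ (hu2.mul hv2))))
        have h := val_eq (p := 2) (j := j) (k := 1) (W := u ^ 8 * v ^ 8 *
          ((2 * σ - v) ^ 4 * (σ ^ 2 * (2 * σ ^ 2 - u * v)))) (U := M ^ 3) (odd_not_dvd hW)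
          (odd_not_dvd hMo.pow) hj'
        refine ⟨fun h0 => ?_, Or.inr (by exact_mod_cast h)⟩
        rw [h0, padicValRat.zero] at h
        norm_num at h
  · have h := val_le_zero (j := j) (k := 0) (U := ((u ^ 4 - 4 * u ^ 3 * v - 2 * u ^ 2 * v ^ 2 -
      4 * u * v ^ 3 + v ^ 4) ^ 2 - 48 * u ^ 4 * v ^ 4) ^ 3) ?_ hK0
      (by rw [pow_zero]; exact one_dvd _) (by rw [hj, pow_zero, one_mul])
    · exact ⟨h.1, Or.inl h.2⟩
    · intro hd
      have h1 : Even ((u ^ 4 - 4 * u ^ 3 * v - 2 * u ^ 2 * v ^ 2 - 4 * u * v ^ 3 + v ^ 4) ^ 2 -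
          48 * u ^ 4 * v ^ 4) := even_iff_two_dvd.2 (Int.prime_two.dvd_of_dvd_pow hd)
      have h2 : Even ((u ^ 4 - 4 * u ^ 3 * v - 2 * u ^ 2 * v ^ 2 - 4 * u * v ^ 3 + v ^ 4) ^ 2) := by
        have h3 := h1.add (⟨24 * u ^ 4 * v ^ 4, by ring⟩ : Even (48 * u ^ 4 * v ^ 4))
        rwa [sub_add_cancel] at h3
      rw [Int.even_pow' two_ne_zero] at h2
      have h4 : Even (u ^ 4 + v ^ 4) := by
        have h3 := h2.add (⟨2 * u ^ 3 * v + u ^ 2 * v ^ 2 + 2 * u * v ^ 3, rfl⟩ :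
          Even ((2 * u ^ 3 * v + u ^ 2 * v ^ 2 + 2 * u * v ^ 3) +
            (2 * u ^ 3 * v + u ^ 2 * v ^ 2 + 2 * u * v ^ 3)))
        have e : u ^ 4 - 4 * u ^ 3 * v - 2 * u ^ 2 * v ^ 2 - 4 * u * v ^ 3 + v ^ 4 +
          ((2 * u ^ 3 * v + u ^ 2 * v ^ 2 + 2 * u * v ^ 3) +
            (2 * u ^ 3 * v + u ^ 2 * v ^ 2 + 2 * u * v ^ 3)) = u ^ 4 + v ^ 4 := by ring
        rwa [e] at h3
      rw [Int.even_add, Int.even_pow' four_ne_zero, Int.even_pow' four_ne_zero] at h4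
      rcases Int.even_or_odd u with h6 | h6
      · exact Int.prime_two.not_isUnit (hco.isUnit_of_dvd' h6.two_dvd (h4.1 h6).two_dvd)
      · refine hodd ⟨h6, ?_⟩
        rcases Int.even_or_odd v with h7 | h7
        · exact absurd (h4.2 h7) (Int.not_even_iff_odd.2 h6)
        · exact h7

/-- The algebra of a point of order `8`: `c Y = X² - c⁴` on `Y² = 4 X³ + A X² + 4 c⁴ X`. -/
theorem val_of_halving {j A c X Y : ℚ} (hc0 : c ≠ 0) (hX0 : X ≠ 0) (hA0 : A ^ 2 - 64 * c ^ 4 ≠ 0)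
    (hj0 : j * (c ^ 8 * (A ^ 2 - 64 * c ^ 4)) = (A ^ 2 - 48 * c ^ 4) ^ 3)
    (hcY : c * Y = X ^ 2 - c ^ 4) (hY : Y ^ 2 = 4 * X ^ 3 + A * X ^ 2 + 4 * c ^ 4 * X) :
    j ≠ 0 ∧ (padicValRat 2 j ≤ 0 ∨ padicValRat 2 j = 1) := by
  obtain ⟨m, rfl⟩ : ∃ m : ℚ, X = m * c ^ 2 := ⟨X / c ^ 2, by field_simp⟩
  have hm0 : m ≠ 0 := left_ne_zero_of_mul hX0
  obtain ⟨u, v, hco, hv, hu⟩ := exists_coprime m
  have hvQ : (v : ℚ) ≠ 0 := by exact_mod_cast hv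
  obtain ⟨P, hP⟩ : ∃ P : ℚ, P = m ^ 4 - 4 * m ^ 3 - 2 * m ^ 2 - 4 * m + 1 := ⟨_, rfl⟩
  have hAm : A * m ^ 2 = c ^ 2 * P := by
    apply mul_left_cancel₀ (pow_ne_zero 6 hc0)
    rw [hP]
    linear_combination (c * Y + (m * c ^ 2) ^ 2 - c ^ 4) * hcY - c ^ 2 * hY
  have hA1 : (A ^ 2 - 64 * c ^ 4) * m ^ 4 = c ^ 4 * (P ^ 2 - 64 * m ^ 4) := by
    linear_combination (A * m ^ 2 + c ^ 2 * P) * hAm
  have hA2 : (A ^ 2 - 48 * c ^ 4) * m ^ 4 = c ^ 4 * (P ^ 2 - 48 * m ^ 4) := by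
    linear_combination (A * m ^ 2 + c ^ 2 * P) * hAm
  have hjm : j * (m ^ 8 * (P ^ 2 - 64 * m ^ 4)) = (P ^ 2 - 48 * m ^ 4) ^ 3 := by
    apply mul_left_cancel₀ (pow_ne_zero 12 hc0)
    have e1 : c ^ 12 * (P ^ 2 - 48 * m ^ 4) ^ 3 = ((A ^ 2 - 48 * c ^ 4) * m ^ 4) ^ 3 := by
      rw [hA2]
      ring
    have e2 : c ^ 12 * (j * (m ^ 8 * (P ^ 2 - 64 * m ^ 4))) =
        j * c ^ 8 * m ^ 8 * ((A ^ 2 - 64 * c ^ 4) * m ^ 4) := by
      rw [hA1]
      ring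
    rw [e1, e2]
    linear_combination m ^ 12 * hj0
  have hN : (u : ℚ) ^ 4 - 4 * u ^ 3 * v - 2 * u ^ 2 * v ^ 2 - 4 * u * v ^ 3 + v ^ 4 =
      (v : ℚ) ^ 4 * P := by
    rw [hu, hP]
    ring
  have hK : ((u ^ 8 * v ^ 8 * ((u - v) ^ 4 * ((u + v) ^ 2 * (u ^ 2 - 6 * u * v + v ^ 2))) : ℤ) :
      ℚ) = (v : ℚ) ^ 24 * (m ^ 8 * (P ^ 2 - 64 * m ^ 4)) := by
    have h1 : ((u : ℚ) - v) ^ 4 * ((u + v) ^ 2 * (u ^ 2 - 6 * u * v + v ^ 2)) =
        (v : ℚ) ^ 8 * (P ^ 2 - 64 * m ^ 4) := by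
      rw [hu, hP]
      ring
    push_cast
    rw [h1, hu]
    ring
  refine val_of_eq_eight hco (fun h0 => ?_) ?_
  · rw [h0, Int.cast_zero] at hK
    have h1 := (mul_eq_zero.1 ((mul_eq_zero.1 hK.symm).resolve_left
      (pow_ne_zero _ hvQ))).resolve_left (pow_ne_zero _ hm0)
    rw [h1, mul_zero] at hA1
    exact hA0 ((mul_eq_zero.1 hA1).resolve_right (pow_ne_zero _ hm0))
  · rw [hK]
    push_cast
    rw [hN, hu]
    linear_combination (v : ℚ) ^ 24 * hjm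

/-- The coordinates of the points `R`, `2 R` and `4 R`, `R` of order `8`. -/
theorem exists_halving [E.IsElliptic] {R : E.toAffine.Point} (hR : addOrderOf R = 8) :
    ∃ e x Y c : ℚ, 4 * e ^ 3 + E.b₂ * e ^ 2 + 2 * E.b₄ * e + E.b₆ = 0 ∧ Y ≠ 0 ∧
      Y ^ 2 = 4 * x ^ 3 + E.b₂ * x ^ 2 + 2 * E.b₄ * x + E.b₆ ∧
      6 * e ^ 2 + E.b₂ * e + E.b₄ = 2 * c ^ 4 ∧ c * Y = (x - e) ^ 2 - c ^ 4 := by
  have hk : ∀ k : ℕ, 0 < k → k < 8 → k • R ≠ 0 := fun k h0 h8 => nsmul_ne_zero_of_lt hR h0 h8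
  have hT : addOrderOf ((4 : ℕ) • R) = 2 := by
    rw [addOrderOf_nsmul_of_dvd (by norm_num) (by rw [hR]; norm_num), hR]
  obtain ⟨e, y₁, h₁, he, hy₁⟩ := two_torsion_coords hT
  have g := cubic_of_coords h₁.1 hy₁
  obtain ⟨x, y, hR', heR⟩ : ∃ x y, ∃ h : E.toAffine.Nonsingular x y, R = .some x y h := by
    rcases R with _ | ⟨x, y, h⟩
    · exact absurd rfl (hk 1 one_pos (by norm_num))
    · exact ⟨x, y, h, rfl⟩
  obtain ⟨X, Z, hQ', heQ⟩ : ∃ x y, ∃ h : E.toAffine.Nonsingular x y,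
      (2 : ℕ) • R = .some x y h := by
    have h2 := hk 2 (by norm_num) (by norm_num)
    generalize (2 : ℕ) • R = Q at h2
    rcases Q with _ | ⟨x, y, h⟩
    · exact absurd rfl h2
    · exact ⟨x, y, h, rfl⟩
  have d1 : (2 : ℕ) • Affine.Point.some x y hR' = .some X Z hQ' := by rw [← heR, heQ]
  have d2 : (2 : ℕ) • Affine.Point.some X Z hQ' = .some e y₁ h₁ := by
    rw [← heQ, ← mul_nsmul, ← he]
  have hY0 := (dup d1).1
  have hYsq := sq_Y hR'.1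
  have k1 := dup_root d1 g
  have k2 := dup_root d2 g
  rw [sub_self, zero_mul] at k2
  have k3 := pow_eq_zero_iff two_ne_zero |>.mp k2.symm
  generalize 2 * y + E.a₁ * x + E.a₃ = Y at hY0 hYsq k1
  generalize hB : 3 * e ^ 2 + E.b₂ / 2 * e + E.b₄ / 2 = B at k1 k3
  obtain ⟨c, hc⟩ : ∃ c : ℚ, c = ((x - e) ^ 2 - B) / Y := ⟨_, rfl⟩
  have hcY : c * Y = (x - e) ^ 2 - B := by rw [hc, div_mul_cancel₀ _ hY0]
  have hX : X - e = c ^ 2 := by
    rw [hc, div_pow, eq_div_iff (pow_ne_zero _ hY0), k1]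
  have hBc : B = c ^ 4 := by
    rw [hX] at k3
    linear_combination -k3
  rw [hBc] at hcY
  exact ⟨e, x, Y, c, g, hY0, hYsq, by rw [← hBc, ← hB]; ring, hcY⟩

/-- **If `E` has a rational point of order `8` then `v₂(j) ≤ 0` or `v₂(j) = 1`.** -/
theorem val_j_of_eight [E.IsElliptic] {R : E.toAffine.Point} (hR : addOrderOf R = 8) :
    E.j ≠ 0 ∧ (padicValRat 2 E.j ≤ 0 ∨ padicValRat 2 E.j = 1) := by
  have hΔ := Δ_ne_zero E
  obtain ⟨e, x, Y, c, g, hY0, hYsq, hB1, hcY⟩ := exists_halving hR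
  have hc4 := c₄_of_root E e
  have hD := Δ_of_root g
  rw [hB1] at hc4 hD
  generalize hA : E.b₂ + 12 * e = A at hc4 hD
  have hD' : E.Δ = c ^ 8 * (A ^ 2 - 64 * c ^ 4) := by linear_combination hD / 4
  have hc4' : E.c₄ = A ^ 2 - 48 * c ^ 4 := by linear_combination hc4
  have hc0 : c ≠ 0 := by
    rintro rfl
    exact hΔ (by rw [hD']; ring)
  have hY2 : Y ^ 2 = 4 * (x - e) ^ 3 + A * (x - e) ^ 2 + 4 * c ^ 4 * (x - e) := by
    rw [hYsq, ← hA]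
    linear_combination g + 2 * (x - e) * hB1
  have hj0 := j_mul_Δ E
  rw [hc4', hD'] at hj0
  refine val_of_halving hc0 (fun h0 => ?_) (fun h0 => hΔ (by rw [hD', h0, mul_zero])) hj0 hcY hY2
  rw [h0] at hY2
  exact hY0 (pow_eq_zero_iff two_ne_zero |>.mp (by rw [hY2]; ring))

/-- **An elliptic curve over `ℚ` with a rational point of order `8` and `v₂(j) ≠ 1` is
modular.** -/
theorem isModular_of_order_eight_of_val (E : WeierstrassCurve ℚ) [E.IsElliptic]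
    {R : E.toAffine.Point} (hR : addOrderOf R = 8) (h : padicValRat 2 E.j ≠ 1) : E.IsModular := by
  obtain ⟨h0, hj⟩ := val_j_of_eight hR
  have hj' := hj.resolve_right h
  have h1728 : E.j ≠ 1728 := fun h => by
    rw [h, padicValRat_1728] at hj'
    exact absurd hj' (by norm_num)
  have hQ : addOrderOf ((2 : ℕ) • R) = 4 := by
    rw [addOrderOf_nsmul_of_dvd (by norm_num) (by rw [hR]; norm_num), hR]
  exact isModular_of_order_four E hQ (locSemi_two h0 h1728 (Or.inl hj'))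

/-! ### `ℤ/2 × ℤ/4` -/

/-- **If `E` has a rational point `Q` of order `4` and a rational point `T' ≠ 2 Q` of order `2` then
`v₂(j) ≤ 0` or `v₂(j) = 2` or `v₂(j) = 4`.** -/
theorem val_j_of_two_four [E.IsElliptic] {Q T' : E.toAffine.Point} (hQ : addOrderOf Q = 4)
    (hT' : addOrderOf T' = 2) (hne : (2 : ℕ) • Q ≠ T') :
    padicValRat 2 E.j ≤ 0 ∨ padicValRat 2 E.j = 2 ∨ padicValRat 2 E.j = 4 := by
  have hΔ := Δ_ne_zero E
  have hT : addOrderOf ((2 : ℕ) • Q) = 2 := by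
    rw [addOrderOf_nsmul_of_dvd (by norm_num) (by rw [hQ]; norm_num), hQ]
  obtain ⟨e₁, y₁, h₁, he₁, hy₁⟩ := two_torsion_coords hT
  obtain ⟨e₂, y₂, h₂, he₂, hy₂⟩ := two_torsion_coords hT'
  have g₁ := cubic_of_coords h₁.1 hy₁
  have g₂ := cubic_of_coords h₂.1 hy₂
  have h12 : e₁ ≠ e₂ := two_torsion_ne hne he₁ he₂ hy₁ hy₂
  have hT2 := exists_twoRoots_of h12 g₁ g₂
  set e₃ : ℚ := -E.b₂ / 4 - e₁ - e₂ with he₃
  have h13 : e₁ ≠ e₃ := hT2.swap.ne hΔ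
  have g₃ := hT2.rotate.rotate.root₁
  obtain ⟨X, Z, hQ', heQ⟩ : ∃ x y, ∃ h : E.toAffine.Nonsingular x y, Q = .some x y h := by
    rcases Q with _ | ⟨x, y, h⟩
    · exact absurd rfl (nsmul_ne_zero_of_lt hQ (k := 1) one_pos (by norm_num))
    · exact ⟨x, y, h, rfl⟩
  have d2 : (2 : ℕ) • Affine.Point.some X Z hQ' = .some e₁ y₁ h₁ := by rw [← heQ, ← he₁]
  set Y' : ℚ := 2 * Z + E.a₁ * X + E.a₃ with hY'
  have hY0' : Y' ≠ 0 := (dup d2).1
  have k12 := dup_root d2 g₂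
  have k13 := dup_root d2 g₃
  obtain ⟨a, ha⟩ : ∃ a : ℚ, e₁ - e₂ = a ^ 2 :=
    ⟨((X - e₂) ^ 2 - (3 * e₂ ^ 2 + E.b₂ / 2 * e₂ + E.b₄ / 2)) / Y', by
      rw [div_pow, eq_div_iff (pow_ne_zero _ hY0'), k12]⟩
  obtain ⟨b, hb⟩ : ∃ b : ℚ, e₁ - e₃ = b ^ 2 :=
    ⟨((X - e₃) ^ 2 - (3 * e₃ ^ 2 + E.b₂ / 2 * e₃ + E.b₄ / 2)) / Y', by
      rw [div_pow, eq_div_iff (pow_ne_zero _ hY0'), k13]⟩
  have hb0 : b ≠ 0 := fun h0 => h13 (by rw [h0] at hb; linear_combination hb)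
  obtain ⟨r, s, hrs, hs, hr⟩ := exists_coprime (a / b)
  have hsQ : (s : ℚ) ≠ 0 := by exact_mod_cast hs
  have hab : a = (r : ℚ) / s * b := by
    rw [hr]
    field_simp
  have h2 : e₁ - e₂ = b ^ 2 / (s : ℚ) ^ 2 * ((r ^ 2 : ℤ) : ℚ) := by
    rw [ha, hab]
    push_cast
    field_simp
  have h3 : e₁ - e₃ = b ^ 2 / (s : ℚ) ^ 2 * ((s ^ 2 : ℤ) : ℚ) := by
    rw [hb]
    push_cast
    field_simp
  have hmn : ¬ (2 ∣ r ^ 2 ∧ 2 ∣ s ^ 2) := fun ⟨h6, h7⟩ =>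
    Int.prime_two.not_isUnit (hrs.isUnit_of_dvd' (Int.prime_two.dvd_of_dvd_pow h6)
      (Int.prime_two.dvd_of_dvd_pow h7))
  -- `j (m n (m - n))² = 2⁸ (m² - m n + n²)³`, `m = r²`, `n = s²`
  have hj : E.j * (((r ^ 2 * s ^ 2 * (r ^ 2 - s ^ 2)) ^ 2 : ℤ) : ℚ) =
      2 ^ 8 * ((((r ^ 4 - r ^ 2 * s ^ 2 + s ^ 4) ^ 3 : ℤ)) : ℚ) := by
    have h4 := hT2.c₄ h2 h3
    have h5 := hT2.Δ h2 h3
    have h6 := j_mul_Δ E
    rw [h4, h5] at h6
    have h7 : 16 * (b ^ 2 / (s : ℚ) ^ 2) ^ 6 ≠ 0 :=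
      mul_ne_zero (by norm_num) (pow_ne_zero _ (div_ne_zero (pow_ne_zero _ hb0)
        (pow_ne_zero _ hsQ)))
    apply mul_left_cancel₀ h7
    push_cast at h6 ⊢
    linear_combination h6
  have key : ∀ (W U : ℤ) (k : ℕ), Odd W → Odd U → E.j * (W : ℚ) = 2 ^ k * (U : ℚ) →
      padicValRat 2 E.j = k := fun W U k hW hU h =>
    val_eq (p := 2) (by exact_mod_cast odd_not_dvd hW) (by exact_mod_cast odd_not_dvd hU)
      (by exact_mod_cast h)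
  rcases Int.even_or_odd r with hr2 | hr2
  · -- `r` even
    obtain ⟨i, hi⟩ := hr2
    have hs2 : Odd s := by
      rw [← Int.not_even_iff_odd]
      intro h
      exact Int.prime_two.not_isUnit (hrs.isUnit_of_dvd' ⟨i, by rw [hi]; ring⟩ h.two_dvd)
    rcases Int.even_or_odd i with ⟨l, hl⟩ | hi2
    · exact Or.inl (hT2.val_j h2 h3 hmn ⟨l ^ 2 * s ^ 2 * (r ^ 2 - s ^ 2), by
        rw [show r ^ 2 = 16 * l ^ 2 by rw [hi, hl]; ring]
        ring⟩).2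
    · right; right
      refine key (i ^ 4 * s ^ 4 * (4 * i ^ 2 - s ^ 2) ^ 2)
        ((16 * i ^ 4 - 4 * i ^ 2 * s ^ 2 + s ^ 4) ^ 3) 4
        ((hi2.pow.mul hs2.pow).mul (Even.sub_odd ⟨2 * i ^ 2, by ring⟩ hs2.pow).pow)
        (Even.add_odd ⟨8 * i ^ 4 - 2 * i ^ 2 * s ^ 2, by ring⟩ hs2.pow).pow ?_
      have h16 : (16 : ℚ) ≠ 0 := by norm_num
      apply mul_left_cancel₀ h16
      rw [hi] at hj
      push_cast at hj ⊢
      linear_combination hj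
  · rcases Int.even_or_odd s with hs2 | hs2
    · -- `s` even
      obtain ⟨i, hi⟩ := hs2
      rcases Int.even_or_odd i with ⟨l, hl⟩ | hi2
      · exact Or.inl (hT2.val_j h2 h3 hmn ⟨r ^ 2 * l ^ 2 * (r ^ 2 - s ^ 2), by
          rw [show s ^ 2 = 16 * l ^ 2 by rw [hi, hl]; ring]
          ring⟩).2
      · right; right
        refine key (r ^ 4 * i ^ 4 * (r ^ 2 - 4 * i ^ 2) ^ 2)
          ((r ^ 4 - 4 * r ^ 2 * i ^ 2 + 16 * i ^ 4) ^ 3) 4
          ((hr2.pow.mul hi2.pow).mul (Odd.sub_even hr2.pow ⟨2 * i ^ 2, by ring⟩).pow)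
          (Odd.add_even (Odd.sub_even hr2.pow ⟨2 * r ^ 2 * i ^ 2, by ring⟩)
            ⟨8 * i ^ 4, by ring⟩).pow ?_
        have h16 : (16 : ℚ) ≠ 0 := by norm_num
        apply mul_left_cancel₀ h16
        rw [hi] at hj
        push_cast at hj ⊢
        linear_combination hj
    · -- both odd
      obtain ⟨α, hα⟩ := odd_sq hr2
      obtain ⟨β, hβ⟩ := odd_sq hs2
      rcases Int.even_or_odd (α - β) with ⟨l, hl⟩ | hi2
      · exact Or.inl (hT2.val_j h2 h3 hmn ⟨r ^ 2 * s ^ 2 * l, by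
          have h8 : r ^ 2 - s ^ 2 = 16 * l := by rw [hα, hβ]; linarith
          rw [h8]
          ring⟩).2
      · right; left
        have h8 : r ^ 2 - s ^ 2 = 8 * (α - β) := by rw [hα, hβ]; ring
        rw [h8] at hj
        refine key (r ^ 4 * s ^ 4 * (α - β) ^ 2) ((r ^ 4 - r ^ 2 * s ^ 2 + s ^ 4) ^ 3) 2
          ((hr2.pow.mul hs2.pow).mul hi2.pow)
          (Even.add_odd (Odd.sub_odd hr2.pow (hr2.pow.mul hs2.pow)) hs2.pow).pow ?_
        have h64 : (64 : ℚ) ≠ 0 := by norm_num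
        apply mul_left_cancel₀ h64
        push_cast at hj ⊢
        linear_combination hj

/-- **An elliptic curve over `ℚ` with full rational `2`-torsion, a rational point of order `4` and
`v₂(j) ≠ 2, 4` is modular.** -/
theorem isModular_of_two_four_of_val (E : WeierstrassCurve ℚ) [E.IsElliptic]
    {Q T : E.toAffine.Point} (hQ : addOrderOf Q = 4) (hT : addOrderOf T = 2)
    (hne : (2 : ℕ) • Q ≠ T) (h2 : padicValRat 2 E.j ≠ 2) (h4 : padicValRat 2 E.j ≠ 4) :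
    E.IsModular := by
  have hQ2 : addOrderOf ((2 : ℕ) • Q) = 2 := by
    rw [addOrderOf_nsmul_of_dvd (by norm_num) (by rw [hQ]; norm_num), hQ]
  refine isModular_of_full_two_torsion E _ _ hQ2 hT hne ?_
  rcases val_j_of_two_four hQ hT hne with h | h | h
  · exact h
  · exact absurd h h2
  · exact absurd h h4

/-- **If the number of rational torsion points of `E` is divisible by `8` and `v₂(j)` is not `1`,
`2` or `4`, then `E` is modular.** -/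
theorem isModular_of_eight_dvd (E : WeierstrassCurve ℚ) [E.IsElliptic]
    (h8 : 8 ∣ Nat.card (AddCommGroup.torsion E.toAffine.Point)) (h1 : padicValRat 2 E.j ≠ 1)
    (h2 : padicValRat 2 E.j ≠ 2) (h4 : padicValRat 2 E.j ≠ 4) : E.IsModular := by
  rcases MT.mazur_four E (Dvd.dvd.trans (by norm_num) h8) with ⟨n, hn, he⟩ | ⟨m, hm, he⟩
  · have hc := Nat.card_congr he.some.toEquiv
    rw [Nat.card_zmod] at hc
    rcases hn with rfl | rfl | rfl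
    · rw [hc] at h8
      norm_num at h8
    · obtain ⟨f, hf⟩ := exists_injective he
      exact isModular_of_order_eight_of_val E (R := f 1)
        (by rw [addOrderOf_injective f hf, ZMod.addOrderOf_one]) h1
    · rw [hc] at h8
      norm_num at h8
  · have hc := Nat.card_congr he.some.toEquiv
    rw [Nat.card_prod, Nat.card_zmod, Nat.card_zmod] at hc
    rcases hm with rfl | rfl | rfl | rfl
    · rw [hc] at h8
      norm_num at h8
    · obtain ⟨f, hf⟩ := exists_injective he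
      refine isModular_of_two_four_of_val E (Q := f (0, 1)) (T := f (1, 0)) ?_ ?_ ?_ h2 h4
      · rw [addOrderOf_injective f hf]
        have : Fact (Nat.Prime 2) := ⟨Nat.prime_two⟩
        exact addOrderOf_eq_prime_pow (p := 2) (n := 1) (by decide) (by decide)
      · rw [addOrderOf_injective f hf]
        have : Fact (Nat.Prime 2) := ⟨Nat.prime_two⟩
        exact addOrderOf_eq_prime (by decide) (by decide)
      · intro h
        rw [← map_nsmul] at h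
        exact absurd (hf h) (by decide)
    · rw [hc] at h8
      norm_num at h8
    · exact isModular_of_large_torsion E (Or.inr (Or.inr (exists_injective he)))

end Fermat.Agent.Cor.Twist

end
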