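import Fermat.Agent.Corollaries.Twist.Sharp

/-!
# Explicit families of modular elliptic curves

* `isModular_two`: `y² = x³ + a x² + 16 b x` for `a` odd, `gcd(a, b) = 1`;
* `isModular_three`: `y² + a x y + b y = x³` for `gcd(a, b) = 1`, `3 ∤ a`;
* `isModular_five`, `isModular_seven`: the Tate normal forms with a point of order `5`, `7`
  which are semistable at `5`, `7`.
-/

set_option autoImplicit false

noncomputable section

open WeierstrassCurve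

namespace Fermat.Agent.Cor.Twist

theorem not_both {p : ℕ} (hp : p.Prime) {a b : ℤ} (h : IsCoprime a b) (ha : (p : ℤ) ∣ a) :
    ¬ (p : ℤ) ∣ b := fun hb =>
  (Nat.prime_iff_prime_int.1 hp).not_isUnit (h.isUnit_of_dvd' ha hb)

/-! ### A point of order `2` -/

/-- `y² + x y = x³ + n x² + b x`. -/
def curve2 (n b : ℤ) : WeierstrassCurve ℤ := ⟨1, n, 0, b, 0⟩

theorem curve2_c₄ (n b : ℤ) : (curve2 n b).c₄ = (1 + 4 * n) ^ 2 - 48 * b := by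
  simp only [curve2, WeierstrassCurve.c₄, WeierstrassCurve.b₂, WeierstrassCurve.b₄]
  ring

theorem curve2_c₆ (n b : ℤ) :
    (curve2 n b).c₆ = -(1 + 4 * n) ^ 3 + 72 * (1 + 4 * n) * b := by
  simp only [curve2, WeierstrassCurve.c₆, WeierstrassCurve.b₂, WeierstrassCurve.b₄,
    WeierstrassCurve.b₆]
  ring

theorem curve2_Δ (n b : ℤ) : (curve2 n b).Δ = b ^ 2 * ((1 + 4 * n) ^ 2 - 64 * b) := by
  simp only [curve2, WeierstrassCurve.Δ, WeierstrassCurve.b₂, WeierstrassCurve.b₄,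
    WeierstrassCurve.b₆, WeierstrassCurve.b₈]
  ring

theorem curve2_semistable {n b : ℤ} (h : IsCoprime (1 + 4 * n) b) :
    (curve2 n b).IsSemistableModel := by
  intro p hp hΔ h4
  have hP := Nat.prime_iff_prime_int.1 hp
  rw [curve2_Δ] at hΔ
  rw [curve2_c₄] at h4
  have hb : ¬ (p : ℤ) ∣ b := fun hb => by
    have h1 : (p : ℤ) ∣ (1 + 4 * n) ^ 2 := by
      have h2 := dvd_add h4 (hb.mul_left 48)
      rwa [sub_add_cancel] at h2
    exact not_both hp h (hP.dvd_of_dvd_pow h1) hb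
  have h3 : (p : ℤ) ∣ (1 + 4 * n) ^ 2 - 64 * b :=
    (hP.dvd_or_dvd hΔ).resolve_left fun h' => hb (hP.dvd_of_dvd_pow h')
  have h5 : (p : ℤ) ∣ 16 * b := by
    have h6 := dvd_sub h4 h3
    have e : (1 + 4 * n) ^ 2 - 48 * b - ((1 + 4 * n) ^ 2 - 64 * b) = 16 * b := by ring
    rwa [e] at h6
  have h7 : (p : ℤ) ∣ 2 := by
    have h8 : (p : ℤ) ∣ 2 ^ 4 := (hP.dvd_or_dvd h5).resolve_right hb
    exact hP.dvd_of_dvd_pow h8
  have h9 : (p : ℤ) ∣ 1 := by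
    have h10 := dvd_sub h4 (h7.mul_right (4 * n + 8 * n ^ 2 - 24 * b))
    have e : (1 + 4 * n) ^ 2 - 48 * b - 2 * (4 * n + 8 * n ^ 2 - 24 * b) = 1 := by ring
    rwa [e] at h10
  exact hP.not_isUnit (isUnit_of_dvd_one h9)

/-- **The curves `y² = x³ + a x² + 16 b x`**, `a` odd and prime to `b`, are modular. -/
theorem isModular_two {a b : ℤ} (ha : Odd a) (hab : IsCoprime a b) (hb : b ≠ 0)
    (hΔ : a ^ 2 ≠ 64 * b) : (⟨0, a, 0, 16 * b, 0⟩ : WeierstrassCurve ℚ).IsModular := by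
  set E : WeierstrassCurve ℚ := ⟨0, a, 0, 16 * b, 0⟩ with hE
  have e4 : E.c₄ = 16 * ((a : ℚ) ^ 2 - 48 * b) := by
    simp only [hE, WeierstrassCurve.c₄, WeierstrassCurve.b₂, WeierstrassCurve.b₄]
    ring
  have e6 : E.c₆ = 64 * (-(a : ℚ) ^ 3 + 72 * a * b) := by
    simp only [hE, WeierstrassCurve.c₆, WeierstrassCurve.b₂, WeierstrassCurve.b₄,
      WeierstrassCurve.b₆]
    ring
  have hmod : a % 4 = 1 ∨ a % 4 = 3 := by
    obtain ⟨m, hm⟩ := ha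
    omega
  rcases hmod with h1 | h1
  · obtain ⟨n, rfl⟩ : ∃ n : ℤ, a = 1 + 4 * n := ⟨a / 4, by omega⟩
    refine isModular_of_semistable_c₄_c₆ (W := curve2 n b) (d := 4) ?_ (curve2_semistable hab)
      (by norm_num) ?_ ?_
    · rw [curve2_Δ]
      exact mul_ne_zero (pow_ne_zero _ hb) (sub_ne_zero.2 hΔ)
    · rw [e4, curve2_c₄]
      push_cast
      ring
    · rw [e6, curve2_c₆]
      push_cast
      ring
  · obtain ⟨n, hn⟩ : ∃ n : ℤ, -a = 1 + 4 * n := ⟨-a / 4, by omega⟩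
    obtain rfl : a = -(1 + 4 * n) := by rw [← hn, neg_neg]
    refine isModular_of_semistable_c₄_c₆ (W := curve2 n b) (d := -4) ?_
      (curve2_semistable ((IsCoprime.neg_left_iff _ _).1 hab)) (by norm_num) ?_ ?_
    · rw [curve2_Δ]
      refine mul_ne_zero (pow_ne_zero _ hb) (sub_ne_zero.2 ?_)
      rwa [neg_sq] at hΔ
    · rw [e4, curve2_c₄]
      push_cast
      ring
    · rw [e6, curve2_c₆]
      push_cast
      ring

/-! ### A point of order `3` -/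

/-- `y² + a x y + b y = x³`, with the point `(0, 0)` of order `3`. -/
def curve3 (a b : ℤ) : WeierstrassCurve ℤ := ⟨a, 0, b, 0, 0⟩

theorem curve3_c₄ (a b : ℤ) : (curve3 a b).c₄ = a * (a ^ 3 - 24 * b) := by
  simp only [curve3, WeierstrassCurve.c₄, WeierstrassCurve.b₂, WeierstrassCurve.b₄]
  ring

theorem curve3_Δ (a b : ℤ) : (curve3 a b).Δ = b ^ 3 * (a ^ 3 - 27 * b) := by
  simp only [curve3, WeierstrassCurve.Δ, WeierstrassCurve.b₂, WeierstrassCurve.b₄,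
    WeierstrassCurve.b₆, WeierstrassCurve.b₈]
  ring

theorem curve3_semistable {a b : ℤ} (h : IsCoprime a b) (h3 : ¬ (3 : ℤ) ∣ a) :
    (curve3 a b).IsSemistableModel := by
  intro p hp hΔ h4
  have hP := Nat.prime_iff_prime_int.1 hp
  rw [curve3_Δ] at hΔ
  rw [curve3_c₄] at h4
  have hp3 : (p : ℤ) ∣ 3 → ¬ (p : ℤ) ∣ a := fun h' ha => by
    have h5 : p ∣ 3 := by exact_mod_cast h'
    rw [(Nat.prime_dvd_prime_iff_eq hp Nat.prime_three).1 h5] at ha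
    exact h3 ha
  have hb : ¬ (p : ℤ) ∣ b := fun hb => by
    rcases hP.dvd_or_dvd h4 with h' | h'
    · exact not_both hp h h' hb
    · have h2 := dvd_add h' (hb.mul_left 24)
      rw [sub_add_cancel] at h2
      exact not_both hp h (hP.dvd_of_dvd_pow h2) hb
  have h5 : (p : ℤ) ∣ a ^ 3 - 27 * b :=
    (hP.dvd_or_dvd hΔ).resolve_left fun h' => hb (hP.dvd_of_dvd_pow h')
  rcases hP.dvd_or_dvd h4 with h' | h'
  · have h6 : (p : ℤ) ∣ 3 ^ 3 * b := by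
      have h7 := dvd_sub (dvd_pow h' three_ne_zero) h5
      have e : a ^ 3 - (a ^ 3 - 27 * b) = 3 ^ 3 * b := by ring
      rwa [e] at h7
    exact hp3 (hP.dvd_of_dvd_pow ((hP.dvd_or_dvd h6).resolve_right hb)) h'
  · have h6 : (p : ℤ) ∣ 3 * b := by
      have h7 := dvd_sub h' h5
      have e : a ^ 3 - 24 * b - (a ^ 3 - 27 * b) = 3 * b := by ring
      rwa [e] at h7
    have h8 : (p : ℤ) ∣ 3 := (hP.dvd_or_dvd h6).resolve_right hb
    have h9 : (p : ℤ) ∣ a ^ 3 := by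
      have h7 := dvd_add h' ((h8.mul_right 8).mul_right b)
      have e : a ^ 3 - 24 * b + 3 * 8 * b = a ^ 3 := by ring
      rwa [e] at h7
    exact hp3 h8 (hP.dvd_of_dvd_pow h9)

/-- **The curves `y² + a x y + b y = x³`**, `a` and `b` coprime, `3 ∤ a`, are modular. -/
theorem isModular_three {a b : ℤ} (h : IsCoprime a b) (h3 : ¬ (3 : ℤ) ∣ a) (hb : b ≠ 0)
    (hΔ : a ^ 3 ≠ 27 * b) : ((curve3 a b).map (Int.castRingHom ℚ)).IsModular := by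
  refine Classic.isModular_of_semistable _ ?_ (curve3_semistable h h3)
  rw [curve3_Δ]
  exact mul_ne_zero (pow_ne_zero _ hb) (sub_ne_zero.2 hΔ)

/-! ### A point of order `5` -/

/-- `y² + (v - u) x y - u v² y = x³ - u v x²`, with the point `(0, 0)` of order `5`. -/
def curve5 (u v : ℤ) : WeierstrassCurve ℤ := ⟨v - u, -(u * v), -(u * v ^ 2), 0, 0⟩

theorem curve5_c₄ (u v : ℤ) : (curve5 u v).c₄ =
    u ^ 4 - 12 * u ^ 3 * v + 14 * u ^ 2 * v ^ 2 + 12 * u * v ^ 3 + v ^ 4 := by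
  simp only [curve5, WeierstrassCurve.c₄, WeierstrassCurve.b₂, WeierstrassCurve.b₄]
  ring

theorem curve5_Δ (u v : ℤ) : (curve5 u v).Δ = u ^ 5 * v ^ 5 * (u ^ 2 - 11 * u * v - v ^ 2) := by
  simp only [curve5, WeierstrassCurve.Δ, WeierstrassCurve.b₂, WeierstrassCurve.b₄,
    WeierstrassCurve.b₆, WeierstrassCurve.b₈]
  ring

theorem curve5_semi {u v : ℤ} (h : IsCoprime u v) {p : ℕ} (hp : p.Prime)
    (h5 : p = 5 → ¬ (5 : ℤ) ∣ u - 3 * v) (hΔ : (p : ℤ) ∣ (curve5 u v).Δ) :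
    ¬ (p : ℤ) ∣ (curve5 u v).c₄ := by
  intro h4
  have hP := Nat.prime_iff_prime_int.1 hp
  rw [curve5_Δ] at hΔ
  rw [curve5_c₄] at h4
  have hu : ¬ (p : ℤ) ∣ u := fun hu => by
    have h1 : (p : ℤ) ∣ v ^ 4 := by
      have h2 := dvd_sub h4 (hu.mul_right (u ^ 3 - 12 * u ^ 2 * v + 14 * u * v ^ 2 + 12 * v ^ 3))
      have e : u ^ 4 - 12 * u ^ 3 * v + 14 * u ^ 2 * v ^ 2 + 12 * u * v ^ 3 + v ^ 4 -
        u * (u ^ 3 - 12 * u ^ 2 * v + 14 * u * v ^ 2 + 12 * v ^ 3) = v ^ 4 := by ring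
      rwa [e] at h2
    exact not_both hp h hu (hP.dvd_of_dvd_pow h1)
  have hv : ¬ (p : ℤ) ∣ v := fun hv => by
    have h1 : (p : ℤ) ∣ u ^ 4 := by
      have h2 := dvd_sub h4 (hv.mul_right (-12 * u ^ 3 + 14 * u ^ 2 * v + 12 * u * v ^ 2 + v ^ 3))
      have e : u ^ 4 - 12 * u ^ 3 * v + 14 * u ^ 2 * v ^ 2 + 12 * u * v ^ 3 + v ^ 4 -
        v * (-12 * u ^ 3 + 14 * u ^ 2 * v + 12 * u * v ^ 2 + v ^ 3) = u ^ 4 := by ring
      rwa [e] at h2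
    exact hu (hP.dvd_of_dvd_pow h1)
  have hq : (p : ℤ) ∣ u ^ 2 - 11 * u * v - v ^ 2 :=
    (hP.dvd_or_dvd hΔ).resolve_left fun h' => (hP.dvd_or_dvd h').elim
      (fun h'' => hu (hP.dvd_of_dvd_pow h'')) fun h'' => hv (hP.dvd_of_dvd_pow h'')
  have h6 : (p : ℤ) ∣ 5 * v ^ 5 := by
    have h7 := dvd_add (h4.mul_left (-11 * u + 122 * v))
      (hq.mul_left (11 * u ^ 3 - 133 * u ^ 2 * v + 166 * u * v ^ 2 + 117 * v ^ 3))
    have e : (-11 * u + 122 * v) *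
        (u ^ 4 - 12 * u ^ 3 * v + 14 * u ^ 2 * v ^ 2 + 12 * u * v ^ 3 + v ^ 4) +
        (11 * u ^ 3 - 133 * u ^ 2 * v + 166 * u * v ^ 2 + 117 * v ^ 3) *
        (u ^ 2 - 11 * u * v - v ^ 2) = 5 * v ^ 5 := by ring
    rwa [e] at h7
  have h8 : (p : ℤ) ∣ 5 :=
    (hP.dvd_or_dvd h6).resolve_right fun h' => hv (hP.dvd_of_dvd_pow h')
  have h9 : p = 5 := (Nat.prime_dvd_prime_iff_eq hp Nat.prime_five).1 (by exact_mod_cast h8)
  refine h5 h9 ?_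
  subst h9
  have h10 : (5 : ℤ) ∣ (u - 3 * v) ^ 2 := by
    have h11 := dvd_add hq (Dvd.intro (u * v + 2 * v ^ 2) rfl : (5 : ℤ) ∣ 5 * (u * v + 2 * v ^ 2))
    have e : u ^ 2 - 11 * u * v - v ^ 2 + 5 * (u * v + 2 * v ^ 2) = (u - 3 * v) ^ 2 := by ring
    rwa [e] at h11
  exact hP.dvd_of_dvd_pow h10

theorem curve5_q_ne_zero {u v : ℤ} (h5 : ¬ (5 : ℤ) ∣ u - 3 * v) :
    u ^ 2 - 11 * u * v - v ^ 2 ≠ 0 := fun h0 => h5 <| by
  have hP : Prime (5 : ℤ) := Nat.prime_iff_prime_int.1 Nat.prime_five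
  refine hP.dvd_of_dvd_pow (n := 2) ⟨u * v + 2 * v ^ 2, ?_⟩
  linear_combination h0

/-- **The curves `y² + (v - u) x y - u v² y = x³ - u v x²`** (with a point of order `5`), `u`,
`v` coprime, `5 ∤ u - 3 v`, are modular. -/
theorem isModular_five {u v : ℤ} (h : IsCoprime u v) (h5 : ¬ (5 : ℤ) ∣ u - 3 * v) (hu : u ≠ 0)
    (hv : v ≠ 0) : ((curve5 u v).map (Int.castRingHom ℚ)).IsModular := by
  refine Classic.isModular_of_semistable _ ?_ fun p hp => curve5_semi h hp fun _ => h5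
  rw [curve5_Δ]
  exact mul_ne_zero (mul_ne_zero (pow_ne_zero _ hu) (pow_ne_zero _ hv)) (curve5_q_ne_zero h5)

/-! ### A point of order `7` -/

/-- `y² + (v² + u v - u²) x y - u² v³ (u - v) y = x³ - u² v (u - v) x²`, with the point `(0, 0)`
of order `7`. -/
def curve7 (u v : ℤ) : WeierstrassCurve ℤ :=
  ⟨v ^ 2 + u * v - u ^ 2, -(u ^ 2 * v * (u - v)), -(u ^ 2 * v ^ 3 * (u - v)), 0, 0⟩

theorem curve7_c₄ (u v : ℤ) : (curve7 u v).c₄ =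
    u ^ 8 - 12 * u ^ 7 * v + 42 * u ^ 6 * v ^ 2 - 56 * u ^ 5 * v ^ 3 + 35 * u ^ 4 * v ^ 4 -
      14 * u ^ 2 * v ^ 6 + 4 * u * v ^ 7 + v ^ 8 := by
  simp only [curve7, WeierstrassCurve.c₄, WeierstrassCurve.b₂, WeierstrassCurve.b₄]
  ring

theorem curve7_Δ (u v : ℤ) : (curve7 u v).Δ =
    u ^ 7 * v ^ 7 * (u - v) ^ 7 * (u ^ 3 - 8 * u ^ 2 * v + 5 * u * v ^ 2 + v ^ 3) := by
  simp only [curve7, WeierstrassCurve.Δ, WeierstrassCurve.b₂, WeierstrassCurve.b₄,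
    WeierstrassCurve.b₆, WeierstrassCurve.b₈]
  ring

theorem curve7_semi {u v : ℤ} (h : IsCoprime u v) {p : ℕ} (hp : p.Prime)
    (h7 : p = 7 → ¬ (7 : ℤ) ∣ u - 5 * v) (hΔ : (p : ℤ) ∣ (curve7 u v).Δ) :
    ¬ (p : ℤ) ∣ (curve7 u v).c₄ := by
  intro h4
  have hP := Nat.prime_iff_prime_int.1 hp
  rw [curve7_Δ] at hΔ
  rw [curve7_c₄] at h4
  have hu : ¬ (p : ℤ) ∣ u := fun hu => by
    have h1 : (p : ℤ) ∣ v ^ 8 := by
      have h2 := dvd_sub h4 (hu.mul_right (u ^ 7 - 12 * u ^ 6 * v + 42 * u ^ 5 * v ^ 2 -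
        56 * u ^ 4 * v ^ 3 + 35 * u ^ 3 * v ^ 4 - 14 * u * v ^ 6 + 4 * v ^ 7))
      ring_nf at h2
      exact h2
    exact not_both hp h hu (hP.dvd_of_dvd_pow h1)
  have hv : ¬ (p : ℤ) ∣ v := fun hv => by
    have h1 : (p : ℤ) ∣ u ^ 8 := by
      have h2 := dvd_sub h4 (hv.mul_right (-12 * u ^ 7 + 42 * u ^ 6 * v - 56 * u ^ 5 * v ^ 2 +
        35 * u ^ 4 * v ^ 3 - 14 * u ^ 2 * v ^ 5 + 4 * u * v ^ 6 + v ^ 7))
      ring_nf at h2
      exact h2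
    exact hu (hP.dvd_of_dvd_pow h1)
  have huv : ¬ (p : ℤ) ∣ u - v := fun huv => by
    have h1 : (p : ℤ) ∣ v ^ 8 := by
      have h2 := dvd_sub h4 (huv.mul_right (u ^ 7 - 11 * u ^ 6 * v + 31 * u ^ 5 * v ^ 2 -
        25 * u ^ 4 * v ^ 3 + 10 * u ^ 3 * v ^ 4 + 10 * u ^ 2 * v ^ 5 - 4 * u * v ^ 6))
      ring_nf at h2
      exact h2
    exact hv (hP.dvd_of_dvd_pow h1)
  have hq : (p : ℤ) ∣ u ^ 3 - 8 * u ^ 2 * v + 5 * u * v ^ 2 + v ^ 3 := by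
    refine (hP.dvd_or_dvd hΔ).resolve_left fun h' => ?_
    rcases hP.dvd_or_dvd h' with h' | h'
    · rcases hP.dvd_or_dvd h' with h' | h'
      · exact hu (hP.dvd_of_dvd_pow h')
      · exact hv (hP.dvd_of_dvd_pow h')
    · exact huv (hP.dvd_of_dvd_pow h')
  have h6 : (p : ℤ) ∣ 7 ^ 2 * v ^ 10 := by
    have h8 := dvd_add (h4.mul_left (-444 * u ^ 2 + 3005 * u * v + 1710 * v ^ 2))
      (hq.mul_left (444 * u ^ 7 - 4781 * u ^ 6 * v + 12530 * u ^ 5 * v ^ 2 -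
        6853 * u ^ 4 * v ^ 3 - 693 * u ^ 3 * v ^ 4 + 6776 * u ^ 2 * v ^ 5 -
        1540 * u * v ^ 6 - 1661 * v ^ 7))
    have e : (-444 * u ^ 2 + 3005 * u * v + 1710 * v ^ 2) *
        (u ^ 8 - 12 * u ^ 7 * v + 42 * u ^ 6 * v ^ 2 - 56 * u ^ 5 * v ^ 3 + 35 * u ^ 4 * v ^ 4 -
          14 * u ^ 2 * v ^ 6 + 4 * u * v ^ 7 + v ^ 8) +
        (444 * u ^ 7 - 4781 * u ^ 6 * v + 12530 * u ^ 5 * v ^ 2 -
          6853 * u ^ 4 * v ^ 3 - 693 * u ^ 3 * v ^ 4 + 6776 * u ^ 2 * v ^ 5 -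
          1540 * u * v ^ 6 - 1661 * v ^ 7) *
        (u ^ 3 - 8 * u ^ 2 * v + 5 * u * v ^ 2 + v ^ 3) = 7 ^ 2 * v ^ 10 := by ring
    rwa [e] at h8
  have h8 : (p : ℤ) ∣ 7 := hP.dvd_of_dvd_pow
    ((hP.dvd_or_dvd h6).resolve_right fun h' => hv (hP.dvd_of_dvd_pow h'))
  have h9 : p = 7 := (Nat.prime_dvd_prime_iff_eq hp (by norm_num)).1 (by exact_mod_cast h8)
  refine h7 h9 ?_
  subst h9
  have h10 : (7 : ℤ) ∣ (u - 5 * v) ^ 3 := by
    have h11 := dvd_add hq (Dvd.intro (-(u ^ 2 * v) + 10 * (u * v ^ 2) - 18 * v ^ 3) rfl :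
      (7 : ℤ) ∣ 7 * (-(u ^ 2 * v) + 10 * (u * v ^ 2) - 18 * v ^ 3))
    have e : u ^ 3 - 8 * u ^ 2 * v + 5 * u * v ^ 2 + v ^ 3 +
        7 * (-(u ^ 2 * v) + 10 * (u * v ^ 2) - 18 * v ^ 3) = (u - 5 * v) ^ 3 := by ring
    rwa [e] at h11
  exact hP.dvd_of_dvd_pow h10

theorem curve7_q_ne_zero {u v : ℤ} (h7 : ¬ (7 : ℤ) ∣ u - 5 * v) :
    u ^ 3 - 8 * u ^ 2 * v + 5 * u * v ^ 2 + v ^ 3 ≠ 0 := fun h0 => h7 <| by
  have hP : Prime (7 : ℤ) := Nat.prime_iff_prime_int.1 (by norm_num)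
  refine hP.dvd_of_dvd_pow (n := 3) ⟨-(u ^ 2 * v) + 10 * (u * v ^ 2) - 18 * v ^ 3, ?_⟩
  linear_combination h0

/-- **The curves `y² + (v² + u v - u²) x y - u² v³ (u - v) y = x³ - u² v (u - v) x²`** (with a
point of order `7`), `u`, `v` coprime, `7 ∤ u - 5 v`, are modular. -/
theorem isModular_seven {u v : ℤ} (h : IsCoprime u v) (h7 : ¬ (7 : ℤ) ∣ u - 5 * v) (hu : u ≠ 0)
    (hv : v ≠ 0) (huv : u ≠ v) : ((curve7 u v).map (Int.castRingHom ℚ)).IsModular := by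
  refine Classic.isModular_of_semistable _ ?_ fun p hp => curve7_semi h hp fun _ => h7
  rw [curve7_Δ]
  exact mul_ne_zero (mul_ne_zero (mul_ne_zero (pow_ne_zero _ hu) (pow_ne_zero _ hv))
    (pow_ne_zero _ (sub_ne_zero.2 huv))) (curve7_q_ne_zero h7)

end Fermat.Agent.Cor.Twist

end
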