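import Fermat.Agent.Corollaries.Twist.TwoTorsion

/-!
# The Frey curve of a triple

`isModular_frey`: let `A + B + C = 0` with `A`, `B` coprime, `A B C ≠ 0` and `16 ∣ A B C`.  Then the
curve `d y² = x (x - A) (x + B)` is modular, for every `d ≠ 0`.
-/

set_option autoImplicit false

noncomputable section

open WeierstrassCurve

namespace Fermat.Agent.Cor.Twist

/-- `d y² = x (x - A) (x + B)`. -/
def frey (d : ℚ) (A B : ℤ) : WeierstrassCurve ℚ := ⟨0, d * (B - A), 0, -(d ^ 2 * (A * B)), 0⟩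

theorem frey_c₄ (d : ℚ) (A B : ℤ) : (frey d A B).c₄ =
    16 * d ^ 2 * ((A : ℚ) ^ 2 + A * B + B ^ 2) := by
  simp only [frey, WeierstrassCurve.c₄, WeierstrassCurve.b₂, WeierstrassCurve.b₄]
  ring

theorem frey_c₆ (d : ℚ) (A B : ℤ) : (frey d A B).c₆ =
    32 * d ^ 3 * (((A : ℚ) - B) * (2 * A + B) * (A + 2 * B)) := by
  simp only [frey, WeierstrassCurve.c₆, WeierstrassCurve.b₂, WeierstrassCurve.b₄,
    WeierstrassCurve.b₆]
  ring

theorem frey_Δ (d : ℚ) (A B : ℤ) : (frey d A B).Δ =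
    16 * d ^ 6 * ((A : ℚ) * B * (A + B)) ^ 2 := by
  simp only [frey, WeierstrassCurve.Δ, WeierstrassCurve.b₂, WeierstrassCurve.b₄,
    WeierstrassCurve.b₆, WeierstrassCurve.b₈]
  ring

/-- If `2ⁿ` divides `A B C` with `A`, `B`, `C` pairwise coprime then it divides one of them. -/
theorem sixteen_dvd_or {A B C : ℤ} (hAB : IsCoprime A B) (hAC : IsCoprime A C)
    (hBC : IsCoprime B C) (h : 16 ∣ A * B * C) : 16 ∣ A ∨ 16 ∣ B ∨ 16 ∣ C := by
  have key : ∀ {x y : ℤ}, IsCoprime x y → 2 ∣ x → IsCoprime 16 y := by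
    intro x y hxy hx
    have h1 : IsCoprime (2 : ℤ) y := by
      obtain ⟨k, rfl⟩ := hx
      exact hxy.of_mul_left_left
    rw [show (16 : ℤ) = 2 ^ 4 by norm_num]
    exact h1.pow_left
  have h2 : Prime (2 : ℤ) := Int.prime_two
  have h3 : (2 : ℤ) ∣ A * B * C := Dvd.dvd.trans (by norm_num) h
  rcases h2.dvd_or_dvd h3 with h4 | h4
  · rcases h2.dvd_or_dvd h4 with h5 | h5
    · exact Or.inl ((key hAB h5).dvd_of_dvd_mul_right ((key hAC h5).dvd_of_dvd_mul_right h))
    · refine Or.inr (Or.inl ((key hAB.symm h5).dvd_of_dvd_mul_left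
        ((key hBC h5).dvd_of_dvd_mul_right h)))
  · refine Or.inr (Or.inr ?_)
    have h5 := (key (hAC.symm.mul_right hBC.symm) h4)
    exact h5.dvd_of_dvd_mul_left h

/-- **The Frey curve of a triple**: `A + B + C = 0`, `A` and `B` coprime, `A B C ≠ 0` and
`16 ∣ A B C`; the curve `d y² = x (x - A) (x + B)` is modular for every rational `d ≠ 0`. -/
theorem isModular_frey {A B C : ℤ} (hABC : A + B + C = 0) (hAB : IsCoprime A B)
    (h0 : A * B * C ≠ 0) (h16 : 16 ∣ A * B * C) {d : ℚ} (hd : d ≠ 0) :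
    (⟨0, d * (B - A), 0, -(d ^ 2 * (A * B)), 0⟩ : WeierstrassCurve ℚ).IsModular := by
  obtain rfl : C = -(A + B) := by linarith
  have hA0 : A ≠ 0 := fun h => h0 (by rw [h]; ring)
  have hB0 : B ≠ 0 := fun h => h0 (by rw [h]; ring)
  have hC0 : -(A + B) ≠ 0 := fun h => h0 (by rw [h]; ring)
  have hAC : IsCoprime A (-(A + B)) := by
    have h := hAB.add_mul_left_right 1
    rw [mul_one, add_comm] at h
    exact h.neg_right
  have hBC : IsCoprime B (-(A + B)) := by
    have h := hAB.symm.add_mul_left_right 1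
    rw [mul_one] at h
    exact h.neg_right
  change (frey d A B).IsModular
  rcases sixteen_dvd_or hAB hAC hBC h16 with h | h | h
  · -- exchange `A` and `B`
    have h1 : (frey 1 B A).IsModular := by
      have h2 := isModular_legendre hAB.symm h hA0 (d := 1) one_ne_zero
      exact h2
    refine isModular_of_c₄_c₆ h1 (d := -d) (neg_ne_zero.2 hd) ?_ ?_
    · rw [frey_c₄, frey_c₄]
      ring
    · rw [frey_c₆, frey_c₆]
      ring
  · exact isModular_legendre hAB h hB0 hd
  · -- `(A, B) → (A, -(A + B))`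
    have h1 : (frey 1 A (-(A + B))).IsModular := by
      have h2 := isModular_legendre hAC h hC0 (d := 1) one_ne_zero
      exact h2
    refine isModular_of_c₄_c₆ h1 (d := -d) (neg_ne_zero.2 hd) ?_ ?_
    · rw [frey_c₄, frey_c₄]
      push_cast
      ring
    · rw [frey_c₆, frey_c₆]
      push_cast
      ring

end Fermat.Agent.Cor.Twist

end
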