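import Fermat.Agent.Corollaries.Twist.Local

/-!
# From local quadratic twists to a global one

* `exists_semistable_twist`: if `E / ℚ` is semistable at every prime `p` up to a quadratic twist
  over `ℚ_p`, then `E` is a quadratic twist of a semistable elliptic curve over `ℚ`;
* `isModular_of_locSemi`: such a curve is modular.
-/

set_option autoImplicit false

noncomputable section

open WeierstrassCurve

namespace Fermat.Agent.Cor.Twist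

/-! ### `p`-adic numbers -/

/-- A rational number which is a `p`-adic integer for all `p` is an integer. -/
theorem exists_int_of_norm_le {q : ℚ} (h : ∀ (p : ℕ) [Fact p.Prime], ‖(q : ℚ_[p])‖ ≤ 1) :
    ∃ A : ℤ, (A : ℚ) = q := by
  by_cases hd : q.den = 1
  · exact ⟨q.num, Rat.coe_int_num_of_den_eq_one hd⟩
  exfalso
  obtain ⟨p, hp, hpd⟩ := Nat.exists_prime_and_dvd hd
  haveI : Fact p.Prime := ⟨hp⟩
  have h1 := h p
  have h7 : (q : ℚ_[p]) = ((q.num : ℤ) : ℚ_[p]) / ((q.den : ℕ) : ℚ_[p]) := by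
    rw [Rat.cast_def]
  have hn : ‖((q.num : ℤ) : ℚ_[p])‖ = 1 := by
    rw [Padic.norm_intCast_eq_one_iff, Int.isCoprime_iff_gcd_eq_one, Int.gcd_comm]
    exact (Nat.Prime.coprime_iff_not_dvd hp).2 fun hh =>
      Nat.not_coprime_of_dvd_of_dvd hp.one_lt hh hpd q.reduced
  have hdn : ‖((q.den : ℕ) : ℚ_[p])‖ < 1 := Padic.norm_natCast_lt_one_iff.2 hpd
  have hd0 : 0 < ‖((q.den : ℕ) : ℚ_[p])‖ := norm_pos_iff.2 (by exact_mod_cast q.den_ne_zero)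
  rw [h7, norm_div, hn] at h1
  exact absurd h1 (not_le.2 (one_lt_one_div hd0 hdn))

/-- A `2`-adic unit is `± 1` modulo `4`. -/
theorem unit_two {w : ℤ_[2]} (hw : ‖w‖ = 1) :
    (∃ e : ℤ_[2], w = 1 + 4 * e) ∨ ∃ e : ℤ_[2], -w = 1 + 4 * e := by
  obtain ⟨k, x, hx⟩ := exists_int_approx w 2
  push_cast at hx
  have hk : ¬ (2 : ℤ) ∣ k := by
    rintro ⟨m, rfl⟩
    push_cast at hx
    have h2 : ‖w‖ < 1 := by
      rw [PadicInt.norm_lt_one_iff_dvd]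
      refine ⟨m + 2 * x, ?_⟩
      push_cast
      linear_combination hx
    exact absurd hw h2.ne
  have h4 : k % 4 = 1 ∨ k % 4 = 3 := by omega
  rcases h4 with h4 | h4
  · left
    obtain ⟨m, hm⟩ : ∃ m : ℤ, k = 1 + 4 * m := ⟨k / 4, by omega⟩
    refine ⟨m + x, ?_⟩
    rw [hm] at hx
    push_cast at hx
    linear_combination hx
  · right
    obtain ⟨m, hm⟩ : ∃ m : ℤ, k = 3 + 4 * m := ⟨k / 4, by omega⟩
    refine ⟨-1 - m - x, ?_⟩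
    rw [hm] at hx
    push_cast at hx
    linear_combination -hx

/-- For odd `p` every `p`-adic integer is `1 + 4 e`. -/
theorem exists_four {p : ℕ} [hp : Fact p.Prime] (h2 : p ≠ 2) (w : ℤ_[p]) :
    ∃ e : ℤ_[p], w = 1 + 4 * e := by
  have h4 : Nat.Coprime 4 p := by
    rw [show (4 : ℕ) = 2 ^ 2 by norm_num]
    exact Nat.Coprime.pow_left _ ((Nat.coprime_primes Nat.prime_two hp.out).2 (Ne.symm h2))
  obtain ⟨u, hu⟩ := isUnit_natCast h4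
  have hu4 : (4 : ℤ_[p]) = (u : ℤ_[p]) := by
    rw [hu]
    norm_num
  refine ⟨((u⁻¹ : (ℤ_[p])ˣ) : ℤ_[p]) * (w - 1), ?_⟩
  rw [hu4]
  linear_combination -(w - 1) * u.mul_inv

/-! ### The choice of the global twist -/

/-- the local data, with the valuation of the local twist. -/
theorem exists_valuations {E : WeierstrassCurve ℚ} {S : Finset ℕ}
    (hS : ∀ (p : ℕ) [Fact p.Prime], p ∉ S → ∃ V : WeierstrassCurve ℤ_[p],
      (V.c₄ : ℚ_[p]) = (E.c₄ : ℚ_[p]) ∧ (V.c₆ : ℚ_[p]) = (E.c₆ : ℚ_[p]) ∧ IsUnit V.Δ)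
    (h : ∀ (p : ℕ) [Fact p.Prime], LocSemi p E) :
    ∃ n : ℕ → ℤ, ∀ (p : ℕ) [Fact p.Prime], (p ∉ S → n p = 0) ∧
      ∃ (d : ℚ_[p]) (V : WeierstrassCurve ℤ_[p]), d ≠ 0 ∧ ‖d‖ = (p : ℝ) ^ (-n p) ∧
        (V.c₄ : ℚ_[p]) = d ^ 2 * (E.c₄ : ℚ_[p]) ∧ (V.c₆ : ℚ_[p]) = d ^ 3 * (E.c₆ : ℚ_[p]) ∧
        (IsUnit V.Δ ∨ IsUnit V.c₄) := by
  have key : ∀ p : ℕ, ∃ n : ℤ, ∀ hp : Fact p.Prime, (p ∉ S → n = 0) ∧
      ∃ (d : ℚ_[p]) (V : WeierstrassCurve ℤ_[p]), d ≠ 0 ∧ ‖d‖ = (p : ℝ) ^ (-n) ∧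
        (V.c₄ : ℚ_[p]) = d ^ 2 * (E.c₄ : ℚ_[p]) ∧ (V.c₆ : ℚ_[p]) = d ^ 3 * (E.c₆ : ℚ_[p]) ∧
        (IsUnit V.Δ ∨ IsUnit V.c₄) := by
    intro p
    by_cases hp : p.Prime
    · haveI : Fact p.Prime := ⟨hp⟩
      by_cases hpS : p ∈ S
      · obtain ⟨d, V, hd, h4, h6, hu⟩ := h p
        exact ⟨d.valuation, fun _ => ⟨fun h' => absurd hpS h', d, V, hd,
          Padic.norm_eq_zpow_neg_valuation hd, h4, h6, hu⟩⟩
      · obtain ⟨V, h4, h6, hu⟩ := hS p hpS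
        exact ⟨0, fun _ => ⟨fun _ => rfl, 1, V, one_ne_zero, by simp, by rw [h4]; ring,
          by rw [h6]; ring, Or.inl hu⟩⟩
    · exact ⟨0, fun h' => absurd h'.out hp⟩
  choose n hn using key
  exact ⟨n, fun p hp => hn p hp⟩

/-- the norm of `∏ q ^ n q`. -/
theorem norm_prod_zpow {S : Finset ℕ} {n : ℕ → ℤ} (hS : ∀ q ∈ S, q.Prime) {p : ℕ}
    [hp : Fact p.Prime] (hn : p ∉ S → n p = 0) :
    ‖((∏ q ∈ S, (q : ℚ) ^ n q : ℚ) : ℚ_[p])‖ = (p : ℝ) ^ (-n p) := by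
  have h1 : ((∏ q ∈ S, (q : ℚ) ^ n q : ℚ) : ℚ_[p]) = ∏ q ∈ S, ((q : ℕ) : ℚ_[p]) ^ n q := by
    push_cast
    rfl
  rw [h1, norm_prod]
  have h2 : ∀ q ∈ S, q ≠ p → ‖((q : ℕ) : ℚ_[p]) ^ n q‖ = 1 := fun q hq hqp => by
    rw [norm_zpow, Padic.norm_natCast_eq_one_iff.2
      ((Nat.coprime_primes hp.out (hS q hq)).2 (Ne.symm hqp)), one_zpow]
  by_cases hpS : p ∈ S
  · rw [Finset.prod_eq_single_of_mem p hpS h2, Padic.norm_p_zpow]
  · rw [Finset.prod_eq_one fun q hq => h2 q hq (fun h => hpS (h ▸ hq)), hn hpS, neg_zero, zpow_zero]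

/-- **From local quadratic twists to a global one.** -/
theorem exists_semistable_twist {E : WeierstrassCurve ℚ} (hΔ : E.Δ ≠ 0)
    (h : ∀ (p : ℕ) [Fact p.Prime], LocSemi p E) :
    ∃ (W : WeierstrassCurve ℤ) (d : ℚ), d ≠ 0 ∧ (W.c₄ : ℚ) = d ^ 2 * E.c₄ ∧
      (W.c₆ : ℚ) = d ^ 3 * E.c₆ ∧ W.Δ ≠ 0 ∧ W.IsSemistableModel := by
  obtain ⟨S₀, hS₀⟩ := exists_finset E hΔ
  set S : Finset ℕ := S₀.filter Nat.Prime with hSdef
  have hS : ∀ (p : ℕ) [Fact p.Prime], p ∉ S → ∃ V : WeierstrassCurve ℤ_[p],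
      (V.c₄ : ℚ_[p]) = (E.c₄ : ℚ_[p]) ∧ (V.c₆ : ℚ_[p]) = (E.c₆ : ℚ_[p]) ∧ IsUnit V.Δ :=
    fun p hp hpS => hS₀ p fun h' => hpS (Finset.mem_filter.2 ⟨h', hp.out⟩)
  have hSp : ∀ q ∈ S, q.Prime := fun q hq => (Finset.mem_filter.1 hq).2
  obtain ⟨n, hn⟩ := exists_valuations hS h
  set d₀ : ℚ := ∏ q ∈ S, (q : ℚ) ^ n q with hd₀
  have hd₀0 : d₀ ≠ 0 := Finset.prod_ne_zero_iff.2 fun q hq =>
    zpow_ne_zero _ (by exact_mod_cast (hSp q hq).ne_zero)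
  -- the quotients are units
  have hw : ∀ (p : ℕ) [Fact p.Prime] {δ : ℚ_[p]}, ‖δ‖ = (p : ℝ) ^ (-n p) →
      ‖(d₀ : ℚ_[p]) / δ‖ = 1 := by
    intro p hp δ hδ
    have hp0 : (p : ℝ) ≠ 0 := by exact_mod_cast hp.out.ne_zero
    rw [norm_div, norm_prod_zpow hSp (hn p).1, hδ, div_self (zpow_ne_zero _ hp0)]
  -- the sign
  obtain ⟨s, hs, δ₂, V₂, hδ₂, h24, h26, h2u, e₂, he₂⟩ : ∃ s : ℚ, (s = 1 ∨ s = -1) ∧
      ∃ (δ : ℚ_[2]) (V : WeierstrassCurve ℤ_[2]), δ ≠ 0 ∧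
        (V.c₄ : ℚ_[2]) = δ ^ 2 * (E.c₄ : ℚ_[2]) ∧ (V.c₆ : ℚ_[2]) = δ ^ 3 * (E.c₆ : ℚ_[2]) ∧
        (IsUnit V.Δ ∨ IsUnit V.c₄) ∧
        ∃ e : ℤ_[2], ((s * d₀ : ℚ) : ℚ_[2]) = ((1 + 4 * e : ℤ_[2]) : ℚ_[2]) * δ := by
    obtain ⟨-, δ, V, hδ, hδn, h4, h6, hu⟩ := hn 2
    have h1 := hw 2 hδn
    set w : ℤ_[2] := ⟨(d₀ : ℚ_[2]) / δ, h1.le⟩ with hwdef
    have hwc : (w : ℚ_[2]) * δ = (d₀ : ℚ_[2]) := div_mul_cancel₀ _ hδ
    rcases unit_two (w := w) h1 with ⟨e, he⟩ | ⟨e, he⟩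
    · exact ⟨1, Or.inl rfl, δ, V, hδ, h4, h6, hu, e, by rw [← he, one_mul, hwc]⟩
    · refine ⟨-1, Or.inr rfl, δ, V, hδ, h4, h6, hu, e, ?_⟩
      rw [← he]
      push_cast
      linear_combination hwc
  have hs0 : s ≠ 0 := by rcases hs with rfl | rfl <;> norm_num
  have hs1 : ∀ (p : ℕ) [Fact p.Prime], ‖(s : ℚ_[p])‖ = 1 := fun p hp => by
    rcases hs with rfl | rfl <;> simp
  set d : ℚ := s * d₀ with hd
  have hd0 : d ≠ 0 := mul_ne_zero hs0 hd₀0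
  -- the local models
  have hloc : ∀ (p : ℕ) [Fact p.Prime], ∃ V : WeierstrassCurve ℤ_[p],
      (V.c₄ : ℚ_[p]) = (d : ℚ_[p]) ^ 2 * (E.c₄ : ℚ_[p]) ∧
      (V.c₆ : ℚ_[p]) = (d : ℚ_[p]) ^ 3 * (E.c₆ : ℚ_[p]) ∧ (IsUnit V.Δ ∨ IsUnit V.c₄) := by
    intro p hp
    obtain ⟨δ, V, e, hu, h4, h6, hwu, he⟩ : ∃ (δ : ℚ_[p]) (V : WeierstrassCurve ℤ_[p])
        (e : ℤ_[p]), (IsUnit V.Δ ∨ IsUnit V.c₄) ∧ (V.c₄ : ℚ_[p]) = δ ^ 2 * (E.c₄ : ℚ_[p]) ∧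
        (V.c₆ : ℚ_[p]) = δ ^ 3 * (E.c₆ : ℚ_[p]) ∧ IsUnit (1 + 4 * e) ∧
        (d : ℚ_[p]) = ((1 + 4 * e : ℤ_[p]) : ℚ_[p]) * δ := by
      by_cases h2 : p = 2
      · subst h2
        refine ⟨δ₂, V₂, e₂, h2u, h24, h26, ?_, he₂⟩
        rw [PadicInt.isUnit_iff]
        by_contra hne
        have h3 : ‖(1 + 4 * e₂ : ℤ_[2])‖ < 1 := lt_of_le_of_ne (PadicInt.norm_le_one _) hne
        rw [PadicInt.norm_lt_one_iff_dvd] at h3
        have h5 : ((2 : ℕ) : ℤ_[2]) ∣ 1 :=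
          (dvd_add_left ⟨2 * e₂, by push_cast; ring⟩).1 h3
        rw [← PadicInt.norm_lt_one_iff_dvd, norm_one] at h5
        exact absurd h5 (lt_irrefl _)
      · obtain ⟨-, δ, V, hδ, hδn, h4, h6, hu⟩ := hn p
        have h1 : ‖(d : ℚ_[p]) / δ‖ = 1 := by
          have h1' := hw p hδn
          rw [hd]
          push_cast
          rw [mul_div_assoc, norm_mul, hs1 p, one_mul, h1']
        set w : ℤ_[p] := ⟨(d : ℚ_[p]) / δ, h1.le⟩ with hwdef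
        have hwc : (w : ℚ_[p]) * δ = (d : ℚ_[p]) := div_mul_cancel₀ _ hδ
        obtain ⟨e, he⟩ := exists_four h2 w
        refine ⟨δ, V, e, hu, h4, h6, ?_, ?_⟩
        · rw [← he, PadicInt.isUnit_iff]
          exact h1
        · rw [← he, hwc]
    refine ⟨intTwist V e, ?_, ?_, ?_⟩
    · rw [intTwist_c₄, PadicInt.coe_mul, PadicInt.coe_pow, h4, he]
      ring
    · rw [intTwist_c₆, PadicInt.coe_mul, PadicInt.coe_pow, h6, he]
      ring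
    · rw [intTwist_Δ, intTwist_c₄]
      exact hu.imp (fun h' => (hwu.pow 6).mul h') fun h' => (hwu.pow 2).mul h'
  -- `A` and `B`
  obtain ⟨A, hA⟩ : ∃ A : ℤ, (A : ℚ) = d ^ 2 * E.c₄ := exists_int_of_norm_le fun p hp => by
    obtain ⟨V, h4, -, -⟩ := hloc p
    push_cast
    rw [← h4]
    exact PadicInt.norm_le_one _
  obtain ⟨B, hB⟩ : ∃ B : ℤ, (B : ℚ) = d ^ 3 * E.c₆ := exists_int_of_norm_le fun p hp => by
    obtain ⟨V, -, h6, -⟩ := hloc p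
    push_cast
    rw [← h6]
    exact PadicInt.norm_le_one _
  have hloc' : ∀ (p : ℕ) [Fact p.Prime], ∃ V : WeierstrassCurve ℤ_[p], V.c₄ = A ∧ V.c₆ = B ∧
      (IsUnit V.Δ ∨ IsUnit V.c₄) := by
    intro p hp
    obtain ⟨V, h4, h6, hu⟩ := hloc p
    refine ⟨V, ?_, ?_, hu⟩
    · apply PadicInt.ext
      rw [h4]
      have h5 := congrArg (fun q : ℚ => (q : ℚ_[p])) hA
      push_cast at h5 ⊢
      exact h5.symm
    · apply PadicInt.ext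
      rw [h6]
      have h5 := congrArg (fun q : ℚ => (q : ℚ_[p])) hB
      push_cast at h5 ⊢
      exact h5.symm
  obtain ⟨W, hW4, hW6⟩ := exists_int_model (A := A) (B := B)
    ((hloc' 2).imp fun V hV => ⟨hV.1, hV.2.1⟩) ((hloc' 3).imp fun V hV => ⟨hV.1, hV.2.1⟩)
  refine ⟨W, d, hd0, by rw [hW4, hA], by rw [hW6, hB], ?_, ?_⟩
  · intro h0
    have h1 := W.c_relation
    rw [h0, hW4, hW6, mul_zero] at h1
    have h2 : ((A : ℚ)) ^ 3 - (B : ℚ) ^ 2 = 0 := by exact_mod_cast h1.symm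
    rw [hA, hB] at h2
    have h3 := E.c_relation
    have h4 : d ^ 6 * (1728 * E.Δ) = 0 := by
      rw [h3]
      linear_combination h2
    have h5 : d ^ 6 * (1728 * E.Δ) ≠ 0 :=
      mul_ne_zero (pow_ne_zero _ hd0) (mul_ne_zero (by norm_num) hΔ)
    exact h5 h4
  · intro p hp hpΔ hpc
    haveI : Fact p.Prime := ⟨hp⟩
    obtain ⟨V, h4, h6, hu⟩ := hloc' p
    have hc : V.c₄ = ((W.c₄ : ℤ) : ℤ_[p]) := by rw [h4, hW4]
    have hD : V.Δ = ((W.Δ : ℤ) : ℤ_[p]) := by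
      have h1 := V.c_relation
      have h2 := congrArg (Int.cast : ℤ → ℤ_[p]) W.c_relation
      rw [hW4, hW6] at h2
      rw [h4, h6] at h1
      push_cast at h2
      have h3 : (1728 : ℤ_[p]) ≠ 0 := by norm_num
      apply mul_left_cancel₀ h3
      rw [h1, h2]
    have hnot : ∀ z : ℤ, (p : ℤ) ∣ z → ¬ IsUnit ((z : ℤ) : ℤ_[p]) := fun z hz hu' => by
      rw [PadicInt.isUnit_iff] at hu'
      exact absurd ((PadicInt.norm_int_lt_one_iff_dvd z).2 hz) (by rw [hu']; exact lt_irrefl _)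
    rcases hu with hu | hu
    · rw [hD] at hu
      exact hnot _ hpΔ hu
    · rw [hc] at hu
      exact hnot _ hpc hu

/-- **Local-global principle**: `E / ℚ` is a quadratic twist of a semistable elliptic curve over
`ℚ` if and only if it is semistable at every prime up to a local quadratic twist. -/
theorem forall_locSemi_iff {E : WeierstrassCurve ℚ} (hΔ : E.Δ ≠ 0) :
    (∀ (p : ℕ) [Fact p.Prime], LocSemi p E) ↔
      ∃ (W : WeierstrassCurve ℤ) (d : ℚ), d ≠ 0 ∧ (W.c₄ : ℚ) = d ^ 2 * E.c₄ ∧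
        (W.c₆ : ℚ) = d ^ 3 * E.c₆ ∧ W.Δ ≠ 0 ∧ W.IsSemistableModel := by
  refine ⟨exists_semistable_twist hΔ, ?_⟩
  rintro ⟨W, d, hd, h4, h6, -, hs⟩ p hp
  have hun : ∀ z : ℤ, ¬ (p : ℤ) ∣ z → IsUnit ((z : ℤ) : ℤ_[p]) := fun z hz => by
    rw [PadicInt.isUnit_iff]
    refine le_antisymm (PadicInt.norm_le_one _) (not_lt.1 fun h' => hz ?_)
    exact (PadicInt.norm_int_lt_one_iff_dvd z).1 h'
  refine ⟨(d : ℚ_[p]), W.map (Int.castRingHom ℤ_[p]), by exact_mod_cast hd, ?_, ?_, ?_⟩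
  · rw [WeierstrassCurve.map_c₄, eq_intCast, PadicInt.coe_intCast]
    have h5 := congrArg (fun q : ℚ => (q : ℚ_[p])) h4
    push_cast at h5
    exact h5
  · rw [WeierstrassCurve.map_c₆, eq_intCast, PadicInt.coe_intCast]
    have h5 := congrArg (fun q : ℚ => (q : ℚ_[p])) h6
    push_cast at h5
    exact h5
  · rw [WeierstrassCurve.map_Δ, WeierstrassCurve.map_c₄, eq_intCast, eq_intCast]
    by_cases hp' : (p : ℤ) ∣ W.Δ
    · exact Or.inr (hun _ (hs p hp.out hp'))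
    · exact Or.inl (hun _ hp')

/-- **An elliptic curve over `ℚ` which is semistable at every prime up to a local quadratic twist
is modular.** -/
theorem isModular_of_locSemi {E : WeierstrassCurve ℚ} (hΔ : E.Δ ≠ 0)
    (h : ∀ (p : ℕ) [Fact p.Prime], LocSemi p E) : E.IsModular := by
  obtain ⟨W, d, hd, h4, h6, hW, hs⟩ := exists_semistable_twist hΔ h
  refine isModular_of_semistable_c₄_c₆ hW hs (inv_ne_zero hd) ?_ ?_
  · rw [h4]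
    field_simp
  · rw [h6]
    field_simp

end Fermat.Agent.Cor.Twist

end
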