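import Fermat.Agent.Corollaries.Twist.Deplete
import Fermat.Agent.Corollaries.HW.TateEquiv
import Fermat.Agent.Corollaries.Mazur.Normal
import Fermat.Agent.Corollaries.MinModel

/-!
# Modularity is invariant under isogenies

* `isModular_iff_isModularModel`: an integral equation `W` is modular over `ℚ` if and only if it
  itself is a modular model;
* `isModular_iff_of_isogenous`: isogenous elliptic curves over `ℚ` are modular or not at the same
  time;
* `isModular_iff_of_ap_eq`: modularity depends only on `a_p` for almost all `p`;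
* `isModular_iff_of_infinite_torsIso`: if `E[q]`, `E'[q]` are isomorphic Galois modules for
  infinitely many primes `q`, then `E` is modular if and only if `E'` is;
* `isModular_iff_of_tateIso`: the same if the `q`-adic Tate modules are isomorphic for one `q`.
-/

set_option autoImplicit false

noncomputable section

open WeierstrassCurve WeierstrassCurve.Affine

namespace Fermat.Agent.Cor.Twist

open Fermat.Agent.Cor.K1 (Gam Pts)

/-- `E` and `E'` are isogenous over `ℚ`: there is a homomorphism with finite kernel between their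
groups of points over `ℚ̄`, compatible with the action of the Galois group. -/
def Isogenous (E E' : WeierstrassCurve ℚ) : Prop :=
  ∃ φ : Pts E →+ Pts E', (∀ (σ : Gam) (P : Pts E), φ (σ • P) = σ • φ P) ∧ Finite φ.ker

theorem Δ_ne_zero_of_integralModel {E : WeierstrassCurve ℚ} (hE : E.Δ ≠ 0)
    {W : WeierstrassCurve ℤ} (hW : W.IsIntegralModelOf E) : W.Δ ≠ 0 :=
  MinModel.Δ_ne_zero_of_model hE hW

/-- An isogeny of the integral models. -/
theorem exists_isIsog {E E' : WeierstrassCurve ℚ} (hE : E.Δ ≠ 0) (hE' : E'.Δ ≠ 0)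
    (h : Isogenous E E') {W W' : WeierstrassCurve ℤ} (hW : W.IsIntegralModelOf E)
    (hW' : W'.IsIntegralModelOf E') : ∃ φ : HW.Pt W →+ HW.Pt W', HW.IsIsog φ := by
  obtain ⟨φ, hφ, hfin⟩ := h
  obtain ⟨C, hC⟩ := hW
  obtain ⟨C', hC'⟩ := hW'
  obtain ⟨e, he, -⟩ := Mazur.exists_equiv_coord hE hC
  obtain ⟨e', he', -⟩ := Mazur.exists_equiv_coord hE' hC'
  refine ⟨(e'.symm.toAddMonoidHom.comp φ).comp e.toAddMonoidHom, ⟨fun σ x => ?_, ?_⟩⟩
  · apply e'.injective
    have h1 : ∀ y : HW.Pt W, e' (((e'.symm.toAddMonoidHom.comp φ).comp e.toAddMonoidHom) y) =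
        φ (e y) := fun y => e'.apply_symm_apply _
    rw [h1, he', h1, he, hφ]
  · have := hfin
    refine Finite.of_injective (fun x : ((e'.symm.toAddMonoidHom.comp φ).comp
      e.toAddMonoidHom).ker => (⟨e x.1, ?_⟩ : φ.ker)) ?_
    · have h1 := x.2
      rw [AddMonoidHom.mem_ker] at h1 ⊢
      have h2 : e'.symm (φ (e x.1)) = 0 := h1
      rwa [AddEquiv.map_eq_zero_iff] at h2
    · intro x y hxy
      have h1 : e x.1 = e y.1 := congrArg Subtype.val hxy
      exact Subtype.ext (e.injective h1)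

theorem isogenous_refl (E : WeierstrassCurve ℚ) : Isogenous E E :=
  ⟨AddMonoidHom.id _, fun _ _ => rfl, by
    have h : (AddMonoidHom.id (Pts E)).ker = ⊥ := AddMonoidHom.ker_id
    rw [h]
    infer_instance⟩

/-- The numbers `a_p` of two integral models of isogenous curves agree. -/
theorem apOfModel_eq_of_isogenous {E E' : WeierstrassCurve ℚ} (hE : E.Δ ≠ 0) (hE' : E'.Δ ≠ 0)
    (h : Isogenous E E') {W W' : WeierstrassCurve ℤ} (hW : W.IsIntegralModelOf E)
    (hW' : W'.IsIntegralModelOf E') {p : ℕ} (hp : p.Prime) (hg : W.IsGoodPrimeFor p)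
    (hg' : W'.IsGoodPrimeFor p) : W.apOfModel p = W'.apOfModel p := by
  obtain ⟨φ, hφ⟩ := exists_isIsog hE hE' h hW hW'
  exact hφ.apOfModel_eq (Δ_ne_zero_of_integralModel hE hW) (Δ_ne_zero_of_integralModel hE' hW')
    hp hg hg'

/-- **Modularity is invariant under isogenies.** -/
theorem isModular_iff_of_isogenous (E E' : WeierstrassCurve ℚ) [E.IsElliptic] [E'.IsElliptic]
    (h : Isogenous E E') : E.IsModular ↔ E'.IsModular := by
  have hE : E.Δ ≠ 0 := E.isUnit_Δ.ne_zero
  have hE' : E'.Δ ≠ 0 := E'.isUnit_Δ.ne_zero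
  constructor
  · rintro ⟨W, hW, hm⟩
    obtain ⟨W', hW'⟩ := MinModel.exists_integralModel E'
    exact ⟨W', hW', isModularModel_of_ap_eq hm (Δ_ne_zero_of_integralModel hE hW) ∅
      fun p hp _ hg hg' => apOfModel_eq_of_isogenous hE hE' h hW hW' hp hg hg'⟩
  · rintro ⟨W', hW', hm⟩
    obtain ⟨W, hW⟩ := MinModel.exists_integralModel E
    exact ⟨W, hW, isModularModel_of_ap_eq hm (Δ_ne_zero_of_integralModel hE' hW') ∅
      fun p hp _ hg' hg => (apOfModel_eq_of_isogenous hE hE' h hW hW' hp hg hg').symm⟩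

/-- **Modularity of an integral equation**: one integral model is modular if and only if all are. -/
theorem isModular_iff_isModularModel {E : WeierstrassCurve ℚ} (hE : E.Δ ≠ 0)
    {W : WeierstrassCurve ℤ} (hW : W.IsIntegralModelOf E) : E.IsModular ↔ W.IsModularModel := by
  refine ⟨?_, fun h => ⟨W, hW, h⟩⟩
  rintro ⟨W', hW', hm⟩
  exact isModularModel_of_ap_eq hm (Δ_ne_zero_of_integralModel hE hW') ∅ fun p hp _ hg' hg =>
    apOfModel_eq_of_isogenous hE hE (isogenous_refl E) hW' hW hp hg' hg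

/-- **Modularity depends only on `a_p` for almost all `p`.** -/
theorem isModular_iff_of_ap_eq {E E' : WeierstrassCurve ℚ} (hE : E.Δ ≠ 0) (hE' : E'.Δ ≠ 0)
    {W W' : WeierstrassCurve ℤ} (hW : W.IsIntegralModelOf E) (hW' : W'.IsIntegralModelOf E')
    (S : Finset ℕ) (hS : ∀ p : ℕ, p.Prime → p ∉ S → W.apOfModel p = W'.apOfModel p) :
    E.IsModular ↔ E'.IsModular := by
  rw [isModular_iff_isModularModel hE hW, isModular_iff_isModularModel hE' hW']
  exact ⟨fun h => isModularModel_of_ap_eq h (Δ_ne_zero_of_integralModel hE hW) S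
      fun p hp hpS _ _ => hS p hp hpS,
    fun h => isModularModel_of_ap_eq h (Δ_ne_zero_of_integralModel hE' hW') S
      fun p hp hpS _ _ => (hS p hp hpS).symm⟩

/-- **Modularity depends only on the points of order `q` for infinitely many `q`.** -/
theorem isModular_iff_of_infinite_torsIso {E E' : WeierstrassCurve ℚ} (hE : E.Δ ≠ 0)
    (hE' : E'.Δ ≠ 0) {W W' : WeierstrassCurve ℤ} (hW : W.IsIntegralModelOf E)
    (hW' : W'.IsIntegralModelOf E') (h : {q : ℕ | q.Prime ∧ HW.TorsIso W W' q}.Infinite) :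
    E.IsModular ↔ E'.IsModular := by
  have h1 := Δ_ne_zero_of_integralModel hE hW
  have h2 := Δ_ne_zero_of_integralModel hE' hW'
  rw [isModular_iff_isModularModel hE hW, isModular_iff_isModularModel hE' hW']
  exact ⟨fun hm => isModularModel_of_ap_eq hm h1 ∅ fun p hp _ hg hg' =>
      HW.apOfModel_eq_of_infinite_torsIso h1 h2 h hp hg hg',
    fun hm => isModularModel_of_ap_eq hm h2 ∅ fun p hp _ hg' hg =>
      (HW.apOfModel_eq_of_infinite_torsIso h1 h2 h hp hg hg').symm⟩

/-- **Modularity depends only on the `q`-adic Tate module**, for one prime `q`. -/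
theorem isModular_iff_of_tateIso {E E' : WeierstrassCurve ℚ} (hE : E.Δ ≠ 0) (hE' : E'.Δ ≠ 0)
    {W W' : WeierstrassCurve ℤ} (hW : W.IsIntegralModelOf E) (hW' : W'.IsIntegralModelOf E')
    {q : ℕ} [Fact q.Prime] (h : HW.TateIso W W' q) : E.IsModular ↔ E'.IsModular := by
  have h1 := Δ_ne_zero_of_integralModel hE hW
  have h2 := Δ_ne_zero_of_integralModel hE' hW'
  have hne : ∀ p : ℕ, p ∉ ({q} : Finset ℕ) → p ≠ q := fun p hp h' =>
    hp (Finset.mem_singleton.mpr h')
  rw [isModular_iff_isModularModel hE hW, isModular_iff_isModularModel hE' hW']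
  exact ⟨fun hm => isModularModel_of_ap_eq hm h1 {q} fun p hp hpq hg hg' =>
      h.apOfModel_eq h1 h2 hp (hne p hpq) hg hg',
    fun hm => isModularModel_of_ap_eq hm h2 {q} fun p hp hpq hg' hg =>
      (h.apOfModel_eq h1 h2 hp (hne p hpq) hg hg').symm⟩

end Fermat.Agent.Cor.Twist

end
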