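import Fermat.Agent.Corollaries.Twist.Global

/-!
# A criterion for modularity in terms of the `j`-invariant

`isModular_of_j_val`: let `E` be an elliptic curve over `ℚ` with `j ≠ 0, 1728` such that
* for every prime `p ≥ 5`: `v_p(j) < 0`, or `3 ∣ v_p(j)` and `2 ∣ v_p(j - 1728)`;
* `v_2(j) ≤ 0`, or `v_2(j) ≥ 12` and `3 ∣ v_2(j)`;
* `v_3(j) ≤ 0`, or `v_3(j - 1728) ≥ 6` and `2 ∣ v_3(j - 1728)`.
Then `E` is a quadratic twist of a semistable elliptic curve, and `E` is modular.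
-/

set_option autoImplicit false

noncomputable section

open WeierstrassCurve

namespace Fermat.Agent.Cor.Twist

/-! ### Algebra -/

theorem exists_twist_of_rel {F : Type*} [Field F] {c₄ c₆ v₄ v₆ : F} (h4 : c₄ ≠ 0) (h6 : c₆ ≠ 0)
    (k4 : v₄ ≠ 0) (k6 : v₆ ≠ 0) (hrel : c₄ ^ 3 * v₆ ^ 2 = v₄ ^ 3 * c₆ ^ 2) :
    ∃ d : F, d ≠ 0 ∧ v₄ = d ^ 2 * c₄ ∧ v₆ = d ^ 3 * c₆ := by
  set d : F := c₄ * v₆ / (v₄ * c₆) with hd
  have hd0 : d ≠ 0 := div_ne_zero (mul_ne_zero h4 k6) (mul_ne_zero k4 h6)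
  have h4' : v₄ = d ^ 2 * c₄ := by
    rw [hd]
    field_simp
    linear_combination -hrel
  refine ⟨d, hd0, h4', ?_⟩
  have h5 : d ^ 3 * c₆ = (d ^ 2 * c₄) * (d * c₆) / c₄ := by
    field_simp
  rw [h5, ← h4', hd]
  field_simp

theorem Δ_ne_zero (E : WeierstrassCurve ℚ) [E.IsElliptic] : E.Δ ≠ 0 :=
  E.coe_Δ' ▸ E.Δ'.ne_zero

theorem j_mul_Δ (E : WeierstrassCurve ℚ) [E.IsElliptic] : E.j * E.Δ = E.c₄ ^ 3 := by
  have h := Δ_ne_zero E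
  rw [WeierstrassCurve.j, Units.val_inv_eq_inv_val, E.coe_Δ']
  field_simp

theorem j_sub_mul_Δ (E : WeierstrassCurve ℚ) [E.IsElliptic] :
    (E.j - 1728) * E.Δ = E.c₆ ^ 2 := by
  have h1 := E.c_relation
  have h2 := j_mul_Δ E
  linear_combination h2 - h1

section Padic

variable {p : ℕ} [hp : Fact p.Prime]

theorem exists_unit_mul {x : ℚ_[p]} (hx : x ≠ 0) {m : ℕ} (hm : x.valuation = m) :
    ∃ μ : ℤ_[p], IsUnit μ ∧ x = (p : ℚ_[p]) ^ m * (μ : ℚ_[p]) := by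
  have hp0 : (p : ℚ_[p]) ^ m ≠ 0 := pow_ne_zero _ (by exact_mod_cast hp.out.ne_zero)
  have hp1 : (p : ℝ) ^ (-(m : ℤ)) ≠ 0 := zpow_ne_zero _ (by exact_mod_cast hp.out.ne_zero)
  have h1 : ‖x / (p : ℚ_[p]) ^ m‖ = 1 := by
    rw [norm_div, Padic.norm_eq_zpow_neg_valuation hx, hm, Padic.norm_p_pow, div_self hp1]
  refine ⟨⟨x / (p : ℚ_[p]) ^ m, h1.le⟩, PadicInt.isUnit_iff.2 h1, ?_⟩
  change x = (p : ℚ_[p]) ^ m * (x / (p : ℚ_[p]) ^ m)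
  rw [mul_div_cancel₀ _ hp0]

/-- The local condition from a model over `ℤ_p` with the right `j`-invariant. -/
theorem locSemi_of_model {E : WeierstrassCurve ℚ} [E.IsElliptic] (h0 : E.j ≠ 0)
    (h1728 : E.j ≠ 1728) {V : WeierstrassCurve ℤ_[p]} {δ : ℚ_[p]} (hδ : δ ≠ 0)
    (h4 : (V.c₄ : ℚ_[p]) ^ 3 = (E.j : ℚ_[p]) * δ)
    (h6 : (V.c₆ : ℚ_[p]) ^ 2 = ((E.j : ℚ_[p]) - 1728) * δ) (hu : IsUnit V.Δ ∨ IsUnit V.c₄) :
    LocSemi p E := by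
  have hΔ : (E.Δ : ℚ_[p]) ≠ 0 := by exact_mod_cast Δ_ne_zero E
  have hj0 : (E.j : ℚ_[p]) ≠ 0 := by exact_mod_cast h0
  have hj1 : (E.j : ℚ_[p]) - 1728 ≠ 0 := by
    rw [sub_ne_zero]
    exact_mod_cast h1728
  have e4 : (E.c₄ : ℚ_[p]) ^ 3 = (E.j : ℚ_[p]) * (E.Δ : ℚ_[p]) := by
    exact_mod_cast (j_mul_Δ E).symm
  have e6 : (E.c₆ : ℚ_[p]) ^ 2 = ((E.j : ℚ_[p]) - 1728) * (E.Δ : ℚ_[p]) := by
    exact_mod_cast (j_sub_mul_Δ E).symm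
  have n4 : (E.c₄ : ℚ_[p]) ≠ 0 := fun h => by
    rw [h, zero_pow three_ne_zero] at e4
    exact mul_ne_zero hj0 hΔ e4.symm
  have n6 : (E.c₆ : ℚ_[p]) ≠ 0 := fun h => by
    rw [h, zero_pow two_ne_zero] at e6
    exact mul_ne_zero hj1 hΔ e6.symm
  have m4 : (V.c₄ : ℚ_[p]) ≠ 0 := fun h => by
    rw [h, zero_pow three_ne_zero] at h4
    exact mul_ne_zero hj0 hδ h4.symm
  have m6 : (V.c₆ : ℚ_[p]) ≠ 0 := fun h => by
    rw [h, zero_pow two_ne_zero] at h6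
    exact mul_ne_zero hj1 hδ h6.symm
  obtain ⟨d, hd, k4, k6⟩ := exists_twist_of_rel n4 n6 m4 m6 (by rw [e4, e6, h4, h6]; ring)
  exact ⟨d, V, hd, k4, k6, hu⟩

/-- The same, with `δ` a unit (good reduction). -/
theorem locSemi_of_model_unit {E : WeierstrassCurve ℚ} [E.IsElliptic] (h0 : E.j ≠ 0)
    (h1728 : E.j ≠ 1728) {V : WeierstrassCurve ℤ_[p]} {δ : ℤ_[p]} (hδ : IsUnit δ)
    (h4 : (V.c₄ : ℚ_[p]) ^ 3 = (E.j : ℚ_[p]) * (δ : ℚ_[p]))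
    (h6 : (V.c₆ : ℚ_[p]) ^ 2 = ((E.j : ℚ_[p]) - 1728) * (δ : ℚ_[p])) : LocSemi p E := by
  have hΔ : V.Δ = δ := by
    have h1 := V.c_relation
    have h3 : (1728 : ℤ_[p]) ≠ 0 := by norm_num
    apply mul_left_cancel₀ h3
    rw [h1]
    apply PadicInt.ext
    have hc : ((1728 : ℤ_[p]) : ℚ_[p]) = 1728 := rfl
    push_cast
    rw [h4, h6, hc]
    ring
  exact locSemi_of_model h0 h1728 (δ := (δ : ℚ_[p])) (PadicInt.coe_ne_zero.2 hδ.ne_zero) h4 h6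
    (Or.inl (hΔ ▸ hδ))

/-- The case `|j| = |j - 1728| ≥ 1`. -/
theorem locSemi_of_norm {E : WeierstrassCurve ℚ} [E.IsElliptic] (h0 : E.j ≠ 0)
    (h1728 : E.j ≠ 1728) (h1 : ‖(E.j : ℚ_[p])‖ = ‖(E.j : ℚ_[p]) - 1728‖)
    (h2 : 1 ≤ ‖(E.j : ℚ_[p])‖) : LocSemi p E := by
  have hj0 : (E.j : ℚ_[p]) ≠ 0 := by exact_mod_cast h0
  have hj1 : (E.j : ℚ_[p]) - 1728 ≠ 0 := by
    rw [sub_ne_zero]
    exact_mod_cast h1728
  set j : ℚ_[p] := (E.j : ℚ_[p]) with hj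
  have hs1 : ‖(j - 1728)⁻¹‖ ≤ 1 := by
    rw [norm_inv, ← h1]
    exact inv_le_one_of_one_le₀ h2
  set s : ℤ_[p] := ⟨(j - 1728)⁻¹, hs1⟩ with hs
  have hsc : (s : ℚ_[p]) = (j - 1728)⁻¹ := rfl
  set V : WeierstrassCurve ℤ_[p] := ⟨1, 0, 0, -36 * s, -s⟩ with hV
  have hc4 : V.c₄ = 1 + 1728 * s := by
    simp only [hV, WeierstrassCurve.c₄, WeierstrassCurve.b₂, WeierstrassCurve.b₄]
    ring
  have hc6 : V.c₆ = -(1 + 1728 * s) := by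
    simp only [hV, WeierstrassCurve.c₆, WeierstrassCurve.b₂, WeierstrassCurve.b₄,
      WeierstrassCurve.b₆]
    ring
  have hjs : (1 : ℚ_[p]) + 1728 * (s : ℚ_[p]) = j * (j - 1728)⁻¹ := by
    rw [hsc]
    field_simp
    ring
  have k4 : (V.c₄ : ℚ_[p]) = j * (j - 1728)⁻¹ := by
    rw [hc4, ← hjs]
    push_cast
    rfl
  have k6 : (V.c₆ : ℚ_[p]) = -(j * (j - 1728)⁻¹) := by
    rw [hc6, ← hjs]
    push_cast
    rfl
  refine locSemi_of_model h0 h1728 (V := V) (δ := j ^ 2 * (j - 1728)⁻¹ ^ 3)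
    (mul_ne_zero (pow_ne_zero _ hj0) (pow_ne_zero _ (inv_ne_zero hj1))) ?_ ?_ (Or.inr ?_)
  · rw [k4]
    ring
  · rw [k6]
    field_simp
    rfl
  · rw [PadicInt.isUnit_iff, PadicInt.norm_def, k4, norm_mul, norm_inv, ← h1]
    exact mul_inv_cancel₀ (by linarith)

/-- The case of potentially good reduction, `p ≠ 2`. -/
theorem locSemi_of_units {E : WeierstrassCurve ℚ} [E.IsElliptic] (h0 : E.j ≠ 0)
    (h1728 : E.j ≠ 1728) {k l : ℕ} {μ ν : ℤ_[p]} (hμ : IsUnit μ) (hν : IsUnit ν)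
    (e1 : (E.j : ℚ_[p]) = (p : ℚ_[p]) ^ (3 * k) * (μ : ℚ_[p]))
    (e2 : (E.j : ℚ_[p]) - 1728 = (p : ℚ_[p]) ^ (2 * l) * (ν : ℚ_[p]))
    (h48 : (48 : ℤ_[p]) ∣ (p : ℤ_[p]) ^ k) (h864 : (864 : ℤ_[p]) ∣ (p : ℤ_[p]) ^ l) :
    LocSemi p E := by
  obtain ⟨s, hs⟩ := h48
  obtain ⟨t, ht⟩ := h864
  have hs' := congrArg (fun z : ℤ_[p] => (z : ℚ_[p])) hs
  have ht' := congrArg (fun z : ℤ_[p] => (z : ℚ_[p])) ht
  push_cast at hs' ht'
  set V : WeierstrassCurve ℤ_[p] := ⟨0, 0, 0, -(s * μ * ν), -(t * μ * ν ^ 2)⟩ with hV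
  have hc4 : V.c₄ = 48 * s * μ * ν := by
    simp only [hV, WeierstrassCurve.c₄, WeierstrassCurve.b₂, WeierstrassCurve.b₄]
    ring
  have hc6 : V.c₆ = 864 * t * μ * ν ^ 2 := by
    simp only [hV, WeierstrassCurve.c₆, WeierstrassCurve.b₂, WeierstrassCurve.b₄,
      WeierstrassCurve.b₆]
    ring
  refine locSemi_of_model_unit h0 h1728 (V := V) (δ := μ ^ 2 * ν ^ 3)
    ((hμ.pow 2).mul (hν.pow 3)) ?_ ?_
  · rw [hc4, e1]
    push_cast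
    rw [← hs']
    ring
  · rw [hc6, e2]
    push_cast
    rw [← ht']
    ring

theorem locSemi_of_pow {E : WeierstrassCurve ℚ} [E.IsElliptic] (h0 : E.j ≠ 0)
    (h1728 : E.j ≠ 1728) {k l : ℕ} (h1 : (E.j : ℚ_[p]).valuation = (3 * k : ℕ))
    (h2 : ((E.j : ℚ_[p]) - 1728).valuation = (2 * l : ℕ)) (h48 : (48 : ℤ_[p]) ∣ (p : ℤ_[p]) ^ k)
    (h864 : (864 : ℤ_[p]) ∣ (p : ℤ_[p]) ^ l) : LocSemi p E := by
  have hj0 : (E.j : ℚ_[p]) ≠ 0 := by exact_mod_cast h0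
  have hj1 : (E.j : ℚ_[p]) - 1728 ≠ 0 := by
    rw [sub_ne_zero]
    exact_mod_cast h1728
  obtain ⟨μ, hμ, e1⟩ := exists_unit_mul hj0 h1
  obtain ⟨ν, hν, e2⟩ := exists_unit_mul hj1 h2
  exact locSemi_of_units h0 h1728 hμ hν e1 e2 h48 h864

end Padic

/-! ### `p ≥ 5` -/

theorem natCast_dvd {p : ℕ} [hp : Fact p.Prime] {m : ℕ} (hm : m.Coprime p) (x : ℤ_[p]) :
    (m : ℤ_[p]) ∣ x := (isUnit_natCast hm).dvd

theorem norm_le_one_of_valuation {p : ℕ} [hp : Fact p.Prime] {x : ℚ_[p]}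
    (h : 0 ≤ x.valuation) : ‖x‖ ≤ 1 := (Padic.norm_le_one_iff_val_nonneg x).2 h

theorem one_lt_norm_of_valuation {p : ℕ} [hp : Fact p.Prime] {x : ℚ_[p]}
    (h : x.valuation < 0) : 1 < ‖x‖ := by
  rw [← not_le, Padic.norm_le_one_iff_val_nonneg]
  exact not_le.2 h

/-- `|x - y| = |x|` if `|y| < |x|`. -/
theorem norm_sub_eq {p : ℕ} [hp : Fact p.Prime] {x y : ℚ_[p]} (h : ‖y‖ < ‖x‖) :
    ‖x - y‖ = ‖x‖ := by
  rw [sub_eq_add_neg, Padic.add_eq_max_of_ne (by rw [norm_neg]; exact h.ne'), norm_neg,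
    max_eq_left h.le]

theorem norm_1728_le {p : ℕ} [hp : Fact p.Prime] : ‖(1728 : ℚ_[p])‖ ≤ 1 := by
  have h := Padic.norm_int_le_one (p := p) 1728
  exact_mod_cast h

theorem locSemi_of_neg {p : ℕ} [hp : Fact p.Prime] {E : WeierstrassCurve ℚ} [E.IsElliptic]
    (h : padicValRat p E.j < 0) : LocSemi p E := by
  have h0 : E.j ≠ 0 := by
    rintro h'
    rw [h', padicValRat.zero] at h
    exact absurd h (lt_irrefl _)
  rw [← Padic.valuation_ratCast] at h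
  have h1 : 1 < ‖(E.j : ℚ_[p])‖ := one_lt_norm_of_valuation h
  have h1728 : E.j ≠ 1728 := fun h' => by
    rw [h'] at h1
    exact absurd norm_1728_le (not_le.2 (by exact_mod_cast h1))
  exact locSemi_of_norm h0 h1728 (norm_sub_eq (lt_of_le_of_lt norm_1728_le h1)).symm h1.le

theorem locSemi_of_five_le {p : ℕ} [hp : Fact p.Prime] (h5 : 5 ≤ p) {E : WeierstrassCurve ℚ}
    [E.IsElliptic] (h0 : E.j ≠ 0) (h1728 : E.j ≠ 1728)
    (h : padicValRat p E.j < 0 ∨ 3 ∣ padicValRat p E.j ∧ 2 ∣ padicValRat p (E.j - 1728)) :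
    LocSemi p E := by
  by_cases hneg : padicValRat p E.j < 0
  · exact locSemi_of_neg hneg
  obtain ⟨h3, h2⟩ := h.resolve_left hneg
  have e1 : (E.j : ℚ_[p]).valuation = padicValRat p E.j := Padic.valuation_ratCast _
  have e2 : ((E.j : ℚ_[p]) - 1728).valuation = padicValRat p (E.j - 1728) := by
    rw [← Padic.valuation_ratCast]
    push_cast
    rfl
  have p1 : 0 ≤ (E.j : ℚ_[p]).valuation := by rw [e1]; exact not_lt.1 hneg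
  have p2 : 0 ≤ ((E.j : ℚ_[p]) - 1728).valuation := by
    rw [← Padic.norm_le_one_iff_val_nonneg, sub_eq_add_neg]
    refine (Padic.nonarchimedean (E.j : ℚ_[p]) (-1728)).trans (max_le
      (norm_le_one_of_valuation p1) ?_)
    rw [norm_neg]
    exact norm_1728_le
  obtain ⟨k, hk⟩ : ∃ k : ℕ, (E.j : ℚ_[p]).valuation = (3 * k : ℕ) := by
    obtain ⟨c, hc⟩ := h3
    exact ⟨c.toNat, by rw [e1] at p1 ⊢; omega⟩
  obtain ⟨l, hl⟩ : ∃ l : ℕ, ((E.j : ℚ_[p]) - 1728).valuation = (2 * l : ℕ) := by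
    obtain ⟨c, hc⟩ := h2
    exact ⟨c.toNat, by rw [e2] at p2 ⊢; omega⟩
  have c2 : Nat.Coprime 2 p := (Nat.coprime_primes Nat.prime_two hp.out).2 (by omega)
  have c3 : Nat.Coprime 3 p := (Nat.coprime_primes Nat.prime_three hp.out).2 (by omega)
  have c48 : Nat.Coprime 48 p := by
    rw [show (48 : ℕ) = 2 ^ 4 * 3 by norm_num]
    exact (c2.pow_left 4).mul_left c3
  have c864 : Nat.Coprime 864 p := by
    rw [show (864 : ℕ) = 2 ^ 5 * 3 ^ 3 by norm_num]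
    exact (c2.pow_left 5).mul_left (c3.pow_left 3)
  exact locSemi_of_pow h0 h1728 hk hl (by exact_mod_cast natCast_dvd c48 _)
    (by exact_mod_cast natCast_dvd c864 _)

/-! ### `p = 2`, `p = 3` -/

theorem valuation_sub_1728 {p : ℕ} [hp : Fact p.Prime] (q : ℚ) :
    ((q : ℚ_[p]) - 1728).valuation = padicValRat p (q - 1728) := by
  rw [← Padic.valuation_ratCast]
  push_cast
  rfl

/-- The case `v_p(j) = 0`, `p = 2, 3`. -/
theorem locSemi_of_zero {p : ℕ} [hp : Fact p.Prime] (hp3 : (p : ℤ) ∣ 1728)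
    {E : WeierstrassCurve ℚ} [E.IsElliptic] (h0 : E.j ≠ 0) (h1728 : E.j ≠ 1728)
    (h : padicValRat p E.j = 0) : LocSemi p E := by
  have hj0 : (E.j : ℚ_[p]) ≠ 0 := by exact_mod_cast h0
  have h1 : ‖(E.j : ℚ_[p])‖ = 1 := by
    rw [Padic.norm_eq_zpow_neg_valuation hj0, Padic.valuation_ratCast, h, neg_zero, zpow_zero]
  have h2 : ‖(1728 : ℚ_[p])‖ < 1 := by
    have h3 := (Padic.norm_intCast_lt_one_iff (p := p) (k := 1728)).2 hp3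
    exact_mod_cast h3
  exact locSemi_of_norm h0 h1728 (norm_sub_eq (by rw [h1]; exact h2)).symm h1.ge

theorem not_isUnit_of_dvd {p : ℕ} [hp : Fact p.Prime] {x : ℤ_[p]} (h : (p : ℤ_[p]) ∣ x) :
    ¬ IsUnit x := fun hu => by
  rw [PadicInt.isUnit_iff] at hu
  exact absurd ((PadicInt.norm_lt_one_iff_dvd x).2 h) (by rw [hu]; exact lt_irrefl _)

theorem isUnit_add_mul {p : ℕ} [hp : Fact p.Prime] {m : ℕ} (hm : m.Coprime p) {x : ℤ_[p]}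
    (h : (p : ℤ_[p]) ∣ x) : IsUnit ((m : ℤ_[p]) + x) := by
  rw [PadicInt.isUnit_iff]
  refine le_antisymm (PadicInt.norm_le_one _) (not_lt.1 fun h' => ?_)
  rw [PadicInt.norm_lt_one_iff_dvd] at h'
  exact not_isUnit_of_dvd ((dvd_add_left h).1 h') (isUnit_natCast hm)

theorem locSemi_three {E : WeierstrassCurve ℚ} [E.IsElliptic] (h0 : E.j ≠ 0)
    (h1728 : E.j ≠ 1728) (h : padicValRat 3 E.j ≤ 0 ∨
      6 ≤ padicValRat 3 (E.j - 1728) ∧ 2 ∣ padicValRat 3 (E.j - 1728)) : LocSemi 3 E := by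
  rcases h with h | ⟨h6, h2⟩
  · rcases h.lt_or_eq with h | h
    · exact locSemi_of_neg h
    · exact locSemi_of_zero (by norm_num) h0 h1728 h
  have hj1 : (E.j : ℚ_[3]) - 1728 ≠ 0 := by
    rw [sub_ne_zero]
    exact_mod_cast h1728
  have e2 := valuation_sub_1728 (p := 3) E.j
  obtain ⟨l, hl3, hl⟩ : ∃ l : ℕ, 3 ≤ l ∧ ((E.j : ℚ_[3]) - 1728).valuation = (2 * l : ℕ) := by
    obtain ⟨c, hc⟩ := h2
    exact ⟨c.toNat, by omega, by omega⟩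
  obtain ⟨ν, hν, e3⟩ := exists_unit_mul hj1 hl
  obtain ⟨m, rfl⟩ : ∃ m, l = m + 3 := ⟨l - 3, by omega⟩
  have hμ : IsUnit (((64 : ℕ) : ℤ_[3]) + ((3 : ℕ) : ℤ_[3]) * (3 ^ (2 * m + 2) * ν)) :=
    isUnit_add_mul (by norm_num) (dvd_mul_right _ _)
  refine locSemi_of_units h0 h1728 (k := 1) (l := m + 3) hμ hν ?_ e3 ?_ ?_
  · have e4 : (E.j : ℚ_[3]) = 1728 + ((E.j : ℚ_[3]) - 1728) := by ring
    have c3 : ((3 : ℤ_[3]) : ℚ_[3]) = 3 := rfl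
    have c64 : ((64 : ℤ_[3]) : ℚ_[3]) = 64 := rfl
    rw [e4, e3]
    push_cast
    rw [c3, c64]
    ring
  · obtain ⟨u, hu⟩ := natCast_dvd (p := 3) (m := 16) (by norm_num) 1
    refine ⟨u, ?_⟩
    push_cast at hu ⊢
    linear_combination 3 * hu
  · obtain ⟨u, hu⟩ := natCast_dvd (p := 3) (m := 32) (by norm_num) 1
    refine ⟨3 ^ m * u, ?_⟩
    push_cast at hu ⊢
    linear_combination 3 ^ (m + 3) * hu

theorem locSemi_two {E : WeierstrassCurve ℚ} [E.IsElliptic] (h0 : E.j ≠ 0)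
    (h1728 : E.j ≠ 1728)
    (h : padicValRat 2 E.j ≤ 0 ∨ 12 ≤ padicValRat 2 E.j ∧ 3 ∣ padicValRat 2 E.j) :
    LocSemi 2 E := by
  rcases h with h | ⟨h12, h3⟩
  · rcases h.lt_or_eq with h | h
    · exact locSemi_of_neg h
    · exact locSemi_of_zero (by norm_num) h0 h1728 h
  have hj0 : (E.j : ℚ_[2]) ≠ 0 := by exact_mod_cast h0
  have e1 : (E.j : ℚ_[2]).valuation = padicValRat 2 E.j := Padic.valuation_ratCast _
  obtain ⟨k, hk4, hk⟩ : ∃ k : ℕ, 4 ≤ k ∧ (E.j : ℚ_[2]).valuation = (3 * k : ℕ) := by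
    obtain ⟨c, hc⟩ := h3
    exact ⟨c.toNat, by omega, by omega⟩
  obtain ⟨μ, hμ, e2⟩ := exists_unit_mul hj0 hk
  obtain ⟨m, rfl⟩ : ∃ m, k = m + 4 := ⟨k - 4, by omega⟩
  -- `j - 1728 = 64 ν`
  obtain ⟨ν, hν, hνd⟩ : ∃ ν : ℤ_[2], IsUnit ν ∧ ν = 2 ^ (3 * m + 6) * μ - 27 := by
    refine ⟨_, ?_, rfl⟩
    have h5 := isUnit_add_mul (p := 2) (m := 27) (by norm_num)
      (x := ((2 : ℕ) : ℤ_[2]) * (-(2 ^ (3 * m + 5) * μ))) (dvd_mul_right _ _)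
    rw [← IsUnit.neg_iff]
    convert h5 using 1
    push_cast
    ring
  have e3 : (E.j : ℚ_[2]) - 1728 = 64 * (ν : ℚ_[2]) := by
    have hν' := congrArg (fun z : ℤ_[2] => (z : ℚ_[2])) hνd
    push_cast at hν' e2
    rw [e2, hν']
    have hc : ((27 : ℤ_[2]) : ℚ_[2]) = 27 := rfl
    have hc2 : ((2 : ℤ_[2]) : ℚ_[2]) = 2 := rfl
    rw [hc, hc2]
    ring
  obtain ⟨u, hu⟩ := natCast_dvd (p := 2) (m := 27) (by norm_num) 1
  obtain ⟨t, ht⟩ := natCast_dvd (p := 2) (m := 3) (by norm_num) 1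
  push_cast at hu ht
  have hu1 : IsUnit u := IsUnit.of_mul_eq_one 27 (by rw [mul_comm]; exact hu.symm)
  have hw : ‖μ * ν ^ 2 * u‖ = 1 :=
    PadicInt.isUnit_iff.1 ((hμ.mul (hν.pow 2)).mul hu1)
  obtain ⟨e, he⟩ : ∃ e : ℤ_[2], (27 * (1 + 4 * e)) ^ 2 = (μ * ν ^ 2) ^ 2 := by
    rcases unit_two hw with ⟨e, he⟩ | ⟨e, he⟩
    · refine ⟨e, ?_⟩
      rw [← he]
      linear_combination -(μ * ν ^ 2) ^ 2 * (1 + 27 * u) * hu
    · refine ⟨e, ?_⟩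
      rw [← he]
      linear_combination -(μ * ν ^ 2) ^ 2 * (1 + 27 * u) * hu
  set V : WeierstrassCurve ℤ_[2] := ⟨0, 0, 1, -(2 ^ m * t * μ * ν), e⟩ with hV
  have hc4 : V.c₄ = 2 ^ (m + 4) * μ * ν := by
    simp only [hV, WeierstrassCurve.c₄, WeierstrassCurve.b₂, WeierstrassCurve.b₄]
    linear_combination -(2 ^ (m + 4) * μ * ν) * ht
  have hc6 : V.c₆ ^ 2 = 64 * (μ * ν ^ 2) ^ 2 := by
    simp only [hV, WeierstrassCurve.c₆, WeierstrassCurve.b₂, WeierstrassCurve.b₄,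
      WeierstrassCurve.b₆]
    linear_combination 64 * he
  refine locSemi_of_model_unit h0 h1728 (V := V) (δ := μ ^ 2 * ν ^ 3)
    ((hμ.pow 2).mul (hν.pow 3)) ?_ ?_
  · rw [hc4, e2]
    have hc2 : ((2 : ℤ_[2]) : ℚ_[2]) = 2 := rfl
    push_cast
    rw [hc2]
    ring
  · rw [e3, ← PadicInt.coe_pow, hc6]
    have hc2 : ((64 : ℤ_[2]) : ℚ_[2]) = 64 := rfl
    push_cast
    rw [hc2]
    ring

/-! ### The criterion -/

theorem locSemi_of_j_val {E : WeierstrassCurve ℚ} [E.IsElliptic] (h0 : E.j ≠ 0)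
    (h1728 : E.j ≠ 1728)
    (h2 : padicValRat 2 E.j ≤ 0 ∨ 12 ≤ padicValRat 2 E.j ∧ 3 ∣ padicValRat 2 E.j)
    (h3 : padicValRat 3 E.j ≤ 0 ∨
      6 ≤ padicValRat 3 (E.j - 1728) ∧ 2 ∣ padicValRat 3 (E.j - 1728))
    (h5 : ∀ p : ℕ, p.Prime → 5 ≤ p →
      padicValRat p E.j < 0 ∨ 3 ∣ padicValRat p E.j ∧ 2 ∣ padicValRat p (E.j - 1728))
    (p : ℕ) [hp : Fact p.Prime] : LocSemi p E := by
  by_cases hp2 : p = 2
  · subst hp2
    exact locSemi_two h0 h1728 h2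
  by_cases hp3 : p = 3
  · subst hp3
    exact locSemi_three h0 h1728 h3
  have hp5 : 5 ≤ p := by
    have h1 := hp.out.two_le
    have h4 : p ≠ 4 := fun h => by
      have := hp.out
      rw [h] at this
      exact absurd this (by norm_num)
    omega
  exact locSemi_of_five_le hp5 h0 h1728 (h5 p hp.out hp5)

/-- **A criterion for modularity in terms of the `j`-invariant.** -/
theorem isModular_of_j_val (E : WeierstrassCurve ℚ) [E.IsElliptic] (h0 : E.j ≠ 0)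
    (h1728 : E.j ≠ 1728)
    (h2 : padicValRat 2 E.j ≤ 0 ∨ 12 ≤ padicValRat 2 E.j ∧ 3 ∣ padicValRat 2 E.j)
    (h3 : padicValRat 3 E.j ≤ 0 ∨
      6 ≤ padicValRat 3 (E.j - 1728) ∧ 2 ∣ padicValRat 3 (E.j - 1728))
    (h5 : ∀ p : ℕ, p.Prime → 5 ≤ p →
      padicValRat p E.j < 0 ∨ 3 ∣ padicValRat p E.j ∧ 2 ∣ padicValRat p (E.j - 1728)) :
    E.IsModular :=
  isModular_of_locSemi (Δ_ne_zero E) fun p _ => locSemi_of_j_val h0 h1728 h2 h3 h5 p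

end Fermat.Agent.Cor.Twist

end
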