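import Mathlib

/-!
# Weierstrass models over `ℤ` with given `c₄`, `c₆`

`exists_int_model`: if `A`, `B` are the `c₄`, `c₆` of a Weierstrass curve over `ℤ₂` and of one
over `ℤ₃`, then they are the `c₄`, `c₆` of a Weierstrass curve over `ℤ`.
-/

set_option autoImplicit false

noncomputable section

open WeierstrassCurve

namespace Fermat.Agent.Cor.Twist

section Approx

variable {p : ℕ} [Fact p.Prime]

theorem exists_int_approx (x : ℤ_[p]) (n : ℕ) : ∃ k : ℤ, (p : ℤ_[p]) ^ n ∣ x - (k : ℤ_[p]) := by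
  refine ⟨(x.appr n : ℤ), ?_⟩
  have h := PadicInt.appr_spec n x
  rw [Ideal.mem_span_singleton] at h
  push_cast
  exact h

theorem isUnit_natCast {m : ℕ} (h : m.Coprime p) : IsUnit (m : ℤ_[p]) := by
  rw [PadicInt.isUnit_iff, PadicInt.norm_natCast_eq_one_iff]
  exact h.symm

theorem dvd_of_dvd_padic {n : ℕ} {a : ℤ} (h : (p : ℤ_[p]) ^ n ∣ (a : ℤ_[p])) :
    ((p : ℤ) ^ n) ∣ a := (PadicInt.pow_p_dvd_int_iff n a).mp h

end Approx

section Shift

variable {R : Type*} [CommRing R] (V : WeierstrassCurve R) (r : R)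

/-- The translation `x ↦ x + r`. -/
theorem exists_shift : ∃ V' : WeierstrassCurve R, V'.b₂ = V.b₂ + 12 * r ∧ V'.c₄ = V.c₄ ∧
    V'.c₆ = V.c₆ := by
  refine ⟨(⟨1, r, 0, 0⟩ : VariableChange R) • V, ?_, ?_, ?_⟩
  · rw [variableChange_b₂]
    simp
  · rw [variableChange_c₄]
    simp
  · rw [variableChange_c₆]
    simp

end Shift

/-- The local analysis: a model with `b₂ = b` at `p`, if `b ≡ b₂(V)` modulo `12 ℤ_p`. -/
theorem exists_model_b₂ {p : ℕ} [Fact p.Prime] {m n : ℕ} (hm : m.Coprime p)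
    (h12 : m * p ^ n = 12) {A B b : ℤ} {V : WeierstrassCurve ℤ_[p]} (h4 : V.c₄ = A)
    (h6 : V.c₆ = B) (hb : (p : ℤ_[p]) ^ n ∣ V.b₂ - (b : ℤ_[p])) :
    ∃ V' : WeierstrassCurve ℤ_[p], V'.b₂ = b ∧ V'.c₄ = A ∧ V'.c₆ = B := by
  obtain ⟨x, hx⟩ := hb
  obtain ⟨u, hu⟩ := isUnit_natCast hm
  have h12' : (12 : ℤ_[p]) = (u : ℤ_[p]) * (p : ℤ_[p]) ^ n := by
    rw [hu]
    exact_mod_cast h12.symm
  obtain ⟨V', h1, h2, h3⟩ := exists_shift V (-(((u⁻¹ : (ℤ_[p])ˣ) : ℤ_[p]) * x))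
  refine ⟨V', ?_, h2.trans h4, h3.trans h6⟩
  rw [h1, h12']
  have h5 : (u : ℤ_[p]) * ((u⁻¹ : (ℤ_[p])ˣ) : ℤ_[p]) = 1 := u.mul_inv
  linear_combination hx - (p : ℤ_[p]) ^ n * x * h5

/-- **A Weierstrass model over `ℤ` from local ones.** -/
theorem exists_int_model {A B : ℤ} (h2 : ∃ V : WeierstrassCurve ℤ_[2], V.c₄ = A ∧ V.c₆ = B)
    (h3 : ∃ V : WeierstrassCurve ℤ_[3], V.c₄ = A ∧ V.c₆ = B) :
    ∃ W : WeierstrassCurve ℤ, W.c₄ = A ∧ W.c₆ = B := by
  obtain ⟨V₂, h24, h26⟩ := h2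
  obtain ⟨V₃, h34, h36⟩ := h3
  obtain ⟨β₂, hβ₂⟩ := exists_int_approx V₂.b₂ 2
  obtain ⟨β₃, hβ₃⟩ := exists_int_approx V₃.b₂ 1
  set b : ℤ := 9 * β₂ + 4 * β₃ with hb
  -- the models with `b₂ = b`
  obtain ⟨U₂, hU₂, hU24, hU26⟩ := exists_model_b₂ (p := 2) (m := 3) (n := 2) (by norm_num)
    (by norm_num) h24 h26 (b := b) (by
      obtain ⟨x, hx⟩ := hβ₂
      refine ⟨x - 2 * β₂ - β₃, ?_⟩
      rw [hb]
      push_cast at hx ⊢
      linear_combination hx)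
  obtain ⟨U₃, hU₃, hU34, hU36⟩ := exists_model_b₂ (p := 3) (m := 4) (n := 1) (by norm_num)
    (by norm_num) h34 h36 (b := b) (by
      obtain ⟨x, hx⟩ := hβ₃
      refine ⟨x - 3 * β₂ - β₃, ?_⟩
      rw [hb]
      push_cast at hx ⊢
      linear_combination hx)
  -- `b₄`
  obtain ⟨b₄, hb₄⟩ : (24 : ℤ) ∣ b ^ 2 - A := by
    have e2 : ((2 : ℤ) ^ 3) ∣ b ^ 2 - A := by
      refine dvd_of_dvd_padic (p := 2) ⟨3 * U₂.b₄, ?_⟩
      have h := hU24
      rw [WeierstrassCurve.c₄, hU₂] at h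
      push_cast
      linear_combination h
    have e3 : ((3 : ℤ) ^ 1) ∣ b ^ 2 - A := by
      refine dvd_of_dvd_padic (p := 3) ⟨8 * U₃.b₄, ?_⟩
      have h := hU34
      rw [WeierstrassCurve.c₄, hU₃] at h
      push_cast
      linear_combination h
    omega
  have k2 : U₂.b₄ = b₄ := by
    have h := hU24
    rw [WeierstrassCurve.c₄, hU₂] at h
    have h24 : (24 : ℤ_[2]) ≠ 0 := by norm_num
    apply mul_left_cancel₀ h24
    have h1 := congrArg (Int.cast : ℤ → ℤ_[2]) hb₄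
    push_cast at h1
    linear_combination h1 - h
  have k3 : U₃.b₄ = b₄ := by
    have h := hU34
    rw [WeierstrassCurve.c₄, hU₃] at h
    have h24 : (24 : ℤ_[3]) ≠ 0 := by norm_num
    apply mul_left_cancel₀ h24
    have h1 := congrArg (Int.cast : ℤ → ℤ_[3]) hb₄
    push_cast at h1
    linear_combination h1 - h
  -- `b₆`
  obtain ⟨b₆, hb₆⟩ : (216 : ℤ) ∣ -b ^ 3 + 36 * b * b₄ - B := by
    have e2 : ((2 : ℤ) ^ 3) ∣ -b ^ 3 + 36 * b * b₄ - B := by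
      refine dvd_of_dvd_padic (p := 2) ⟨27 * U₂.b₆, ?_⟩
      have h := hU26
      rw [WeierstrassCurve.c₆, hU₂, k2] at h
      push_cast
      linear_combination h
    have e3 : ((3 : ℤ) ^ 3) ∣ -b ^ 3 + 36 * b * b₄ - B := by
      refine dvd_of_dvd_padic (p := 3) ⟨8 * U₃.b₆, ?_⟩
      have h := hU36
      rw [WeierstrassCurve.c₆, hU₃, k3] at h
      push_cast
      linear_combination h
    omega
  have l2 : U₂.b₆ = b₆ := by
    have h := hU26
    rw [WeierstrassCurve.c₆, hU₂, k2] at h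
    have h216 : (216 : ℤ_[2]) ≠ 0 := by norm_num
    apply mul_left_cancel₀ h216
    have h1 := congrArg (Int.cast : ℤ → ℤ_[2]) hb₆
    push_cast at h1
    linear_combination h1 - h
  -- `a₁`, `a₃` modulo `2`
  obtain ⟨α, x, hx⟩ := exists_int_approx U₂.a₁ 1
  obtain ⟨γ, y, hy⟩ := exists_int_approx U₂.a₃ 1
  rw [pow_one] at hx hy
  have m2 : ((2 : ℤ) ^ 2) ∣ b - α ^ 2 := by
    refine dvd_of_dvd_padic (p := 2) ⟨x * α + x ^ 2 + U₂.a₂, ?_⟩
    have h := hU₂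
    rw [WeierstrassCurve.b₂] at h
    push_cast at hx ⊢
    have hx' : U₂.a₁ = α + 2 * x := by linear_combination hx
    rw [hx'] at h
    linear_combination -h
  have m6 : ((2 : ℤ) ^ 2) ∣ b₆ - γ ^ 2 := by
    refine dvd_of_dvd_padic (p := 2) ⟨y * γ + y ^ 2 + U₂.a₆, ?_⟩
    have h := l2
    rw [WeierstrassCurve.b₆] at h
    push_cast at hy ⊢
    have hy' : U₂.a₃ = γ + 2 * y := by linear_combination hy
    rw [hy'] at h
    linear_combination -h
  have m4 : ((2 : ℤ) ^ 1) ∣ b₄ - α * γ := by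
    refine dvd_of_dvd_padic (p := 2) ⟨U₂.a₄ + x * γ + y * α + 2 * x * y, ?_⟩
    have h := k2
    rw [WeierstrassCurve.b₄] at h
    push_cast at hx hy ⊢
    have hx' : U₂.a₁ = α + 2 * x := by linear_combination hx
    have hy' : U₂.a₃ = γ + 2 * y := by linear_combination hy
    rw [hx', hy'] at h
    linear_combination -h
  obtain ⟨a₂, ha₂⟩ := m2
  obtain ⟨a₄, ha₄⟩ := m4
  obtain ⟨a₆, ha₆⟩ := m6
  refine ⟨⟨α, a₂, γ, a₄, a₆⟩, ?_, ?_⟩
  · simp only [WeierstrassCurve.c₄, WeierstrassCurve.b₂, WeierstrassCurve.b₄]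
    have e1 : α ^ 2 + 4 * a₂ = b := by linear_combination -ha₂
    have e2 : 2 * a₄ + α * γ = b₄ := by linear_combination -ha₄
    rw [e1, e2]
    linear_combination hb₄
  · simp only [WeierstrassCurve.c₆, WeierstrassCurve.b₂, WeierstrassCurve.b₄,
      WeierstrassCurve.b₆]
    have e1 : α ^ 2 + 4 * a₂ = b := by linear_combination -ha₂
    have e2 : 2 * a₄ + α * γ = b₄ := by linear_combination -ha₄
    have e3 : γ ^ 2 + 4 * a₆ = b₆ := by linear_combination -ha₆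
    rw [e1, e2, e3]
    linear_combination hb₆

end Fermat.Agent.Cor.Twist

end
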