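import Fermat.Agent.Corollaries.Twist.Tate
import Fermat.Agent.Corollaries.Twist.Families

/-!
# Modularity of elliptic curves with a rational point of order `4`, `5`, `6`, `7`

Let `E` be an elliptic curve over `ℚ` with a rational point of order `n`.

* `isModular_of_order_four`: `n = 4`, `E` semistable at `2` up to a local quadratic twist;
* `isModular_of_order_five`: `n = 5`, `E` semistable at `5` up to a local quadratic twist;
* `isModular_of_order_six`: `n = 6`, `E` semistable at `2` and `3` up to local quadratic twists;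
* `isModular_of_order_seven`: `n = 7`, `E` semistable at `7` up to a local quadratic twist.

Then `E` is modular.
-/

set_option autoImplicit false

noncomputable section

open WeierstrassCurve

namespace Fermat.Agent.Cor.Twist

theorem fact_five : Fact (Nat.Prime 5) := ⟨Nat.prime_five⟩

theorem fact_seven : Fact (Nat.Prime 7) := ⟨by norm_num⟩

attribute [local instance] fact_five fact_seven

/-! ### Local lemmas -/

section Local

variable {p : ℕ} [hp : Fact p.Prime]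

/-- The local condition from an integral model. -/
theorem locSemi_of_int (W : WeierstrassCurve ℤ) (hW : (p : ℤ) ∣ W.Δ → ¬ (p : ℤ) ∣ W.c₄)
    {E : WeierstrassCurve ℚ} {d : ℚ} (hd : d ≠ 0) (h4 : (W.c₄ : ℚ) = d ^ 2 * E.c₄)
    (h6 : (W.c₆ : ℚ) = d ^ 3 * E.c₆) : LocSemi p E := by
  have hun : ∀ z : ℤ, ¬ (p : ℤ) ∣ z → IsUnit ((z : ℤ) : ℤ_[p]) := fun z hz => by
    rw [PadicInt.isUnit_iff]
    refine le_antisymm (PadicInt.norm_le_one _) (not_lt.1 fun h' => hz ?_)
    exact (PadicInt.norm_int_lt_one_iff_dvd z).1 h'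
  refine ⟨(d : ℚ_[p]), W.map (Int.castRingHom ℤ_[p]), by exact_mod_cast hd, ?_, ?_, ?_⟩
  · rw [WeierstrassCurve.map_c₄, eq_intCast, PadicInt.coe_intCast]
    have h5 := congrArg (fun q : ℚ => (q : ℚ_[p])) h4
    push_cast at h5
    exact h5
  · rw [WeierstrassCurve.map_c₆, eq_intCast, PadicInt.coe_intCast]
    have h5 := congrArg (fun q : ℚ => (q : ℚ_[p])) h6
    push_cast at h5
    exact h5
  · rw [WeierstrassCurve.map_Δ, WeierstrassCurve.map_c₄, eq_intCast, eq_intCast]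
    by_cases hp' : (p : ℤ) ∣ W.Δ
    · exact Or.inr (hun _ (hW hp'))
    · exact Or.inl (hun _ hp')

/-- `j` is not integral at `p`. -/
theorem locSemi_of_one_lt {E : WeierstrassCurve ℚ} [E.IsElliptic]
    (h1 : 1 < ‖(E.j : ℚ_[p])‖) : LocSemi p E := by
  have h0 : E.j ≠ 0 := fun h' => by
    rw [h', Rat.cast_zero, norm_zero] at h1
    exact absurd h1 (by norm_num)
  have h1728 : E.j ≠ 1728 := fun h' => by
    rw [h'] at h1
    exact absurd norm_1728_le (not_le.2 (by exact_mod_cast h1))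
  exact locSemi_of_norm h0 h1728 (norm_sub_eq (lt_of_le_of_lt norm_1728_le h1)).symm h1.le

end Local

theorem isCoprime_num_den (t : ℚ) : IsCoprime t.num (t.den : ℤ) := by
  rw [Int.isCoprime_iff_gcd_eq_one]
  exact t.reduced

theorem num_eq (t : ℚ) : (t.num : ℚ) = t * t.den := (Rat.mul_den_eq_num t).symm

/-! ### Order `5` -/

/-- **An elliptic curve over `ℚ` with a rational point of order `5`, semistable at `5` up to a
local quadratic twist, is modular.** -/
theorem isModular_of_order_five (E : WeierstrassCurve ℚ) [E.IsElliptic]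
    {P : E.toAffine.Point} (hP : addOrderOf P = 5) (h5 : LocSemi 5 E) : E.IsModular := by
  obtain ⟨x, y, s, g, t, hT⟩ := exists_tate_five hP
  refine isModular_of_locSemi (Δ_ne_zero E) fun p hp => ?_
  by_cases hp5 : p = 5
  · subst hp5
    exact h5
  have hg := hT.hg
  have hn0 : (t.den : ℚ) ≠ 0 := by exact_mod_cast t.den_ne_zero
  have hm := num_eq t
  have e4 : ((curve5 t.num t.den).c₄ : ℚ) = (t.den : ℚ) ^ 4 * (tate t t).c₄ := by
    simp only [curve5, tate, WeierstrassCurve.c₄, WeierstrassCurve.b₂, WeierstrassCurve.b₄]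
    push_cast
    rw [hm]
    ring
  have e6 : ((curve5 t.num t.den).c₆ : ℚ) = (t.den : ℚ) ^ 6 * (tate t t).c₆ := by
    simp only [curve5, tate, WeierstrassCurve.c₆, WeierstrassCurve.b₂, WeierstrassCurve.b₄,
      WeierstrassCurve.b₆]
    push_cast
    rw [hm]
    ring
  refine locSemi_of_int (curve5 t.num t.den) (fun hΔ => curve5_semi (isCoprime_num_den t) hp.out
    (fun h => absurd h hp5) hΔ) (d := (t.den : ℚ) ^ 2 / g ^ 2)
    (div_ne_zero (pow_ne_zero _ hn0) (pow_ne_zero _ hg)) ?_ ?_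
  · rw [e4, hT.c₄_eq]
    field_simp
  · rw [e6, hT.c₆_eq]
    field_simp

/-! ### Order `7` -/

/-- **An elliptic curve over `ℚ` with a rational point of order `7`, semistable at `7` up to a
local quadratic twist, is modular.** -/
theorem isModular_of_order_seven (E : WeierstrassCurve ℚ) [E.IsElliptic]
    {P : E.toAffine.Point} (hP : addOrderOf P = 7) (h7 : LocSemi 7 E) : E.IsModular := by
  obtain ⟨x, y, s, g, t, hT⟩ := exists_tate_seven hP
  refine isModular_of_locSemi (Δ_ne_zero E) fun p hp => ?_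
  by_cases hp7 : p = 7
  · subst hp7
    exact h7
  have hg := hT.hg
  have hn0 : (t.den : ℚ) ≠ 0 := by exact_mod_cast t.den_ne_zero
  have hm := num_eq t
  have e4 : ((curve7 t.num t.den).c₄ : ℚ) =
      (t.den : ℚ) ^ 8 * (tate (t ^ 3 - t ^ 2) (t ^ 2 - t)).c₄ := by
    simp only [curve7, tate, WeierstrassCurve.c₄, WeierstrassCurve.b₂, WeierstrassCurve.b₄]
    push_cast
    rw [hm]
    ring
  have e6 : ((curve7 t.num t.den).c₆ : ℚ) =
      (t.den : ℚ) ^ 12 * (tate (t ^ 3 - t ^ 2) (t ^ 2 - t)).c₆ := by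
    simp only [curve7, tate, WeierstrassCurve.c₆, WeierstrassCurve.b₂, WeierstrassCurve.b₄,
      WeierstrassCurve.b₆]
    push_cast
    rw [hm]
    ring
  refine locSemi_of_int (curve7 t.num t.den) (fun hΔ => curve7_semi (isCoprime_num_den t) hp.out
    (fun h => absurd h hp7) hΔ) (d := (t.den : ℚ) ^ 4 / g ^ 2)
    (div_ne_zero (pow_ne_zero _ hn0) (pow_ne_zero _ hg)) ?_ ?_
  · rw [e4, hT.c₄_eq]
    field_simp
  · rw [e6, hT.c₆_eq]
    field_simp

/-! ### Order `6` -/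

/-- `y² + (v - u) x y - u v (u + v) y = x³ - u (u + v) x²`, with the point `(0, 0)` of
order `6`. -/
def curve6 (u v : ℤ) : WeierstrassCurve ℤ :=
  ⟨v - u, -(u * v + u ^ 2), -(u * v ^ 2 + u ^ 2 * v), 0, 0⟩

theorem curve6_c₄ (u v : ℤ) : (curve6 u v).c₄ =
    (3 * u + v) * (3 * u ^ 3 + 3 * u ^ 2 * v + 9 * u * v ^ 2 + v ^ 3) := by
  simp only [curve6, WeierstrassCurve.c₄, WeierstrassCurve.b₂, WeierstrassCurve.b₄]
  ring

theorem curve6_Δ (u v : ℤ) : (curve6 u v).Δ = u ^ 6 * v ^ 2 * (u + v) ^ 3 * (9 * u + v) := by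
  simp only [curve6, WeierstrassCurve.Δ, WeierstrassCurve.b₂, WeierstrassCurve.b₄,
    WeierstrassCurve.b₆, WeierstrassCurve.b₈]
  ring

theorem curve6_semi {u v : ℤ} (h : IsCoprime u v) {p : ℕ} (hp : p.Prime) (h2 : p ≠ 2)
    (h3 : p ≠ 3) (hΔ : (p : ℤ) ∣ (curve6 u v).Δ) : ¬ (p : ℤ) ∣ (curve6 u v).c₄ := by
  intro h4
  have hP := Nat.prime_iff_prime_int.1 hp
  have n2 : ¬ (p : ℤ) ∣ 2 := fun h' =>
    h2 ((Nat.prime_dvd_prime_iff_eq hp Nat.prime_two).1 (by exact_mod_cast h'))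
  have n3 : ¬ (p : ℤ) ∣ 3 := fun h' =>
    h3 ((Nat.prime_dvd_prime_iff_eq hp Nat.prime_three).1 (by exact_mod_cast h'))
  rw [curve6_Δ] at hΔ
  rw [curve6_c₄] at h4
  have hu : ¬ (p : ℤ) ∣ u := fun hu => by
    have h1 : (p : ℤ) ∣ v ^ 4 := by
      have h5 := dvd_sub h4 (hu.mul_right (9 * u ^ 3 + 12 * u ^ 2 * v + 30 * u * v ^ 2 +
        12 * v ^ 3))
      ring_nf at h5
      exact h5
    exact not_both hp h hu (hP.dvd_of_dvd_pow h1)
  have hu4 : ¬ (p : ℤ) ∣ 2 ^ 4 * (3 ^ 2 * u ^ 4) := fun h' => by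
    rcases hP.dvd_or_dvd h' with h' | h'
    · exact n2 (hP.dvd_of_dvd_pow h')
    · rcases hP.dvd_or_dvd h' with h' | h'
      · exact n3 (hP.dvd_of_dvd_pow h')
      · exact hu (hP.dvd_of_dvd_pow h')
  rcases hP.dvd_or_dvd hΔ with h' | h'
  · rcases hP.dvd_or_dvd h' with h' | h'
    · rcases hP.dvd_or_dvd h' with h' | h'
      · exact hu (hP.dvd_of_dvd_pow h')
      · have hv := hP.dvd_of_dvd_pow h'
        apply hu4
        have h5 := dvd_mul_of_dvd_right (dvd_sub h4 (hv.mul_right (12 * u ^ 3 +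
          30 * u ^ 2 * v + 12 * u * v ^ 2 + v ^ 3))) 16
        ring_nf at h5 ⊢
        exact h5
    · have hv := hP.dvd_of_dvd_pow h'
      apply hu4
      have h5 := dvd_mul_of_dvd_right (dvd_sub h4 (hv.mul_right (-7 * u ^ 3 +
          19 * u ^ 2 * v + 11 * u * v ^ 2 + v ^ 3))) 9
      ring_nf at h5 ⊢
      exact h5
  · apply hu4
    have h5 := dvd_sub h4 (h'.mul_right (-15 * u ^ 3 + 3 * u ^ 2 * v + 3 * u * v ^ 2 + v ^ 3))
    ring_nf at h5 ⊢
    exact h5

/-- **An elliptic curve over `ℚ` with a rational point of order `6`, semistable at `2` and `3` up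
to local quadratic twists, is modular.** -/
theorem isModular_of_order_six (E : WeierstrassCurve ℚ) [E.IsElliptic]
    {P : E.toAffine.Point} (hP : addOrderOf P = 6) (h2 : LocSemi 2 E) (h3 : LocSemi 3 E) :
    E.IsModular := by
  obtain ⟨x, y, s, g, t, hT⟩ := exists_tate_six hP
  refine isModular_of_locSemi (Δ_ne_zero E) fun p hp => ?_
  by_cases hp2 : p = 2
  · subst hp2
    exact h2
  by_cases hp3 : p = 3
  · subst hp3
    exact h3
  have hg := hT.hg
  have hn0 : (t.den : ℚ) ≠ 0 := by exact_mod_cast t.den_ne_zero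
  have hm := num_eq t
  have e4 : ((curve6 t.num t.den).c₄ : ℚ) = (t.den : ℚ) ^ 4 * (tate (t + t ^ 2) t).c₄ := by
    simp only [curve6, tate, WeierstrassCurve.c₄, WeierstrassCurve.b₂, WeierstrassCurve.b₄]
    push_cast
    rw [hm]
    ring
  have e6 : ((curve6 t.num t.den).c₆ : ℚ) = (t.den : ℚ) ^ 6 * (tate (t + t ^ 2) t).c₆ := by
    simp only [curve6, tate, WeierstrassCurve.c₆, WeierstrassCurve.b₂, WeierstrassCurve.b₄,
      WeierstrassCurve.b₆]
    push_cast
    rw [hm]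
    ring
  refine locSemi_of_int (curve6 t.num t.den) (curve6_semi (isCoprime_num_den t) hp.out hp2 hp3)
    (d := (t.den : ℚ) ^ 2 / g ^ 2) (div_ne_zero (pow_ne_zero _ hn0) (pow_ne_zero _ hg)) ?_ ?_
  · rw [e4, hT.c₄_eq]
    field_simp
  · rw [e6, hT.c₆_eq]
    field_simp

/-! ### Order `4` -/

/-- `y² + v x y - u v² y = x³ - u v x²`, with the point `(0, 0)` of order `4`. -/
def curve4 (u v : ℤ) : WeierstrassCurve ℤ := ⟨v, -(u * v), -(u * v ^ 2), 0, 0⟩

theorem curve4_c₄ (u v : ℤ) :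
    (curve4 u v).c₄ = v ^ 2 * (16 * u ^ 2 + 16 * u * v + v ^ 2) := by
  simp only [curve4, WeierstrassCurve.c₄, WeierstrassCurve.b₂, WeierstrassCurve.b₄]
  ring

theorem curve4_Δ (u v : ℤ) : (curve4 u v).Δ = u ^ 4 * v ^ 7 * (16 * u + v) := by
  simp only [curve4, WeierstrassCurve.Δ, WeierstrassCurve.b₂, WeierstrassCurve.b₄,
    WeierstrassCurve.b₆, WeierstrassCurve.b₈]
  ring

theorem curve4_semi {u v : ℤ} {p : ℕ} (hp : p.Prime) (h2 : p ≠ 2) (hv : ¬ (p : ℤ) ∣ v)
    (hΔ : (p : ℤ) ∣ (curve4 u v).Δ) : ¬ (p : ℤ) ∣ (curve4 u v).c₄ := by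
  intro h4
  have hP := Nat.prime_iff_prime_int.1 hp
  have n2 : ¬ (p : ℤ) ∣ 2 := fun h' =>
    h2 ((Nat.prime_dvd_prime_iff_eq hp Nat.prime_two).1 (by exact_mod_cast h'))
  rw [curve4_Δ] at hΔ
  rw [curve4_c₄] at h4
  have h5 : (p : ℤ) ∣ 16 * u ^ 2 + 16 * u * v + v ^ 2 :=
    (hP.dvd_or_dvd h4).resolve_left fun h' => hv (hP.dvd_of_dvd_pow h')
  have hu : ¬ (p : ℤ) ∣ u := fun hu => by
    have h1 : (p : ℤ) ∣ v ^ 2 := by
      have h6 := dvd_sub h5 (hu.mul_right (16 * u + 16 * v))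
      ring_nf at h6
      exact h6
    exact hv (hP.dvd_of_dvd_pow h1)
  have h6 : (p : ℤ) ∣ 16 * u + v := by
    refine (hP.dvd_or_dvd hΔ).resolve_left fun h' => ?_
    rcases hP.dvd_or_dvd h' with h' | h'
    · exact hu (hP.dvd_of_dvd_pow h')
    · exact hv (hP.dvd_of_dvd_pow h')
  have h7 : (p : ℤ) ∣ 2 ^ 4 * u ^ 2 := by
    have h8 := dvd_sub h5 (h6.mul_left v)
    ring_nf at h8 ⊢
    exact h8
  rcases hP.dvd_or_dvd h7 with h' | h'
  · exact n2 (hP.dvd_of_dvd_pow h')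
  · exact hu (hP.dvd_of_dvd_pow h')

theorem norm_eq_one_of_not_dvd {p : ℕ} [hp : Fact p.Prime] {z : ℤ} (h : ¬ (p : ℤ) ∣ z) :
    ‖(z : ℚ_[p])‖ = 1 :=
  le_antisymm (Padic.norm_int_le_one z) (not_lt.1 fun h' => h (Padic.norm_intCast_lt_one_iff.1 h'))

/-- **An elliptic curve over `ℚ` with a rational point of order `4`, semistable at `2` up to a
local quadratic twist, is modular.** -/
theorem isModular_of_order_four (E : WeierstrassCurve ℚ) [E.IsElliptic]
    {P : E.toAffine.Point} (hP : addOrderOf P = 4) (h2 : LocSemi 2 E) : E.IsModular := by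
  obtain ⟨x, y, s, g, t, hT⟩ := exists_tate_four hP
  refine isModular_of_locSemi (Δ_ne_zero E) fun p hp => ?_
  by_cases hp2 : p = 2
  · subst hp2
    exact h2
  have hP := Nat.prime_iff_prime_int.1 hp.out
  have hg := hT.hg
  have hn0 : (t.den : ℚ) ≠ 0 := by exact_mod_cast t.den_ne_zero
  have hm := num_eq t
  have e4 : ((curve4 t.num t.den).c₄ : ℚ) = (t.den : ℚ) ^ 4 * (tate t 0).c₄ := by
    simp only [curve4, tate, WeierstrassCurve.c₄, WeierstrassCurve.b₂, WeierstrassCurve.b₄]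
    push_cast
    rw [hm]
    ring
  have e6 : ((curve4 t.num t.den).c₆ : ℚ) = (t.den : ℚ) ^ 6 * (tate t 0).c₆ := by
    simp only [curve4, tate, WeierstrassCurve.c₆, WeierstrassCurve.b₂, WeierstrassCurve.b₄,
      WeierstrassCurve.b₆]
    push_cast
    rw [hm]
    ring
  have eΔ : ((curve4 t.num t.den).Δ : ℚ) = (t.den : ℚ) ^ 12 * (tate t 0).Δ := by
    simp only [curve4, tate, WeierstrassCurve.Δ, WeierstrassCurve.b₂, WeierstrassCurve.b₄,
      WeierstrassCurve.b₆, WeierstrassCurve.b₈]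
    push_cast
    rw [hm]
    ring
  by_cases hv : (p : ℤ) ∣ (t.den : ℤ)
  · -- potentially multiplicative reduction
    apply locSemi_of_one_lt
    set u : ℤ := t.num with hu'
    set v : ℤ := (t.den : ℤ) with hv'
    have hv0 : v ≠ 0 := by
      rw [hv']
      exact_mod_cast t.den_ne_zero
    have hcop : IsCoprime u v := isCoprime_num_den t
    have n2 : ¬ (p : ℤ) ∣ 2 := fun h' =>
      hp2 ((Nat.prime_dvd_prime_iff_eq hp.out Nat.prime_two).1 (by exact_mod_cast h'))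
    have hu : ¬ (p : ℤ) ∣ u := fun h' => not_both hp.out hcop h' hv
    have hk : ¬ (p : ℤ) ∣ 16 * u ^ 2 + 16 * u * v + v ^ 2 := fun h' => by
      have h5 : (p : ℤ) ∣ 2 ^ 4 * u ^ 2 := by
        have h8 := dvd_sub h' (hv.mul_left (16 * u + v))
        ring_nf at h8 ⊢
        exact h8
      rcases hP.dvd_or_dvd h5 with h' | h'
      · exact n2 (hP.dvd_of_dvd_pow h')
      · exact hu (hP.dvd_of_dvd_pow h')
    have hl : ¬ (p : ℤ) ∣ u ^ 4 * (16 * u + v) := fun h' => by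
      rcases hP.dvd_or_dvd h' with h' | h'
      · exact hu (hP.dvd_of_dvd_pow h')
      · have h5 : (p : ℤ) ∣ 2 ^ 4 * u := by
          have h8 := dvd_sub h' hv
          ring_nf at h8 ⊢
          exact h8
        rcases hP.dvd_or_dvd h5 with h' | h'
        · exact n2 (hP.dvd_of_dvd_pow h')
        · exact hu h'
    -- `j u⁴ (16 u + v) v = (16 u² + 16 u v + v²)³`
    have hj : E.j * ((u ^ 4 * (16 * u + v) : ℤ) : ℚ) * (v : ℚ) =
        ((16 * u ^ 2 + 16 * u * v + v ^ 2 : ℤ) : ℚ) ^ 3 := by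
      have h5 := j_mul_Δ E
      rw [hT.Δ_eq, hT.c₄_eq] at h5
      have hvq : (v : ℚ) = (t.den : ℚ) := by rw [hv']; norm_cast
      rw [curve4_c₄] at e4
      rw [curve4_Δ] at eΔ
      have h6 : E.j * (tate t 0).Δ = (tate t 0).c₄ ^ 3 := by
        have hg12 : g ^ 12 ≠ 0 := pow_ne_zero _ hg
        apply mul_left_cancel₀ hg12
        linear_combination h5
      have h7 : (v : ℚ) ^ 6 ≠ 0 := pow_ne_zero _ (by exact_mod_cast hv0)
      apply mul_left_cancel₀ h7
      have h8 : (v : ℚ) ^ 6 * (E.j * ((u ^ 4 * (16 * u + v) : ℤ) : ℚ) * (v : ℚ)) =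
          E.j * ((u ^ 4 * v ^ 7 * (16 * u + v) : ℤ) : ℚ) := by
        push_cast
        ring
      have h9 : (v : ℚ) ^ 6 * ((16 * u ^ 2 + 16 * u * v + v ^ 2 : ℤ) : ℚ) ^ 3 =
          ((v ^ 2 * (16 * u ^ 2 + 16 * u * v + v ^ 2) : ℤ) : ℚ) ^ 3 := by
        push_cast
        ring
      rw [h8, h9, e4, eΔ]
      linear_combination (t.den : ℚ) ^ 12 * h6
    have hj' := congrArg (fun q : ℚ => ‖(q : ℚ_[p])‖) hj
    simp only [Rat.cast_mul, Rat.cast_pow, Rat.cast_intCast, norm_mul, norm_pow] at hj'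
    rw [norm_eq_one_of_not_dvd hk, norm_eq_one_of_not_dvd hl, one_pow, mul_one] at hj'
    have hv1 : ‖(v : ℚ_[p])‖ < 1 := Padic.norm_intCast_lt_one_iff.2 hv
    have hv2 : 0 < ‖(v : ℚ_[p])‖ := norm_pos_iff.2 (by exact_mod_cast hv0)
    by_contra hcon
    have h10 : ‖(E.j : ℚ_[p])‖ * ‖(v : ℚ_[p])‖ < 1 := by
      have := mul_le_mul_of_nonneg_right (not_lt.1 hcon) hv2.le
      linarith
    exact absurd hj' h10.ne
  · refine locSemi_of_int (curve4 t.num t.den) (curve4_semi hp.out hp2 hv)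
      (d := (t.den : ℚ) ^ 2 / g ^ 2) (div_ne_zero (pow_ne_zero _ hn0) (pow_ne_zero _ hg)) ?_ ?_
    · rw [e4, hT.c₄_eq]
      field_simp
    · rw [e6, hT.c₆_eq]
      field_simp

end Fermat.Agent.Cor.Twist

end
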