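import Fermat.Agent.Corollaries.Twist.Val
import Fermat.Agent.Corollaries.Twist.Dup
import Fermat.Agent.Corollaries.Twist.Torsion

/-!
# Elliptic curves over `ℚ` with at least `12` rational torsion points are modular

By Mazur's theorem the torsion groups of order at least `12` are `ℤ/12`, `ℤ/2 × ℤ/6`, `ℤ/2 × ℤ/8`.

* `isModular_of_order_twelve`: a rational point of order `12`;
* `isModular_of_two_six`: full rational `2`-torsion and a rational point of order `3`;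
* `isModular_of_two_eight`: full rational `2`-torsion and a rational point of order `8`;
* `isModular_of_large_torsion`: the three cases together.

No condition on the reduction of `E` is needed: in the three cases the `2`-adic valuation of the
`j`-invariant is at most `0`.
-/

set_option autoImplicit false

noncomputable section

open WeierstrassCurve

namespace Fermat.Agent.Cor.Twist

variable {E : WeierstrassCurve ℚ}

/-- Every rational number is `r / s` with `r`, `s` coprime. -/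
theorem exists_coprime (q : ℚ) : ∃ r s : ℤ, IsCoprime r s ∧ s ≠ 0 ∧ (r : ℚ) = q * s :=
  ⟨q.num, q.den, isCoprime_num_den q, by exact_mod_cast q.den_ne_zero, by exact_mod_cast num_eq q⟩

/-- The roots of the `2`-division polynomial, with their points. -/
theorem exists_twoRoots_of {x x' : ℚ} (hx : x ≠ x')
    (g : 4 * x ^ 3 + E.b₂ * x ^ 2 + 2 * E.b₄ * x + E.b₆ = 0)
    (g' : 4 * x' ^ 3 + E.b₂ * x' ^ 2 + 2 * E.b₄ * x' + E.b₆ = 0) :
    TwoRoots E x x' (-E.b₂ / 4 - x - x') := by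
  have hx' : x - x' ≠ 0 := sub_ne_zero.mpr hx
  have hb₄ : 2 * E.b₄ = -4 * (x ^ 2 + x * x' + x' ^ 2) - E.b₂ * (x + x') := by
    apply mul_left_cancel₀ hx'
    linear_combination g - g'
  refine ⟨?_, ?_, ?_⟩
  · ring
  · linear_combination hb₄ / 2
  · linear_combination g - x * hb₄

theorem TwoRoots.root₁ {e₁ e₂ e₃ : ℚ} (h : TwoRoots E e₁ e₂ e₃) :
    4 * e₁ ^ 3 + E.b₂ * e₁ ^ 2 + 2 * E.b₄ * e₁ + E.b₆ = 0 := by
  rw [h.b₂, h.b₄, h.b₆]
  ring

/-- Distinct roots. -/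
theorem TwoRoots.ne {e₁ e₂ e₃ : ℚ} (h : TwoRoots E e₁ e₂ e₃) (hΔ : E.Δ ≠ 0) : e₁ ≠ e₂ := by
  intro h12
  have h1 := h.Δ (t := 1) (m := e₁ - e₂) (n := e₁ - e₃) (by ring) (by ring)
  apply hΔ
  rw [h1, h12]
  ring

/-- Distinct points of order `2` have distinct first coordinates. -/
theorem two_torsion_ne {P Q : E.toAffine.Point} (hPQ : P ≠ Q) {x y x' y' : ℚ}
    {h : E.toAffine.Nonsingular x y} {h' : E.toAffine.Nonsingular x' y'}
    (e : P = .some x y h) (e' : Q = .some x' y' h') (hy : 2 * y + E.a₁ * x + E.a₃ = 0)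
    (hy' : 2 * y' + E.a₁ * x' + E.a₃ = 0) : x ≠ x' := by
  rintro rfl
  have hyy : y = y' := by linarith
  subst hyy
  exact hPQ (e.trans e'.symm)

theorem odd_sq {u : ℤ} (hu : Odd u) : ∃ m : ℤ, u ^ 2 = 1 + 8 * m := by
  obtain ⟨k, rfl⟩ := hu
  obtain ⟨m, hm⟩ := Int.even_mul_succ_self k
  exact ⟨m, by linear_combination 4 * hm⟩

/-! ### `ℤ/2 × ℤ/8` -/

/-- If `E` has a rational point `R` of order `8` and a rational point `T' ≠ 4 R` of order `2` then
`v₂(j) ≤ 0`. -/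
theorem val_j_of_two_eight [E.IsElliptic] {R T' : E.toAffine.Point} (hR : addOrderOf R = 8)
    (hT' : addOrderOf T' = 2) (hne : (4 : ℕ) • R ≠ T') : E.j ≠ 0 ∧ padicValRat 2 E.j ≤ 0 := by
  have hΔ := Δ_ne_zero E
  have hk : ∀ k : ℕ, 0 < k → k < 8 → k • R ≠ 0 := fun k h0 h8 => nsmul_ne_zero_of_lt hR h0 h8
  have hT : addOrderOf ((4 : ℕ) • R) = 2 := by
    rw [addOrderOf_nsmul_of_dvd (by norm_num) (by rw [hR]; norm_num), hR]
  obtain ⟨e₁, y₁, h₁, he₁, hy₁⟩ := two_torsion_coords hT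
  obtain ⟨e₂, y₂, h₂, he₂, hy₂⟩ := two_torsion_coords hT'
  have g₁ := cubic_of_coords h₁.1 hy₁
  have g₂ := cubic_of_coords h₂.1 hy₂
  have h12 : e₁ ≠ e₂ := two_torsion_ne hne he₁ he₂ hy₁ hy₂
  have hT2 := exists_twoRoots_of h12 g₁ g₂
  set e₃ : ℚ := -E.b₂ / 4 - e₁ - e₂ with he₃
  have h13 : e₁ ≠ e₃ := hT2.swap.ne hΔ
  have g₃ := hT2.rotate.rotate.root₁
  -- `R` and `Q = 2 R`
  obtain ⟨x, y, hR', heR⟩ : ∃ x y, ∃ h : E.toAffine.Nonsingular x y, R = .some x y h := by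
    rcases R with _ | ⟨x, y, h⟩
    · exact absurd rfl (hk 1 one_pos (by norm_num))
    · exact ⟨x, y, h, rfl⟩
  obtain ⟨X, Z, hQ', heQ⟩ : ∃ x y, ∃ h : E.toAffine.Nonsingular x y,
      (2 : ℕ) • R = .some x y h := by
    have h2 := hk 2 (by norm_num) (by norm_num)
    generalize (2 : ℕ) • R = Q at h2
    rcases Q with _ | ⟨x, y, h⟩
    · exact absurd rfl h2
    · exact ⟨x, y, h, rfl⟩
  have d1 : (2 : ℕ) • Affine.Point.some x y hR' = .some X Z hQ' := by rw [← heR, heQ]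
  have d2 : (2 : ℕ) • Affine.Point.some X Z hQ' = .some e₁ y₁ h₁ := by
    rw [← heQ, ← mul_nsmul, ← he₁]
  set Y : ℚ := 2 * y + E.a₁ * x + E.a₃ with hY
  set Y' : ℚ := 2 * Z + E.a₁ * X + E.a₃ with hY'
  have hY0 : Y ≠ 0 := (dup d1).1
  have hY0' : Y' ≠ 0 := (dup d2).1
  have k1 := dup_root d1 g₁
  have k11 := dup_root d2 g₁
  have k12 := dup_root d2 g₂
  have k13 := dup_root d2 g₃
  -- the four squares
  obtain ⟨c, hc⟩ : ∃ c : ℚ, X - e₁ = c ^ 2 :=
    ⟨((x - e₁) ^ 2 - (3 * e₁ ^ 2 + E.b₂ / 2 * e₁ + E.b₄ / 2)) / Y, by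
      rw [div_pow, eq_div_iff (pow_ne_zero _ hY0), k1]⟩
  obtain ⟨a, ha⟩ : ∃ a : ℚ, e₁ - e₂ = a ^ 2 :=
    ⟨((X - e₂) ^ 2 - (3 * e₂ ^ 2 + E.b₂ / 2 * e₂ + E.b₄ / 2)) / Y', by
      rw [div_pow, eq_div_iff (pow_ne_zero _ hY0'), k12]⟩
  obtain ⟨b, hb⟩ : ∃ b : ℚ, e₁ - e₃ = b ^ 2 :=
    ⟨((X - e₃) ^ 2 - (3 * e₃ ^ 2 + E.b₂ / 2 * e₃ + E.b₄ / 2)) / Y', by
      rw [div_pow, eq_div_iff (pow_ne_zero _ hY0'), k13]⟩
  have hcab : c ^ 4 = a ^ 2 * b ^ 2 := by
    rw [sub_self, zero_mul] at k11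
    have k2 := pow_eq_zero_iff two_ne_zero |>.mp k11.symm
    rw [hT2.b₂, hT2.b₄] at k2
    rw [← ha, ← hb]
    linear_combination k2 - (X - e₁ + c ^ 2) * hc
  have hb0 : b ≠ 0 := fun h0 => h13 (by rw [h0] at hb; linear_combination hb)
  obtain ⟨u, v, huv, hv, hu⟩ := exists_coprime (c / b)
  have hvQ : (v : ℚ) ≠ 0 := by exact_mod_cast hv
  have hcb : c = (u : ℚ) / v * b := by
    rw [hu]
    field_simp
  refine hT2.val_j (t := b ^ 2 / (v : ℚ) ^ 4) (m := u ^ 4) (n := v ^ 4) ?_ ?_ ?_ ?_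
  · have h5 : a ^ 2 * b ^ 2 = b ^ 2 * (b ^ 2 / (v : ℚ) ^ 4 * ((u ^ 4 : ℤ) : ℚ)) := by
      rw [← hcab, hcb]
      push_cast
      field_simp
    rw [ha]
    apply mul_left_cancel₀ (pow_ne_zero 2 hb0)
    linear_combination h5
  · rw [hb]
    push_cast
    field_simp
  · rintro ⟨h6, h7⟩
    exact Int.prime_two.not_isUnit (huv.isUnit_of_dvd' (Int.prime_two.dvd_of_dvd_pow h6)
      (Int.prime_two.dvd_of_dvd_pow h7))
  · rcases Int.even_or_odd u with hu2 | hu2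
    · obtain ⟨k, rfl⟩ := hu2
      exact ⟨k ^ 4 * v ^ 4 * ((k + k) ^ 4 - v ^ 4), by ring⟩
    · rcases Int.even_or_odd v with hv2 | hv2
      · obtain ⟨k, rfl⟩ := hv2
        exact ⟨u ^ 4 * k ^ 4 * (u ^ 4 - (k + k) ^ 4), by ring⟩
      · obtain ⟨m, hm⟩ := odd_sq hu2
        obtain ⟨n, hn⟩ := odd_sq hv2
        have e1 : u ^ 4 = (1 + 8 * m) ^ 2 := by rw [← hm]; ring
        have e2 : v ^ 4 = (1 + 8 * n) ^ 2 := by rw [← hn]; ring
        rw [e1, e2]
        exact ⟨(1 + 8 * m) ^ 2 * (1 + 8 * n) ^ 2 * (m - n + 4 * m ^ 2 - 4 * n ^ 2), by ring⟩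

/-- **An elliptic curve over `ℚ` with full rational `2`-torsion and a rational point of order `8` is
modular.** -/
theorem isModular_of_two_eight (E : WeierstrassCurve ℚ) [E.IsElliptic] {R T : E.toAffine.Point}
    (hR : addOrderOf R = 8) (hT : addOrderOf T = 2) (hne : (4 : ℕ) • R ≠ T) : E.IsModular := by
  have h4 : addOrderOf ((4 : ℕ) • R) = 2 := by
    rw [addOrderOf_nsmul_of_dvd (by norm_num) (by rw [hR]; norm_num), hR]
  exact isModular_of_full_two_torsion E _ _ h4 hT hne (val_j_of_two_eight hR hT hne).2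

/-! ### `ℤ/2 × ℤ/6` -/

/-- If `E` has a rational point of order `3` and full rational `2`-torsion then `v₂(j) ≤ 0`. -/
theorem val_j_of_two_six [E.IsElliptic] {P T T' : E.toAffine.Point} (hP : addOrderOf P = 3)
    (hT : addOrderOf T = 2) (hT' : addOrderOf T' = 2) (hne : T ≠ T') :
    E.j ≠ 0 ∧ padicValRat 2 E.j ≤ 0 := by
  have hΔ := Δ_ne_zero E
  obtain ⟨x₀, a, b, hF⟩ := exists_flex hP
  obtain ⟨e₁, y₁, h₁, he₁, hy₁⟩ := two_torsion_coords hT
  obtain ⟨e₂, y₂, h₂, he₂, hy₂⟩ := two_torsion_coords hT'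
  have h12 : e₁ ≠ e₂ := two_torsion_ne hne he₁ he₂ hy₁ hy₂
  have hT2 := exists_twoRoots_of h12 (cubic_of_coords h₁.1 hy₁) (cubic_of_coords h₂.1 hy₂)
  set e₃ : ℚ := -E.b₂ / 4 - e₁ - e₂ with he₃
  have h13 : e₁ ≠ e₃ := hT2.swap.ne hΔ
  have h23 : e₂ ≠ e₃ := hT2.rotate.ne hΔ
  obtain ⟨z₁, hz₁, f₁, g₁⟩ := hF.exists_root hT2.root₁
  obtain ⟨z₂, hz₂, f₂, g₂⟩ := hF.exists_root hT2.rotate.root₁
  obtain ⟨z₃, hz₃, f₃, g₃⟩ := hF.exists_root hT2.rotate.rotate.root₁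
  have n12 : z₁ - z₂ ≠ 0 := fun h0 => h12 (by
    rw [f₁, f₂]
    linear_combination -(z₁ + z₂) * h0)
  have n13 : z₁ - z₃ ≠ 0 := fun h0 => h13 (by
    rw [f₁, f₃]
    linear_combination -(z₁ + z₃) * h0)
  have n23 : z₂ - z₃ ≠ 0 := fun h0 => h23 (by
    rw [f₂, f₃]
    linear_combination -(z₂ + z₃) * h0)
  have k12 : 2 * (z₁ ^ 2 + z₁ * z₂ + z₂ ^ 2) - a * (z₁ + z₂) = 0 := by
    apply (mul_eq_zero.1 _).resolve_left n12
    linear_combination g₁ - g₂
  have k13 : 2 * (z₁ ^ 2 + z₁ * z₃ + z₃ ^ 2) - a * (z₁ + z₃) = 0 := by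
    apply (mul_eq_zero.1 _).resolve_left n13
    linear_combination g₁ - g₃
  have ka : 2 * (z₁ + z₂ + z₃) - a = 0 := by
    apply (mul_eq_zero.1 _).resolve_left n23
    linear_combination k12 - k13
  have ke : z₁ * z₂ + z₁ * z₃ + z₂ * z₃ = 0 := by
    have h5 : (2 : ℚ) * (z₁ * z₂ + z₁ * z₃ + z₂ * z₃) = 0 := by
      linear_combination -k12 + (z₁ + z₂) * ka
    exact (mul_eq_zero.1 h5).resolve_left two_ne_zero
  have hs0 : z₁ + z₂ ≠ 0 := fun h0 => mul_ne_zero hz₁ hz₂ (by linear_combination ke - z₃ * h0)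
  obtain ⟨r, s, hrs, hs, hr⟩ := exists_coprime (z₁ / z₂)
  have hsQ : (s : ℚ) ≠ 0 := by exact_mod_cast hs
  -- `z₁ = l r`, `z₂ = l s`
  set l : ℚ := z₂ / s with hl
  have l2 : z₂ = l * s := by rw [hl]; field_simp
  have l1 : z₁ = l * r := by rw [hr, hl]; field_simp
  have hl0 : l ≠ 0 := div_ne_zero hz₂ hsQ
  have hrs0 : (r : ℚ) + s ≠ 0 := fun h0 => hs0 (by rw [l1, l2]; linear_combination l * h0)
  have l3 : z₃ = -(l * r * s) / (r + s) := by
    rw [eq_div_iff hrs0]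
    apply mul_left_cancel₀ hl0
    rw [l1, l2] at ke
    linear_combination ke
  refine hT2.val_j (t := l ^ 2 / ((r : ℚ) + s) ^ 2) (m := (s - r) * (s + r) ^ 3)
    (n := -(r ^ 3 * (r + 2 * s))) ?_ ?_ ?_ ?_
  · rw [f₁, f₂, l1, l2]
    push_cast
    field_simp
    ring
  · rw [f₁, f₃, l1, l3]
    push_cast
    field_simp
    ring
  · rintro ⟨h5, h6⟩
    have h7 : (2 : ℤ) ∣ r := by
      rcases Int.prime_two.dvd_or_dvd ((dvd_neg.mp h6)) with h8 | h8
      · exact Int.prime_two.dvd_of_dvd_pow h8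
      · exact (dvd_add_left ⟨s, rfl⟩).mp h8
    have h9 : (2 : ℤ) ∣ s := by
      rcases Int.prime_two.dvd_or_dvd h5 with h8 | h8
      · have h10 := dvd_add h8 h7
        rwa [sub_add_cancel] at h10
      · exact (dvd_add_left h7).mp (Int.prime_two.dvd_of_dvd_pow h8)
    exact Int.prime_two.not_isUnit (hrs.isUnit_of_dvd' h7 h9)
  · rcases Int.even_or_odd r with hr2 | hr2
    · obtain ⟨k, rfl⟩ := hr2
      exact ⟨(s - (k + k)) * (s + (k + k)) ^ 3 * -(k ^ 3 * (k + s)) *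
        ((s - (k + k)) * (s + (k + k)) ^ 3 - -((k + k) ^ 3 * ((k + k) + 2 * s))), by ring⟩
    · rcases Int.even_or_odd s with hs2 | hs2
      · obtain ⟨k, rfl⟩ := hs2
        exact ⟨((k + k) - r) * ((k + k) + r) ^ 3 * -(r ^ 3 * (r + 2 * (k + k))) *
          (k ^ 3 * (k + r)), by ring⟩
      · obtain ⟨k, hk⟩ := hr2
        obtain ⟨i, hi⟩ := hs2
        have e1 : s + r = 2 * (i + k + 1) := by rw [hk, hi]; ring
        have e2 : s - r = 2 * (i - k) := by rw [hk, hi]; ring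
        rw [e1, e2]
        exact ⟨(i - k) * (i + k + 1) ^ 3 * -(r ^ 3 * (r + 2 * s)) *
          (2 * (i - k) * (2 * (i + k + 1)) ^ 3 - -(r ^ 3 * (r + 2 * s))), by ring⟩

/-- **An elliptic curve over `ℚ` with full rational `2`-torsion and a rational point of order `3` is
modular.** -/
theorem isModular_of_two_six (E : WeierstrassCurve ℚ) [E.IsElliptic] {P T T' : E.toAffine.Point}
    (hP : addOrderOf P = 3) (hT : addOrderOf T = 2) (hT' : addOrderOf T' = 2) (hne : T ≠ T') :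
    E.IsModular :=
  isModular_of_full_two_torsion E _ _ hT hT' hne (val_j_of_two_six hP hT hT' hne).2

/-! ### Order `12` -/

/-- If `E` has a rational point of order `12` then `v₂(j) ≤ 0`. -/
theorem val_j_of_twelve [E.IsElliptic] {R : E.toAffine.Point} (hR : addOrderOf R = 12) :
    E.j ≠ 0 ∧ padicValRat 2 E.j ≤ 0 := by
  have hΔ := Δ_ne_zero E
  have hP : addOrderOf ((4 : ℕ) • R) = 3 := by
    rw [addOrderOf_nsmul_of_dvd (by norm_num) (by rw [hR]; norm_num), hR]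
  have hT : addOrderOf ((6 : ℕ) • R) = 2 := by
    rw [addOrderOf_nsmul_of_dvd (by norm_num) (by rw [hR]; norm_num), hR]
  obtain ⟨x₀, a, b, hF⟩ := exists_flex hP
  obtain ⟨e, y₁, h₁, he, hy₁⟩ := two_torsion_coords hT
  have g₁ := cubic_of_coords h₁.1 hy₁
  obtain ⟨z, hz, f, g⟩ := hF.exists_root g₁
  -- `Q = 3 R`
  obtain ⟨X, Z, hQ', heQ⟩ : ∃ x y, ∃ h : E.toAffine.Nonsingular x y,
      (3 : ℕ) • R = .some x y h := by
    have h2 := nsmul_ne_zero_of_lt hR (k := 3) (by norm_num) (by norm_num)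
    generalize (3 : ℕ) • R = Q at h2
    rcases Q with _ | ⟨x, y, h⟩
    · exact absurd rfl h2
    · exact ⟨x, y, h, rfl⟩
  have d2 : (2 : ℕ) • Affine.Point.some X Z hQ' = .some e y₁ h₁ := by
    rw [← heQ, ← mul_nsmul, ← he]
  have k1 := dup_root d2 g₁
  rw [sub_self, zero_mul] at k1
  have k2 := pow_eq_zero_iff two_ne_zero |>.mp k1.symm
  -- `ρ² = 3 - a / z`
  have hz2 : z ^ 2 ≠ 0 := pow_ne_zero _ hz
  obtain ⟨r, s, hrs, hs, hr⟩ := exists_coprime ((X - e) / z ^ 2)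
  set ρ : ℚ := (X - e) / z ^ 2 with hρ
  have hb' : b = z ^ 2 * (a - 2 * z) := by linear_combination g
  have hρ2 : ρ ^ 2 * z = 3 * z - a := by
    have h5 : (X - e) ^ 2 = z ^ 3 * (3 * z - a) := by
      rw [hF.b₂, hF.b₄, hb'] at k2
      rw [f] at k2 ⊢
      linear_combination k2
    have h6 : ρ ^ 2 = z ^ 3 * (3 * z - a) / z ^ 4 := by
      rw [hρ, div_pow, h5]
      ring
    rw [h6]
    field_simp
  have ha : a = z * (3 - ρ ^ 2) := by linear_combination hρ2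
  have hb : b = z ^ 3 * (1 - ρ ^ 2) := by rw [hb', ha]; ring
  have hsQ : (s : ℚ) ≠ 0 := by exact_mod_cast hs
  have hc4 : E.c₄ * (s : ℚ) ^ 8 = z ^ 4 * ((3 * s ^ 2 - r ^ 2) *
      ((3 * s ^ 2 - r ^ 2) ^ 3 - 24 * s ^ 4 * (s ^ 2 - r ^ 2))) := by
    rw [hF.c₄, ha, hb, hr]
    ring
  have hD : E.Δ * (s : ℚ) ^ 12 = z ^ 12 * ((s ^ 2 - r ^ 2) ^ 3 * r ^ 4 * (9 * s ^ 2 - r ^ 2)) := by
    rw [hF.Δ, ha, hb, hr]
    ring
  have hj : E.j * (((s ^ 12 * ((s ^ 2 - r ^ 2) ^ 3 * r ^ 4 * (9 * s ^ 2 - r ^ 2)) : ℤ)) : ℚ) =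
      ((((3 * s ^ 2 - r ^ 2) * ((3 * s ^ 2 - r ^ 2) ^ 3 - 24 * s ^ 4 * (s ^ 2 - r ^ 2))) ^ 3 : ℤ) :
        ℚ) := by
    have h6 := j_mul_Δ E
    have h7 : z ^ 12 ≠ 0 := pow_ne_zero _ hz
    apply mul_left_cancel₀ h7
    have h8 : E.j * (E.Δ * (s : ℚ) ^ 12) * (s : ℚ) ^ 12 = (E.c₄ * (s : ℚ) ^ 8) ^ 3 := by
      linear_combination (s : ℚ) ^ 24 * h6
    rw [hD, hc4] at h8
    push_cast
    linear_combination h8
  have hK0 : s ^ 12 * ((s ^ 2 - r ^ 2) ^ 3 * r ^ 4 * (9 * s ^ 2 - r ^ 2)) ≠ 0 := fun h0 => by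
    have h5 : (s : ℚ) ^ 12 * ((s ^ 2 - r ^ 2) ^ 3 * r ^ 4 * (9 * s ^ 2 - r ^ 2)) = 0 := by
      exact_mod_cast h0
    have h6 := (mul_eq_zero.1 h5).resolve_left (pow_ne_zero _ hsQ)
    rw [h6, mul_zero] at hD
    exact mul_ne_zero hΔ (pow_ne_zero _ hsQ) hD
  by_cases hodd : Odd r ∧ Odd s
  · -- both odd
    obtain ⟨hr2, hs2⟩ := hodd
    obtain ⟨i, hi⟩ := odd_sq hr2
    obtain ⟨k, hk⟩ := odd_sq hs2
    have e1 : s ^ 2 - r ^ 2 = 8 * (k - i) := by rw [hi, hk]; ring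
    have e2 : 9 * s ^ 2 - r ^ 2 = 8 * (1 + 9 * k - i) := by rw [hi, hk]; ring
    have e3 : 3 * s ^ 2 - r ^ 2 = 2 * (1 + 12 * k - 4 * i) := by rw [hi, hk]; ring
    rw [e1, e2, e3] at hj
    rw [e1, e2] at hK0
    refine val_le_zero (k := 12) (U := ((1 + 12 * k - 4 * i) *
      ((1 + 12 * k - 4 * i) ^ 3 - 24 * s ^ 4 * (k - i))) ^ 3) ?_ hK0 ?_ ?_ (j := E.j)
    · intro hd
      have h5 := Int.prime_two.dvd_of_dvd_pow hd
      rcases Int.prime_two.dvd_or_dvd h5 with h6 | h6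
      · omega
      · have h7 : (2 : ℤ) ∣ (1 + 12 * k - 4 * i) ^ 3 := by
          have h8 := dvd_add h6 (Dvd.intro (12 * s ^ 4 * (k - i)) rfl :
            (2 : ℤ) ∣ 2 * (12 * s ^ 4 * (k - i)))
          have h9 : (1 + 12 * k - 4 * i) ^ 3 - 24 * s ^ 4 * (k - i) +
            2 * (12 * s ^ 4 * (k - i)) = (1 + 12 * k - 4 * i) ^ 3 := by ring
          rwa [h9] at h8
        have h10 := Int.prime_two.dvd_of_dvd_pow h7
        omega
    · exact ⟨s ^ 12 * ((k - i) ^ 3 * r ^ 4 * (1 + 9 * k - i)), by ring⟩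
    · rw [hj]
      push_cast
      ring
  · -- one of them is even, the other is odd
    refine val_le_zero (k := 0) (j := E.j) ?_ hK0 (by rw [pow_zero]; exact one_dvd _)
      (by rw [hj, pow_zero, one_mul])
    intro hd
    have hA : (2 : ℤ) ∣ 3 * s ^ 2 - r ^ 2 := by
      rcases Int.prime_two.dvd_or_dvd (Int.prime_two.dvd_of_dvd_pow hd) with h6 | h6
      · exact h6
      · have h8 := dvd_add h6 (Dvd.intro (12 * s ^ 4 * (s ^ 2 - r ^ 2)) rfl :
          (2 : ℤ) ∣ 2 * (12 * s ^ 4 * (s ^ 2 - r ^ 2)))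
        have h9 : (3 * s ^ 2 - r ^ 2) ^ 3 - 24 * s ^ 4 * (s ^ 2 - r ^ 2) +
            2 * (12 * s ^ 4 * (s ^ 2 - r ^ 2)) = (3 * s ^ 2 - r ^ 2) ^ 3 := by ring
        rw [h9] at h8
        exact Int.prime_two.dvd_of_dvd_pow h8
    have hpar : Even r ↔ Even s := by
      rcases Int.even_or_odd r with h6 | h6 <;> rcases Int.even_or_odd s with h7 | h7
      · exact ⟨fun _ => h7, fun _ => h6⟩
      · exfalso
        obtain ⟨i, rfl⟩ := h6
        obtain ⟨k, hk⟩ := odd_sq h7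
        rw [hk] at hA
        obtain ⟨l, hl⟩ := hA
        have : 2 * l = 2 * (12 * k - 2 * i ^ 2 + 1) + 1 := by linear_combination -hl
        omega
      · exfalso
        obtain ⟨i, rfl⟩ := h7
        obtain ⟨k, hk⟩ := odd_sq h6
        rw [hk] at hA
        obtain ⟨l, hl⟩ := hA
        have : 2 * l = 2 * (6 * i ^ 2 - 4 * k - 1) + 1 := by linear_combination -hl
        omega
      · exact ⟨fun h8 => absurd h8 (Int.not_even_iff_odd.2 h6),
          fun h8 => absurd h8 (Int.not_even_iff_odd.2 h7)⟩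
    rcases Int.even_or_odd r with h6 | h6
    · have h7 := hpar.1 h6
      exact Int.prime_two.not_isUnit (hrs.isUnit_of_dvd' h6.two_dvd h7.two_dvd)
    · refine hodd ⟨h6, ?_⟩
      rcases Int.even_or_odd s with h7 | h7
      · exact absurd (hpar.2 h7) (Int.not_even_iff_odd.2 h6)
      · exact h7

/-- **An elliptic curve over `ℚ` with a rational point of order `12` is modular.** -/
theorem isModular_of_order_twelve (E : WeierstrassCurve ℚ) [E.IsElliptic] {R : E.toAffine.Point}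
    (hR : addOrderOf R = 12) : E.IsModular := by
  obtain ⟨h0, hj⟩ := val_j_of_twelve hR
  have h1728 : E.j ≠ 1728 := fun h => by
    rw [h, padicValRat_1728] at hj
    exact absurd hj (by norm_num)
  have hQ : addOrderOf ((3 : ℕ) • R) = 4 := by
    rw [addOrderOf_nsmul_of_dvd (by norm_num) (by rw [hR]; norm_num), hR]
  exact isModular_of_order_four E hQ (locSemi_two h0 h1728 (Or.inl hj))

/-! ### In terms of the torsion subgroup -/

/-- **An elliptic curve over `ℚ` whose group of rational points contains a subgroup isomorphic to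
`ℤ/12`, `ℤ/2 × ℤ/6` or `ℤ/2 × ℤ/8` is modular.** -/
theorem isModular_of_large_torsion (E : WeierstrassCurve ℚ) [E.IsElliptic]
    (h : (∃ f : ZMod 12 →+ E.toAffine.Point, Function.Injective f) ∨
      (∃ f : ZMod 2 × ZMod 6 →+ E.toAffine.Point, Function.Injective f) ∨
      ∃ f : ZMod 2 × ZMod 8 →+ E.toAffine.Point, Function.Injective f) : E.IsModular := by
  rcases h with ⟨f, hf⟩ | ⟨f, hf⟩ | ⟨f, hf⟩
  · refine isModular_of_order_twelve E (R := f 1) ?_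
    rw [addOrderOf_injective f hf, ZMod.addOrderOf_one]
  · refine isModular_of_two_six E (P := f (0, 2)) (T := f (1, 0)) (T' := f (0, 3)) ?_ ?_ ?_
      fun h => absurd (hf h) (by decide)
    · rw [addOrderOf_injective f hf]
      have : Fact (Nat.Prime 3) := ⟨Nat.prime_three⟩
      exact addOrderOf_eq_prime (by decide) (by decide)
    · rw [addOrderOf_injective f hf]
      have : Fact (Nat.Prime 2) := ⟨Nat.prime_two⟩
      exact addOrderOf_eq_prime (by decide) (by decide)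
    · rw [addOrderOf_injective f hf]
      have : Fact (Nat.Prime 2) := ⟨Nat.prime_two⟩
      exact addOrderOf_eq_prime (by decide) (by decide)
  · refine isModular_of_two_eight E (R := f (0, 1)) (T := f (1, 0)) ?_ ?_ fun h => ?_
    · rw [addOrderOf_injective f hf]
      have : Fact (Nat.Prime 2) := ⟨Nat.prime_two⟩
      exact addOrderOf_eq_prime_pow (p := 2) (n := 2) (by decide) (by decide)
    · rw [addOrderOf_injective f hf]
      have : Fact (Nat.Prime 2) := ⟨Nat.prime_two⟩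
      exact addOrderOf_eq_prime (by decide) (by decide)
    · rw [← map_nsmul] at h
      exact absurd (hf h) (by decide)

end Fermat.Agent.Cor.Twist

end
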