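import Fermat.Agent.Corollaries.Twist.Large
import Fermat.Agent.Corollaries.MT.Orders

/-!
# Modularity of the elliptic curves over `ℚ` with at least `12` rational torsion points

The three cases of `Twist/Large` and the classification of the rational torsion subgroups
(`MT/Main`, `MT/Orders`).

* `isModular_of_card_torsion`: if the number of rational torsion points of `E` is divisible by `4`
  and at least `12`, then `E` is modular;
* `isModular_or_of_card_torsion`: if `E` has at least `12` rational torsion points, then `E` is
  modular or `E` has a rational point of order `13`, `18`, `21`, `25` or `35`.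

There is no hypothesis on the reduction of `E`.
-/

set_option autoImplicit false

noncomputable section

open WeierstrassCurve

namespace Fermat.Agent.Cor.Twist

/-- A subgroup of the group of rational points, in the form used in `isModular_of_large_torsion`. -/
theorem exists_injective {E : WeierstrassCurve ℚ} [E.IsElliptic] {G : Type*} [AddGroup G]
    (h : Nonempty (AddCommGroup.torsion E.toAffine.Point ≃+ G)) :
    ∃ f : G →+ E.toAffine.Point, Function.Injective f := by
  obtain ⟨e⟩ := h
  refine ⟨(AddCommGroup.torsion E.toAffine.Point).subtype.comp e.symm.toAddMonoidHom, ?_⟩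
  exact Subtype.val_injective.comp e.symm.injective

/-- **An elliptic curve over `ℚ` is modular if the number of its rational torsion points is
divisible by `4` and at least `12`.** -/
theorem isModular_of_card_torsion (E : WeierstrassCurve ℚ) [E.IsElliptic]
    (h4 : 4 ∣ Nat.card (AddCommGroup.torsion E.toAffine.Point))
    (h12 : 12 ≤ Nat.card (AddCommGroup.torsion E.toAffine.Point)) : E.IsModular := by
  rcases MT.mazur_four E h4 with ⟨n, hn, he⟩ | ⟨m, hm, he⟩
  · have hc := Nat.card_congr he.some.toEquiv
    rw [Nat.card_zmod] at hc
    rcases hn with rfl | rfl | rfl
    · omega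
    · omega
    · exact isModular_of_large_torsion E (Or.inl (exists_injective he))
  · have hc := Nat.card_congr he.some.toEquiv
    rw [Nat.card_prod, Nat.card_zmod, Nat.card_zmod] at hc
    rcases hm with rfl | rfl | rfl | rfl
    · omega
    · omega
    · exact isModular_of_large_torsion E (Or.inr (Or.inl (exists_injective he)))
    · exact isModular_of_large_torsion E (Or.inr (Or.inr (exists_injective he)))

/-- **An elliptic curve over `ℚ` with at least `12` rational torsion points is modular** or has a
rational point of order `13`, `18`, `21`, `25` or `35`. -/
theorem isModular_or_of_card_torsion (E : WeierstrassCurve ℚ) [E.IsElliptic]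
    (h12 : 12 ≤ Nat.card (AddCommGroup.torsion E.toAffine.Point)) : E.IsModular ∨
      ∃ d ∈ ({13, 18, 21, 25, 35} : Set ℕ), ∃ P : E.toAffine.Point, addOrderOf P = d := by
  rcases MT.mazur_up_to E with ⟨n, hn, he⟩ | ⟨m, hm, he⟩ | h
  · left
    have hc := Nat.card_congr he.some.toEquiv
    rw [Nat.card_zmod] at hc
    obtain rfl : n = 12 := by
      simp only [Set.mem_insert_iff, Set.mem_singleton_iff] at hn
      omega
    exact isModular_of_large_torsion E (Or.inl (exists_injective he))
  · left
    have hc := Nat.card_congr he.some.toEquiv
    rw [Nat.card_prod, Nat.card_zmod, Nat.card_zmod] at hc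
    refine isModular_of_card_torsion E ?_ h12
    rw [hc]
    exact ⟨m, by ring⟩
  · exact Or.inr h

end Fermat.Agent.Cor.Twist

end
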