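import Fermat.Agent.Corollaries.Twist.Isogeny
import Fermat.Agent.Corollaries.Mazur.Main

/-!
# Rational points of prime order `p ≥ 11`

* `exists_semistable_of_order`: an elliptic curve over `ℚ` with a rational point of prime order
  `p ≥ 11` is isomorphic to a curve with a semistable integral equation;
* `isModular_of_prime_order`: it is modular.  (By Mazur's theorem, `Mazur/Main`, the only case left is
  `p = 13`.)
-/

set_option autoImplicit false

noncomputable section

open WeierstrassCurve WeierstrassCurve.Affine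

namespace Fermat.Agent.Cor.Twist

open Fermat.Agent.Cor.K1 (Gam Pts)

/-- If `E` has a point of prime order `p ≥ 11` over `ℚ̄`, fixed by the Galois group, then there is
a semistable integral equation `W` and a Galois equivariant isomorphism `E(ℚ̄) ≃ W(ℚ̄)`. -/
theorem exists_semistable_of_order (E : WeierstrassCurve ℚ) [E.IsElliptic] {p : ℕ} (hp : p.Prime)
    (h11 : 11 ≤ p) (P : Pts E) (hP : addOrderOf P = p) (hfix : ∀ σ : Gam, σ • P = P) :
    ∃ W : WeierstrassCurve ℤ, W.Δ ≠ 0 ∧ W.IsSemistableModel ∧
      ∃ e : Pts E ≃+ Pts (W.map (Int.castRingHom ℚ)), ∀ (σ : Gam) (x : Pts E),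
        e (σ • x) = σ • e x := by
  obtain ⟨W, e, he, hN⟩ := Mazur.exists_normal E hp (by omega) P hP hfix
  exact ⟨W, hN.hΔ, hN.isSemistableModel_of hp h11 fun ℓ hℓ h3 hc =>
    hN.not_cusp hp (by omega) hℓ h3 hc, e, he⟩

/-- The same for modularity. -/
theorem isModular_of_fixed_point (E : WeierstrassCurve ℚ) [E.IsElliptic] {p : ℕ} (hp : p.Prime)
    (h11 : 11 ≤ p) (P : Pts E) (hP : addOrderOf P = p) (hfix : ∀ σ : Gam, σ • P = P) :
    E.IsModular := by
  obtain ⟨W, hΔ, hss, e, he⟩ := exists_semistable_of_order E hp h11 P hP hfix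
  have hW : (W.map (Int.castRingHom ℚ)).IsElliptic := by
    refine ⟨?_⟩
    rw [WeierstrassCurve.map_Δ, isUnit_iff_ne_zero]
    simpa using hΔ
  refine (isModular_iff_of_isogenous E (W.map (Int.castRingHom ℚ))
    ⟨e.toAddMonoidHom, he, ?_⟩).2 (Classic.isModular_of_semistable W hΔ hss)
  have h : e.toAddMonoidHom.ker = ⊥ := (AddMonoidHom.ker_eq_bot_iff _).2 e.injective
  rw [h]
  infer_instance

/-- **An elliptic curve over `ℚ` with a rational point of prime order `p ≥ 11` is modular.** -/
theorem isModular_of_prime_order (E : WeierstrassCurve ℚ) [E.IsElliptic] {p : ℕ} (hp : p.Prime)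
    (h11 : 11 ≤ p) {P : E.toAffine.Point} (hP : addOrderOf P = p) : E.IsModular := by
  have h1 : ∀ (C : WeierstrassCurve ℚ), C = (E⁄ℚ) → ∀ P : C.toAffine.Point,
      addOrderOf P = p → E.IsModular := by
    rintro C rfl P hP
    exact isModular_of_fixed_point E hp h11 (Point.baseChange ℚ (AlgebraicClosure ℚ) P)
      (by rw [K1.addOrderOf_baseChange, hP]) (fun σ => K1.smul_baseChange E σ P)
  exact h1 E E.map_id.symm P hP

end Fermat.Agent.Cor.Twist

end
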