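import Fermat.Agent.Corollaries.Twist.Eighteen
import Fermat.Agent.Corollaries.LN.Short
import Fermat.Agent.S41.VarChange

/-!
# Points of order `25` and the prime `5`

* `dvd_of_order_twentyfive`: if `A`, `B` are integers, `5 ∣ A`, `5 ∣ B` and `y² = x³ + A x + B` has
  a rational point of order `25`, then `25 ∣ A` and `25 ∣ B`;
* `isModular_of_order_twentyfive`: an elliptic curve over `ℚ` with a rational point of order `25` is
  semistable at `5` up to a local quadratic twist, so it is modular.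
-/

set_option autoImplicit false

noncomputable section

open WeierstrassCurve WeierstrassCurve.Affine
open Fermat.Agent.ECRed

namespace Fermat.Agent.Cor.Twist

attribute [local instance] fact_five fact_seven

section Short

variable {A B : ℤ} {P : (LN.EQQ (LN.shortZ A B)).Point}

/-- The coordinates of a torsion point. -/
theorem exists_coords (h0 : P ≠ 0) (hf : IsOfFinAddOrder P) :
    ∃ a b : ℤ, xc P = a ∧ yc P = b ∧ b ^ 2 = a ^ 3 + A * a + B := by
  obtain ⟨a, b, ha, hb, h, -⟩ := LN.lutz_nagell_point h0 hf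
  exact ⟨a, b, ha, hb, h⟩

/-- Duplication. -/
theorem dup_int {a b c : ℤ} (h2 : P + P ≠ 0) (ha : xc P = a) (hb : yc P = b)
    (hc : xc (P + P) = c) :
    c * (4 * b ^ 2) = a ^ 4 - 2 * A * a ^ 2 - 8 * B * a + A ^ 2 := by
  have h := LN.xc_double_short h2
  rw [ha, hb, hc] at h
  exact_mod_cast h

theorem nsmul_ne_zero_of_twentyfive (hP : addOrderOf P = 25) {k : ℕ} (h0 : 0 < k) (h : k < 25) :
    k • P ≠ 0 := fun h' => by
  have h1 := Nat.le_of_dvd h0 (addOrderOf_dvd_of_nsmul_eq_zero h')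
  omega

/-- If `5 ∣ A`, `5 ∣ B` then the first coordinate of a point of order `25` is divisible by `5`. -/
theorem five_dvd_of_order (hA : 5 ∣ A) (hB : 5 ∣ B) (hP : addOrderOf P = 25) {a : ℤ}
    (ha : xc P = a) : (5 : ℤ) ∣ a := by
  have hf : IsOfFinAddOrder P := by
    rw [← addOrderOf_pos_iff, hP]
    norm_num
  have k1 : P ≠ 0 := by
    have h := nsmul_ne_zero_of_twentyfive hP (k := 1) (by norm_num) (by norm_num)
    rwa [one_nsmul] at h
  have e2 : P + P = 2 • P := (two_nsmul P).symm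
  have e4 : (P + P) + (P + P) = 4 • P := by rw [e2, ← add_nsmul]
  have e3 : (P + P) + (P + P) - P = 3 • P := by
    rw [e4, sub_eq_iff_eq_add, ← succ_nsmul]
  have e5 : (P + P) + (P + P) + P = 5 • P := by
    rw [e4, ← succ_nsmul]
  have k2 : P + P ≠ 0 := e2 ▸ nsmul_ne_zero_of_twentyfive hP (by norm_num) (by norm_num)
  have k4 : (P + P) + (P + P) ≠ 0 :=
    e4 ▸ nsmul_ne_zero_of_twentyfive hP (by norm_num) (by norm_num)
  have k3 : (P + P) + (P + P) - P ≠ 0 :=
    e3 ▸ nsmul_ne_zero_of_twentyfive hP (by norm_num) (by norm_num)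
  have k5 : (P + P) + (P + P) + P ≠ 0 :=
    e5 ▸ nsmul_ne_zero_of_twentyfive hP (by norm_num) (by norm_num)
  have hf2 : IsOfFinAddOrder (P + P) := e2 ▸ hf.nsmul
  have hf4 : IsOfFinAddOrder ((P + P) + (P + P)) := e4 ▸ hf.nsmul
  have hf3 : IsOfFinAddOrder ((P + P) + (P + P) - P) := e3 ▸ hf.nsmul
  have hf5 : IsOfFinAddOrder ((P + P) + (P + P) + P) := e5 ▸ hf.nsmul
  obtain ⟨a', b, ha', hb, h1⟩ := exists_coords k1 hf
  obtain rfl : a' = a := by
    have h := ha'.symm.trans ha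
    exact_mod_cast h
  obtain ⟨c, d, hc, hd, h2⟩ := exists_coords k2 hf2
  obtain ⟨f, -, hf', -, -⟩ := exists_coords k4 hf4
  obtain ⟨g, -, hg, -, -⟩ := exists_coords k3 hf3
  obtain ⟨l, -, hl, -, -⟩ := exists_coords k5 hf5
  have d1 := dup_int k2 ha hb hc
  have d2 := dup_int k4 hc hd hf'
  have hne : xc ((P + P) + (P + P)) ≠ xc P := by
    intro h
    rcases eq_or_eq_neg_of_xc_eq k4 k1 h with h' | h'
    · exact k3 (sub_eq_zero.2 h')
    · exact k5 (eq_neg_iff_add_eq_zero.1 h')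
  have s1 := xc_add_add_xc_sub k4 k1 hne
  have f2 : (LN.EQQ (LN.shortZ A B)).b₂ = 0 := by
    simp [WeierstrassCurve.b₂, LN.EQQ, LN.shortZ, WeierstrassCurve.map]
  have f4 : (LN.EQQ (LN.shortZ A B)).b₄ = 2 * A := by
    simp [WeierstrassCurve.b₄, LN.EQQ, LN.shortZ, WeierstrassCurve.map]
  have f6 : (LN.EQQ (LN.shortZ A B)).b₆ = 4 * B := by
    simp [WeierstrassCurve.b₆, LN.EQQ, LN.shortZ, WeierstrassCurve.map]
  rw [f2, f4, f6, hl, hg, hf', ha] at s1
  have s2 : (l + g) * (f - a') ^ 2 = (f + a') * (2 * f * a' + 2 * A) + 4 * B := by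
    have : (((l + g) * (f - a') ^ 2 : ℤ) : ℚ) =
        (((f + a') * (2 * f * a' + 2 * A) + 4 * B : ℤ) : ℚ) := by
      push_cast
      linear_combination s1
    exact_mod_cast this
  -- reduction modulo `5`
  by_contra h5
  have hA' : (A : ZMod 5) = 0 := (ZMod.intCast_zmod_eq_zero_iff_dvd A 5).2 (by exact_mod_cast hA)
  have hB' : (B : ZMod 5) = 0 := (ZMod.intCast_zmod_eq_zero_iff_dvd B 5).2 (by exact_mod_cast hB)
  have ha5 : (a' : ZMod 5) ≠ 0 := fun h =>
    h5 (by exact_mod_cast (ZMod.intCast_zmod_eq_zero_iff_dvd a' 5).1 h)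
  have five : (5 : ZMod 5) = 0 := by decide
  rw [h1] at d1
  rw [h2] at d2
  have m1 := congrArg (fun z : ℤ => (z : ZMod 5)) d1
  have m2 := congrArg (fun z : ℤ => (z : ZMod 5)) d2
  have m3 := congrArg (fun z : ℤ => (z : ZMod 5)) s2
  push_cast at m1 m2 m3
  rw [hA', hB'] at m1 m2 m3
  have n1 : (4 : ZMod 5) * c = a' := by
    apply mul_left_cancel₀ (pow_ne_zero 3 ha5)
    linear_combination m1
  have hc5 : (c : ZMod 5) ≠ 0 := fun h => ha5 (by rw [← n1, h, mul_zero])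
  have n2 : (4 : ZMod 5) * f = c := by
    apply mul_left_cancel₀ (pow_ne_zero 3 hc5)
    linear_combination m2
  have n3 : (f : ZMod 5) = a' := by
    linear_combination n1 + 4 * n2 - 3 * (f : ZMod 5) * five
  rw [n3] at m3
  have n4 : (4 : ZMod 5) * (a' : ZMod 5) ^ 3 = 0 := by linear_combination -m3
  have n5 : (a' : ZMod 5) ^ 3 = 0 := by
    linear_combination (-1) * n4 + (a' : ZMod 5) ^ 3 * five
  exact pow_ne_zero 3 ha5 n5

/-- **If `5 ∣ A`, `5 ∣ B` and `y² = x³ + A x + B` has a rational point of order `25`, then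
`25 ∣ A`** and `25 ∣ B`. -/
theorem dvd_of_order_twentyfive (hA : 5 ∣ A) (hB : 5 ∣ B) (hP : addOrderOf P = 25) :
    25 ∣ A ∧ 25 ∣ B := by
  have hf : IsOfFinAddOrder P := by
    rw [← addOrderOf_pos_iff, hP]
    norm_num
  have k1 : P ≠ 0 := by
    have h := nsmul_ne_zero_of_twentyfive hP (k := 1) (by norm_num) (by norm_num)
    rwa [one_nsmul] at h
  have e2 : P + P = 2 • P := (two_nsmul P).symm
  have k2 : P + P ≠ 0 := e2 ▸ nsmul_ne_zero_of_twentyfive hP (by norm_num) (by norm_num)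
  have hf2 : IsOfFinAddOrder (P + P) := e2 ▸ hf.nsmul
  obtain ⟨a, b, ha, hb, h1⟩ := exists_coords k1 hf
  obtain ⟨c, d, hc, hd, h2⟩ := exists_coords k2 hf2
  have hP2 : addOrderOf (P + P) = 25 := by
    rw [e2, Nat.Coprime.addOrderOf_nsmul (by rw [hP]; norm_num), hP]
  have d1 := dup_int k2 ha hb hc
  obtain ⟨a', rfl⟩ := five_dvd_of_order hA hB hP ha
  obtain ⟨c', rfl⟩ := five_dvd_of_order hA hB hP2 hc
  have p5 : Prime (5 : ℤ) := Int.prime_iff_natAbs_prime.2 (by norm_num)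
  obtain ⟨b', rfl⟩ : (5 : ℤ) ∣ b := by
    obtain ⟨A', rfl⟩ := hA
    obtain ⟨B', rfl⟩ := hB
    exact p5.dvd_of_dvd_pow ⟨25 * a' ^ 3 + 5 * A' * a' + B', by rw [h1]; ring⟩
  have hB2 : 25 ∣ B := by
    obtain ⟨A', rfl⟩ := hA
    exact ⟨b' ^ 2 - 5 * a' ^ 3 - A' * a', by linear_combination -h1⟩
  refine ⟨?_, hB2⟩
  obtain ⟨A', rfl⟩ := hA
  obtain ⟨B', rfl⟩ := hB2
  have h5 : (5 : ℤ) ∣ A' := by
    apply p5.dvd_of_dvd_pow (n := 2)
    refine ⟨4 * c' * b' ^ 2 - 5 * a' ^ 4 + 2 * A' * a' ^ 2 + 8 * B' * a', ?_⟩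
    have h6 : (25 : ℤ) * A' ^ 2 = 25 * (5 * (4 * c' * b' ^ 2 - 5 * a' ^ 4 + 2 * A' * a' ^ 2 +
      8 * B' * a')) := by linear_combination -d1
    exact mul_left_cancel₀ (by norm_num) h6
  obtain ⟨A'', rfl⟩ := h5
  exact ⟨A'', by ring⟩

end Short

/-! ### The short equation of `E` -/

/-- The points of `E` on the short equation `y² = x³ - 27 c₄(W) x - 54 c₆(W)`, if
`c₄(W) = λ⁴ c₄(E)` and `c₆(W) = λ⁶ c₆(E)`. -/
theorem exists_short_equiv {E : WeierstrassCurve ℚ} (hΔ : E.Δ ≠ 0) {c d : ℤ} {l : ℚ} (hl : l ≠ 0)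
    (hc : (c : ℚ) = l ^ 4 * E.c₄) (hd : (d : ℚ) = l ^ 6 * E.c₆) :
    Nonempty ((LN.EQQ (LN.shortZ (-27 * c) (-54 * d))).Point ≃+ E.toAffine.Point) := by
  have h6l : (6 * l) ≠ 0 := mul_ne_zero (by norm_num) hl
  obtain ⟨e, -⟩ := S41vc.exists_equiv (k := ℚ) E
    ⟨(Units.mk0 (6 * l) h6l)⁻¹, -E.b₂ / 12, -E.a₁ / 2, -E.a₃ / 2 + E.a₁ * E.b₂ / 24⟩ hΔ
    (V := (LN.shortZ (-27 * c) (-54 * d)).map (Int.castRingHom ℚ)) (by
      ext
      · simp only [variableChange_a₁, LN.shortZ, WeierstrassCurve.map_a₁, inv_inv, Units.val_mk0]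
        simp only [map_zero]
        ring
      · simp only [variableChange_a₂, LN.shortZ, WeierstrassCurve.map_a₂, inv_inv, Units.val_mk0,
          WeierstrassCurve.b₂]
        simp only [map_zero]
        ring
      · simp only [variableChange_a₃, LN.shortZ, WeierstrassCurve.map_a₃, inv_inv, Units.val_mk0,
          WeierstrassCurve.b₂]
        simp only [map_zero]
        ring
      · simp only [variableChange_a₄, LN.shortZ, WeierstrassCurve.map_a₄, inv_inv, Units.val_mk0,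
          eq_intCast]
        push_cast
        rw [hc]
        simp only [WeierstrassCurve.b₂, WeierstrassCurve.c₄, WeierstrassCurve.b₄]
        ring
      · simp only [variableChange_a₆, LN.shortZ, WeierstrassCurve.map_a₆, inv_inv, Units.val_mk0,
          eq_intCast]
        push_cast
        rw [hd]
        simp only [WeierstrassCurve.b₂, WeierstrassCurve.c₆, WeierstrassCurve.b₄,
          WeierstrassCurve.b₆]
        ring)
  exact ⟨e⟩

/-- If `E` has a rational point of order `25` then `E` is semistable at `5` up to a local quadratic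
twist. -/
theorem locSemi_of_order_twentyfive {E : WeierstrassCurve ℚ} [E.IsElliptic]
    {R : E.toAffine.Point} (hR : addOrderOf R = 25) : LocSemi 5 E := by
  have h5 : addOrderOf ((5 : ℕ) • R) = 5 := by
    rw [addOrderOf_nsmul_of_dvd (by norm_num) (by rw [hR]; norm_num), hR]
  obtain ⟨x, y, s, g, t, hT⟩ := exists_tate_five h5
  have hg := hT.hg
  have hn0 : (t.den : ℚ) ≠ 0 := by exact_mod_cast t.den_ne_zero
  have hm := num_eq t
  have e4 : ((curve5 t.num t.den).c₄ : ℚ) = (t.den : ℚ) ^ 4 * (tate t t).c₄ := by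
    simp only [curve5, tate, WeierstrassCurve.c₄, WeierstrassCurve.b₂, WeierstrassCurve.b₄]
    push_cast
    rw [hm]
    ring
  have e6 : ((curve5 t.num t.den).c₆ : ℚ) = (t.den : ℚ) ^ 6 * (tate t t).c₆ := by
    simp only [curve5, tate, WeierstrassCurve.c₆, WeierstrassCurve.b₂, WeierstrassCurve.b₄,
      WeierstrassCurve.b₆]
    push_cast
    rw [hm]
    ring
  have hco := isCoprime_num_den t
  by_cases hbad : (5 : ℤ) ∣ t.num - 3 * t.den
  · exfalso
    obtain ⟨e⟩ := exists_short_equiv (c := (curve5 t.num t.den).c₄)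
      (d := (curve5 t.num t.den).c₆) (Δ_ne_zero E) (l := t.den / g)
      (div_ne_zero hn0 hg) (by rw [e4, hT.c₄_eq]; field_simp) (by rw [e6, hT.c₆_eq]; field_simp)
    have hQ : addOrderOf (e.symm R) = 25 := by
      rw [← hR]
      exact addOrderOf_injective e.symm.toAddMonoidHom e.symm.injective R
    obtain ⟨k, hk⟩ := hbad
    have hu : t.num = 3 * t.den + 5 * k := by linarith
    have p5 : Prime (5 : ℤ) := Int.prime_iff_natAbs_prime.2 (by norm_num)
    have hc4 : (curve5 t.num t.den).c₄ = 25 * (-3 * (t.den : ℤ) ^ 4 - 24 * k * (t.den : ℤ) ^ 3 -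
        40 * k ^ 2 * (t.den : ℤ) ^ 2 + 25 * k ^ 4) - 5 * (t.den : ℤ) ^ 4 := by
      rw [curve5_c₄, hu]
      ring
    have hΔ5 : (5 : ℤ) ∣ (curve5 t.num t.den).Δ := by
      refine ⟨t.num ^ 5 * (t.den : ℤ) ^ 5 * (5 * (k ^ 2 - k * (t.den : ℤ) - (t.den : ℤ) ^ 2)), ?_⟩
      rw [curve5_Δ]
      have h7 : t.num ^ 2 - 11 * t.num * (t.den : ℤ) - (t.den : ℤ) ^ 2 =
          5 * (5 * (k ^ 2 - k * (t.den : ℤ) - (t.den : ℤ) ^ 2)) := by
        rw [hu]
        ring
      linear_combination t.num ^ 5 * (t.den : ℤ) ^ 5 * h7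
    have h5c4 : (5 : ℤ) ∣ (curve5 t.num t.den).c₄ := by
      rw [hc4]
      exact ⟨5 * (-3 * (t.den : ℤ) ^ 4 - 24 * k * (t.den : ℤ) ^ 3 -
        40 * k ^ 2 * (t.den : ℤ) ^ 2 + 25 * k ^ 4) - (t.den : ℤ) ^ 4, by ring⟩
    have h5c6 : (5 : ℤ) ∣ (curve5 t.num t.den).c₆ := by
      apply p5.dvd_of_dvd_pow (n := 2)
      have h8 : (curve5 t.num t.den).c₆ ^ 2 = (curve5 t.num t.den).c₄ ^ 3 -
          1728 * (curve5 t.num t.den).Δ := by
        have := (curve5 t.num t.den).c_relation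
        linear_combination this
      rw [h8]
      exact dvd_sub (dvd_pow h5c4 (by norm_num)) (hΔ5.mul_left _)
    have h9 := (dvd_of_order_twentyfive (h5c4.mul_left _) (h5c6.mul_left _) hQ).1
    rw [hc4] at h9
    have hv : (5 : ℤ) ∣ (t.den : ℤ) ^ 4 := by omega
    have hv' := p5.dvd_of_dvd_pow hv
    have hu' : (5 : ℤ) ∣ t.num := by
      rw [hu]
      exact dvd_add (hv'.mul_left _) (dvd_mul_right _ _)
    exact p5.not_isUnit (hco.isUnit_of_dvd' hu' hv')
  · refine locSemi_of_int (curve5 t.num t.den) (fun hΔ => curve5_semi hco Nat.prime_five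
      (fun _ => hbad) hΔ) (d := (t.den : ℚ) ^ 2 / g ^ 2)
      (div_ne_zero (pow_ne_zero _ hn0) (pow_ne_zero _ hg)) ?_ ?_
    · rw [e4, hT.c₄_eq]
      field_simp
    · rw [e6, hT.c₆_eq]
      field_simp

/-- An elliptic curve over `ℚ` with a rational point of order `25` is modular. -/
theorem isModular_of_order_twentyfive (E : WeierstrassCurve ℚ) [E.IsElliptic]
    {R : E.toAffine.Point} (hR : addOrderOf R = 25) : E.IsModular := by
  have h5 : addOrderOf ((5 : ℕ) • R) = 5 := by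
    rw [addOrderOf_nsmul_of_dvd (by norm_num) (by rw [hR]; norm_num), hR]
  exact isModular_of_order_five E h5 (locSemi_of_order_twentyfive hR)

end Fermat.Agent.Cor.Twist

end
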