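import Fermat.Agent.Corollaries.Twist.LargeMazur
import Fermat.Agent.Corollaries.Twist.TwentyFive
import Fermat.Agent.Corollaries.Twist.Thirteen
import Fermat.Agent.Corollaries.MT.Sharp

/-!
# Elliptic curves over `ℚ` with at least `12` rational torsion points are modular

`isModular_of_twelve_le`: every elliptic curve over `ℚ` with at least `12` rational torsion points is
modular.  No hypothesis on the reduction, on `j` or on the conductor.

By `MT.mazur_sharp` the torsion subgroup is `ℤ/12`, `ℤ/2 × ℤ/6` or `ℤ/2 × ℤ/8` (`Twist/Large`), or
there is a rational point of order `13` (`Twist/Thirteen`), `18` (`Twist/Eighteen`), `25`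
(`Twist/TwentyFive`) or `35` (`Twist/Eighteen`).  (By Mazur's theorem the last four orders do not
occur; this is not used, and it is not proved in this library.)
-/

set_option autoImplicit false

noncomputable section

open WeierstrassCurve

namespace Fermat.Agent.Cor.Twist

/-- **Every elliptic curve over `ℚ` with at least `12` rational torsion points is modular.** -/
theorem isModular_of_twelve_le (E : WeierstrassCurve ℚ) [E.IsElliptic]
    (h12 : 12 ≤ Nat.card (AddCommGroup.torsion E.toAffine.Point)) : E.IsModular := by
  rcases isModular_or_of_card_torsion E h12 with h | ⟨d, hd, P, hP⟩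
  · exact h
  · simp only [Set.mem_insert_iff, Set.mem_singleton_iff] at hd
    rcases hd with rfl | rfl | rfl | rfl | rfl
    · exact isModular_of_prime_order E (by norm_num : Nat.Prime 13) (by norm_num) hP
    · exact isModular_of_order_eighteen E hP
    · exact absurd hP (MT.addOrderOf_ne_twentyone E.isUnit_Δ.ne_zero P)
    · exact isModular_of_order_twentyfive E hP
    · exact isModular_of_order_thirtyfive E hP

end Fermat.Agent.Cor.Twist

end
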