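import Fermat.Agent.Corollaries.Twist.Main
import Fermat.Agent.Classic.Level.Final

/-!
# Modularity of the quadratic twists of semistable elliptic curves

* `isModular_quadTwist_of_semistable`: every quadratic twist of a semistable elliptic curve over
  `ℚ` is modular;
* `isModular_of_j_eq_semistable`: an elliptic curve over `ℚ` with the `j`-invariant
  (`≠ 0, 1728`) of a semistable curve is modular.
-/

set_option autoImplicit false

noncomputable section

open WeierstrassCurve

namespace Fermat.Agent.Cor.Twist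

/-- **Every curve with `c₄' = d² c₄`, `c₆' = d³ c₆` for a semistable curve is modular.** -/
theorem isModular_of_semistable_c₄_c₆ {W : WeierstrassCurve ℤ} (hΔ : W.Δ ≠ 0)
    (hW : W.IsSemistableModel) {E : WeierstrassCurve ℚ} {d : ℚ} (hd : d ≠ 0)
    (h4 : E.c₄ = d ^ 2 * (W.c₄ : ℚ)) (h6 : E.c₆ = d ^ 3 * (W.c₆ : ℚ)) : E.IsModular :=
  isModular_of_c₄_c₆ (Classic.isModular_of_semistable W hΔ hW) hd
    (by rw [h4, WeierstrassCurve.map_c₄, eq_intCast])
    (by rw [h6, WeierstrassCurve.map_c₆, eq_intCast])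

/-- **Every quadratic twist of a semistable elliptic curve over `ℚ` is modular.** -/
theorem isModular_quadTwist_of_semistable (W : WeierstrassCurve ℤ) (hΔ : W.Δ ≠ 0)
    (hW : W.IsSemistableModel) {d : ℚ} (hd : d ≠ 0) :
    (quadTwist (W.map (Int.castRingHom ℚ)) d).IsModular :=
  isModular_quadTwist (Classic.isModular_of_semistable W hΔ hW) hd

/-- **An elliptic curve over `ℚ` with the `j`-invariant (`≠ 0, 1728`) of a semistable curve is
modular.** -/
theorem isModular_of_j_eq_semistable (W : WeierstrassCurve ℤ) (hW : W.IsSemistableModel)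
    [(W.map (Int.castRingHom ℚ)).IsElliptic] {E : WeierstrassCurve ℚ} [E.IsElliptic]
    (hj : (W.map (Int.castRingHom ℚ)).j = E.j) (h0 : E.j ≠ 0) (h1728 : E.j ≠ 1728) :
    E.IsModular := by
  have hΔ : W.Δ ≠ 0 := by
    intro h
    have h1 : (W.map (Int.castRingHom ℚ)).Δ ≠ 0 :=
      (W.map (Int.castRingHom ℚ)).coe_Δ' ▸ (W.map (Int.castRingHom ℚ)).Δ'.ne_zero
    rw [WeierstrassCurve.map_Δ, h, map_zero] at h1
    exact h1 rfl
  exact isModular_of_j_eq hj (hj ▸ h0) (hj ▸ h1728) (Classic.isModular_of_semistable W hΔ hW)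

end Fermat.Agent.Cor.Twist

end
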