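import Fermat.Agent.Corollaries.Twist.Kraus
import Fermat.Agent.Corollaries.Twist.Semistable

/-!
# Modularity of the curves which are semistable up to local quadratic twists

`isModular_of_locSemi`: if an elliptic curve `E` over `ℚ` becomes semistable at `p` after a
quadratic twist over `ℚ_p`, for every prime `p`, then `E` is modular: `E` is then a quadratic
twist over `ℚ` of a semistable elliptic curve.
-/

set_option autoImplicit false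

noncomputable section

open WeierstrassCurve

namespace Fermat.Agent.Cor.Twist

/-! ### The integral twist by `1 + 4 e` -/

section IntTwist

variable {R : Type*} [CommRing R] (V : WeierstrassCurve R) (e : R)

/-- The quadratic twist by `w = 1 + 4 e`. -/
def intTwist : WeierstrassCurve R where
  a₁ := V.a₁
  a₂ := (1 + 4 * e) * V.a₂ + e * V.a₁ ^ 2
  a₃ := V.a₃
  a₄ := (1 + 4 * e) ^ 2 * V.a₄ + (8 * e ^ 2 + 4 * e) * (V.a₁ * V.a₃)
  a₆ := (1 + 4 * e) ^ 3 * V.a₆ + (3 * e + 12 * e ^ 2 + 16 * e ^ 3) * V.a₃ ^ 2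

theorem intTwist_c₄ : (intTwist V e).c₄ = (1 + 4 * e) ^ 2 * V.c₄ := by
  simp only [intTwist, WeierstrassCurve.c₄, WeierstrassCurve.b₂, WeierstrassCurve.b₄]
  ring

theorem intTwist_c₆ : (intTwist V e).c₆ = (1 + 4 * e) ^ 3 * V.c₆ := by
  simp only [intTwist, WeierstrassCurve.c₆, WeierstrassCurve.b₂, WeierstrassCurve.b₄,
    WeierstrassCurve.b₆]
  ring

theorem intTwist_Δ : (intTwist V e).Δ = (1 + 4 * e) ^ 6 * V.Δ := by
  simp only [intTwist, WeierstrassCurve.Δ, WeierstrassCurve.b₂, WeierstrassCurve.b₄,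
    WeierstrassCurve.b₆, WeierstrassCurve.b₈]
  ring

end IntTwist

/-! ### The local condition -/

/-- `E` is semistable at `p` up to a quadratic twist over `ℚ_p`: there are `d ≠ 0` in `ℚ_p` and a
Weierstrass curve `V` over `ℤ_p`, with `Δ` or `c₄` a unit, such that `c₄(V) = d² c₄(E)` and
`c₆(V) = d³ c₆(E)`. -/
def LocSemi (p : ℕ) [Fact p.Prime] (E : WeierstrassCurve ℚ) : Prop :=
  ∃ (d : ℚ_[p]) (V : WeierstrassCurve ℤ_[p]), d ≠ 0 ∧
    (V.c₄ : ℚ_[p]) = d ^ 2 * (E.c₄ : ℚ_[p]) ∧ (V.c₆ : ℚ_[p]) = d ^ 3 * (E.c₆ : ℚ_[p]) ∧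
    (IsUnit V.Δ ∨ IsUnit V.c₄)

/-- If a quadratic twist over `ℚ_p` of `E` has a semistable model over `ℤ_p` then `LocSemi p E`. -/
theorem locSemi_of_quadTwist {p : ℕ} [Fact p.Prime] {E : WeierstrassCurve ℚ} {d : ℚ_[p]}
    (hd : d ≠ 0) {C : VariableChange ℚ_[p]} {V : WeierstrassCurve ℤ_[p]}
    (hV : C • quadTwist (E.map (Rat.castHom ℚ_[p])) d = V.map PadicInt.Coe.ringHom)
    (h : IsUnit V.Δ ∨ IsUnit V.c₄) : LocSemi p E := by
  have hu : ((C.u⁻¹ : (ℚ_[p])ˣ) : ℚ_[p]) ≠ 0 := C.u⁻¹.ne_zero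
  set u := ((C.u⁻¹ : (ℚ_[p])ˣ) : ℚ_[p]) with hu'
  have e4 : (V.c₄ : ℚ_[p]) = (V.map PadicInt.Coe.ringHom).c₄ := by
    rw [WeierstrassCurve.map_c₄]
    rfl
  have e6 : (V.c₆ : ℚ_[p]) = (V.map PadicInt.Coe.ringHom).c₆ := by
    rw [WeierstrassCurve.map_c₆]
    rfl
  refine ⟨4 * d * u ^ 2, V, mul_ne_zero (mul_ne_zero (by norm_num) hd) (pow_ne_zero _ hu), ?_, ?_,
    h⟩
  · rw [e4, ← hV, variableChange_c₄, quadTwist_c₄, WeierstrassCurve.map_c₄, eq_ratCast]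
    ring
  · rw [e6, ← hV, variableChange_c₆, quadTwist_c₆, WeierstrassCurve.map_c₆, eq_ratCast]
    ring

/-! ### Almost all primes -/

/-- The primes outside of which `E` is integral with unit discriminant. -/
theorem exists_finset (E : WeierstrassCurve ℚ) (hΔ : E.Δ ≠ 0) : ∃ S : Finset ℕ,
    ∀ (p : ℕ) [Fact p.Prime], p ∉ S → ∃ V : WeierstrassCurve ℤ_[p],
      (V.c₄ : ℚ_[p]) = (E.c₄ : ℚ_[p]) ∧ (V.c₆ : ℚ_[p]) = (E.c₆ : ℚ_[p]) ∧ IsUnit V.Δ := by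
  refine ⟨E.a₁.den.primeFactors ∪ E.a₂.den.primeFactors ∪ E.a₃.den.primeFactors ∪
    E.a₄.den.primeFactors ∪ E.a₆.den.primeFactors ∪ E.Δ.den.primeFactors ∪
    E.Δ.num.natAbs.primeFactors, fun p hp hS => ?_⟩
  have hpp : p.Prime := hp.out
  simp only [Finset.mem_union, Nat.mem_primeFactors, hpp, true_and, ne_eq, Rat.den_ne_zero,
    not_false_eq_true, and_true, not_or, Int.natAbs_eq_zero, Rat.num_eq_zero, hΔ] at hS
  obtain ⟨⟨⟨⟨⟨⟨h1, h2⟩, h3⟩, h4⟩, h6⟩, hd⟩, hn⟩ := hS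
  set V : WeierstrassCurve ℤ_[p] := ⟨⟨(E.a₁ : ℚ_[p]), Padic.norm_rat_le_one h1⟩,
    ⟨(E.a₂ : ℚ_[p]), Padic.norm_rat_le_one h2⟩, ⟨(E.a₃ : ℚ_[p]), Padic.norm_rat_le_one h3⟩,
    ⟨(E.a₄ : ℚ_[p]), Padic.norm_rat_le_one h4⟩, ⟨(E.a₆ : ℚ_[p]), Padic.norm_rat_le_one h6⟩⟩
    with hV
  have hmap : V.map PadicInt.Coe.ringHom = E.map (Rat.castHom ℚ_[p]) := rfl
  have e4 : (V.c₄ : ℚ_[p]) = (E.c₄ : ℚ_[p]) := by
    have h := congrArg WeierstrassCurve.c₄ hmap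
    rw [WeierstrassCurve.map_c₄, WeierstrassCurve.map_c₄] at h
    exact h
  have e6 : (V.c₆ : ℚ_[p]) = (E.c₆ : ℚ_[p]) := by
    have h := congrArg WeierstrassCurve.c₆ hmap
    rw [WeierstrassCurve.map_c₆, WeierstrassCurve.map_c₆] at h
    exact h
  have eΔ : (V.Δ : ℚ_[p]) = (E.Δ : ℚ_[p]) := by
    have h := congrArg WeierstrassCurve.Δ hmap
    rw [WeierstrassCurve.map_Δ, WeierstrassCurve.map_Δ] at h
    exact h
  refine ⟨V, e4, e6, ?_⟩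
  rw [PadicInt.isUnit_iff, PadicInt.norm_def, eΔ]
  have h7 : (E.Δ : ℚ_[p]) = ((E.Δ.num : ℤ) : ℚ_[p]) / ((E.Δ.den : ℕ) : ℚ_[p]) := by
    rw [Rat.cast_def]
  rw [h7, norm_div, Padic.norm_natCast_eq_one_iff.2 ((Nat.Prime.coprime_iff_not_dvd hpp).2 hd),
    div_one, Padic.norm_intCast_eq_one_iff]
  rw [Int.isCoprime_iff_gcd_eq_one]
  have h8 := (Nat.Prime.coprime_iff_not_dvd hpp).2 hn
  rw [Int.gcd_comm]
  exact h8

end Fermat.Agent.Cor.Twist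

end
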