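import Fermat.Agent.Corollaries.Twist.CuspTwist
import Fermat.Agent.Corollaries.Twist.Ap
import Fermat.Agent.Corollaries.Twist.Chi

/-!
# Modularity is invariant under quadratic twists

* `isModularModel_quadTwist`, `isModular_quadTwist`: the quadratic twists of a modular elliptic
  curve are modular;
* `isModular_of_c₄_c₆`, `isModular_iff_of_j_eq`: modularity depends only on the `j`-invariant
  when `j ≠ 0, 1728`.
-/

set_option autoImplicit false

noncomputable section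

open WeierstrassCurve CongruenceSubgroup ModularFormClass CuspForm

namespace Fermat.Agent.Cor.Twist

/-! ### Integral models -/

/-- **Modularity of an integral model passes to its quadratic twists.** -/
theorem isModularModelOfLevel_quadTwist {W : WeierstrassCurve ℤ} {N : ℕ} (hN : 0 < N)
    (h : W.IsModularModelOfLevel N) {d : ℤ} (hd : d ≠ 0) :
    (quadTwist W d).IsModularModelOfLevel (4 * d.natAbs * (4 * d.natAbs * N)) := by
  have hN' : NeZero N := ⟨hN.ne'⟩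
  have hD := neZero_mod hd
  obtain ⟨f, hf, hfW⟩ := h
  obtain ⟨g, hg, hgf⟩ := exists_eigenform_twist (N := N) (chiD_sq hd) hf
  refine ⟨g, hg, fun p hp hgood hpN => ?_⟩
  have hpF : Fact p.Prime := ⟨hp⟩
  obtain ⟨hp2, hpd, hpW⟩ := isGoodPrimeFor_quadTwist W hp hgood
  rw [hgf, chiD_prime hd fun h => hpN (h.mul_right _),
    hfW p hp hpW fun h => hpN ((h.mul_left _).mul_left _), apOfModel_quadTwist W hp2 hpd hpW,
    Int.cast_mul]

theorem isModularModel_quadTwist {W : WeierstrassCurve ℤ} (h : W.IsModularModel) {d : ℤ}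
    (hd : d ≠ 0) : (quadTwist W d).IsModularModel := by
  obtain ⟨N, hN, hW⟩ := h
  exact ⟨_, Nat.mul_pos (Nat.pos_of_ne_zero (neZero_mod hd).out)
    (Nat.mul_pos (Nat.pos_of_ne_zero (neZero_mod hd).out) hN),
    isModularModelOfLevel_quadTwist hN hW hd⟩

/-! ### Curves with the same `c₄` and `c₆` -/

section Iso

variable {F : Type*} [Field F] [CharZero F]

/-- Two Weierstrass curves with the same `c₄` and `c₆` are isomorphic. -/
theorem exists_variableChange_of_c₄_c₆ {E E' : WeierstrassCurve F} (h4 : E.c₄ = E'.c₄)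
    (h6 : E.c₆ = E'.c₆) : ∃ C : VariableChange F, C • E = E' := by
  have i2 : Invertible (2 : F) := invertibleOfNonzero (by norm_num)
  have i3 : Invertible (3 : F) := invertibleOfNonzero (by norm_num)
  have hu : ∀ V : WeierstrassCurve F, V.toShortNF.u = 1 := fun V => by
    simp [toShortNF, toCharNeTwoNF, VariableChange.mul_def]
  have key : ∀ V : WeierstrassCurve F, (V.toShortNF • V).c₄ = V.c₄ ∧
      (V.toShortNF • V).c₆ = V.c₆ := fun V => by
    rw [variableChange_c₄, variableChange_c₆, hu]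
    simp
  have k1 := key E
  have k2 := key E'
  have s1 := E.toShortNF_spec
  have s2 := E'.toShortNF_spec
  have h48 : (48 : F) ≠ 0 := by norm_num
  have h864 : (864 : F) ≠ 0 := by norm_num
  have e4 : (E.toShortNF • E).a₄ = (E'.toShortNF • E').a₄ := by
    have h1 := (E.toShortNF • E).c₄_of_isShortNF
    have h2 := (E'.toShortNF • E').c₄_of_isShortNF
    apply mul_left_cancel₀ h48
    linear_combination h1 - h2 - k1.1 + k2.1 - h4
  have e6 : (E.toShortNF • E).a₆ = (E'.toShortNF • E').a₆ := by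
    have h1 := (E.toShortNF • E).c₆_of_isShortNF
    have h2 := (E'.toShortNF • E').c₆_of_isShortNF
    apply mul_left_cancel₀ h864
    linear_combination h1 - h2 - k1.2 + k2.2 - h6
  have e : E.toShortNF • E = E'.toShortNF • E' := by
    ext
    · rw [s1.a₁, s2.a₁]
    · rw [s1.a₂, s2.a₂]
    · rw [s1.a₃, s2.a₃]
    · exact e4
    · exact e6
  exact ⟨E'.toShortNF⁻¹ * E.toShortNF, by rw [mul_smul, e, inv_smul_smul]⟩

/-- A curve with `c₄' = d² c₄`, `c₆' = d³ c₆` is isomorphic to the twists by `d k²`. -/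
theorem exists_variableChange_quadTwist {E E' : WeierstrassCurve F} {d : F}
    (h4 : E'.c₄ = d ^ 2 * E.c₄) (h6 : E'.c₆ = d ^ 3 * E.c₆) {k : F} (hk : k ≠ 0) :
    ∃ C : VariableChange F, C • E' = quadTwist E (d * k ^ 2) := by
  have h2k : (2 * k)⁻¹ ≠ 0 := inv_ne_zero (mul_ne_zero two_ne_zero hk)
  let C₀ : VariableChange F := ⟨Units.mk0 (2 * k)⁻¹ h2k, 0, 0, 0⟩
  have hu : ((C₀.u⁻¹ : Fˣ) : F) = 2 * k := by
    rw [Units.val_inv_eq_inv_val]
    exact inv_inv (2 * k)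
  obtain ⟨C, hC⟩ := exists_variableChange_of_c₄_c₆ (E := C₀ • E') (E' := quadTwist E (d * k ^ 2))
    (by
      rw [variableChange_c₄, hu, h4, quadTwist_c₄]
      ring)
    (by
      rw [variableChange_c₆, hu, h6, quadTwist_c₆]
      ring)
  exact ⟨C * C₀, by rw [mul_smul, hC]⟩

end Iso

/-! ### Curves over `ℚ` -/

/-- **Modularity is invariant under quadratic twists** (in terms of `c₄`, `c₆`). -/
theorem isModular_of_c₄_c₆ {E E' : WeierstrassCurve ℚ} (hE : E.IsModular) {d : ℚ} (hd : d ≠ 0)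
    (h4 : E'.c₄ = d ^ 2 * E.c₄) (h6 : E'.c₆ = d ^ 3 * E.c₆) : E'.IsModular := by
  obtain ⟨W, ⟨C, hC⟩, hW⟩ := hE
  set v : ℚ := ((C.u : ℚˣ) : ℚ) with hv
  have hv0 : v ≠ 0 := C.u.ne_zero
  have hvi : ((C.u⁻¹ : ℚˣ) : ℚ) = v⁻¹ := Units.val_inv_eq_inv_val _
  have w4 : (W.map (Int.castRingHom ℚ)).c₄ = v⁻¹ ^ 4 * E.c₄ := by
    rw [← hC, variableChange_c₄, hvi]
  have w6 : (W.map (Int.castRingHom ℚ)).c₆ = v⁻¹ ^ 6 * E.c₆ := by
    rw [← hC, variableChange_c₆, hvi]
  set d' : ℚ := d * v ^ 2 with hd'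
  have hd'0 : d' ≠ 0 := mul_ne_zero hd (pow_ne_zero _ hv0)
  have h4' : E'.c₄ = d' ^ 2 * (W.map (Int.castRingHom ℚ)).c₄ := by
    rw [h4, w4, hd']
    field_simp
  have h6' : E'.c₆ = d' ^ 3 * (W.map (Int.castRingHom ℚ)).c₆ := by
    rw [h6, w6, hd']
    field_simp
  have hk : (d'.den : ℚ) ≠ 0 := by exact_mod_cast d'.den_ne_zero
  obtain ⟨C', hC'⟩ := exists_variableChange_quadTwist h4' h6' hk
  have hn : d' * (d'.den : ℚ) ^ 2 = (((d'.num * d'.den : ℤ)) : ℚ) := by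
    push_cast
    have h1 := Rat.mul_den_eq_num d'
    rw [sq, ← mul_assoc, h1]
  have hn0 : d'.num * (d'.den : ℤ) ≠ 0 :=
    mul_ne_zero (Rat.num_ne_zero.mpr hd'0) (by exact_mod_cast d'.den_ne_zero)
  refine ⟨quadTwist W (d'.num * d'.den), ⟨C', ?_⟩, isModularModel_quadTwist hW hn0⟩
  rw [hC', hn, map_quadTwist]
  rfl

/-- **The quadratic twists of a modular elliptic curve are modular.** -/
theorem isModular_quadTwist {E : WeierstrassCurve ℚ} (hE : E.IsModular) {d : ℚ} (hd : d ≠ 0) :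
    (quadTwist E d).IsModular :=
  isModular_of_c₄_c₆ hE (d := 4 * d) (mul_ne_zero (by norm_num) hd)
    (by rw [quadTwist_c₄]; ring) (by rw [quadTwist_c₆]; ring)

/-- **Modularity depends only on the `j`-invariant**, if `j ≠ 0, 1728`. -/
theorem isModular_of_j_eq {E E' : WeierstrassCurve ℚ} [E.IsElliptic] [E'.IsElliptic]
    (hj : E.j = E'.j) (h0 : E.j ≠ 0) (h1728 : E.j ≠ 1728) (hE : E.IsModular) : E'.IsModular := by
  have hΔ : E.Δ ≠ 0 := E.coe_Δ' ▸ E.Δ'.ne_zero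
  have hΔ' : E'.Δ ≠ 0 := E'.coe_Δ' ▸ E'.Δ'.ne_zero
  have j1 : ∀ (V : WeierstrassCurve ℚ) [V.IsElliptic], V.Δ ≠ 0 → V.j * V.Δ = V.c₄ ^ 3 :=
    fun V _ h => by
      rw [WeierstrassCurve.j, Units.val_inv_eq_inv_val, V.coe_Δ']
      field_simp
  have j2 : ∀ (V : WeierstrassCurve ℚ) [V.IsElliptic], V.Δ ≠ 0 →
      (V.j - 1728) * V.Δ = V.c₆ ^ 2 := fun V _ h => by
    have h1 := V.c_relation
    have h2 := j1 V h
    linear_combination h2 - h1
  have a4 : E.c₄ ≠ 0 := fun h => h0 (E.j_eq_zero h)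
  have a6 : E.c₆ ≠ 0 := fun h => by
    have h1 := j2 E hΔ
    rw [h, zero_pow two_ne_zero] at h1
    exact h1728 (sub_eq_zero.1 ((mul_eq_zero.1 h1).resolve_right hΔ))
  have b4 : E'.c₄ ≠ 0 := fun h => h0 (hj.trans (E'.j_eq_zero h))
  have b6 : E'.c₆ ≠ 0 := fun h => by
    have h1 := j2 E' hΔ'
    rw [h, zero_pow two_ne_zero] at h1
    exact h1728 (hj.trans (sub_eq_zero.1 ((mul_eq_zero.1 h1).resolve_right hΔ')))
  have hrel : E.c₄ ^ 3 * E'.c₆ ^ 2 = E'.c₄ ^ 3 * E.c₆ ^ 2 := by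
    rw [← j1 E hΔ, ← j1 E' hΔ', ← j2 E hΔ, ← j2 E' hΔ', hj]
    ring
  set d : ℚ := E.c₄ * E'.c₆ / (E'.c₄ * E.c₆) with hd
  have hd0 : d ≠ 0 := div_ne_zero (mul_ne_zero a4 b6) (mul_ne_zero b4 a6)
  have h4 : E'.c₄ = d ^ 2 * E.c₄ := by
    rw [hd]
    field_simp
    linear_combination -hrel
  refine isModular_of_c₄_c₆ hE hd0 h4 ?_
  have h5 : d ^ 3 * E.c₆ = (d ^ 2 * E.c₄) * (d * E.c₆) / E.c₄ := by
    field_simp
  rw [h5, ← h4, hd]
  field_simp

/-- Modularity depends only on the `j`-invariant, if `j ≠ 0, 1728`. -/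
theorem isModular_iff_of_j_eq {E E' : WeierstrassCurve ℚ} [E.IsElliptic] [E'.IsElliptic]
    (hj : E.j = E'.j) (h0 : E.j ≠ 0) (h1728 : E.j ≠ 1728) : E.IsModular ↔ E'.IsModular :=
  ⟨isModular_of_j_eq hj h0 h1728, isModular_of_j_eq hj.symm (hj ▸ h0) (hj ▸ h1728)⟩

end Fermat.Agent.Cor.Twist

end
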