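import Fermat.Agent.Corollaries.Twist.Nine

/-!
# The local condition in terms of Mathlib's reduction types

* `locSemi_iff`: `LocSemi p E` if and only if, for some `d ≠ 0` in `ℚ_p`, a minimal equation of the
  quadratic twist of `E` by `d` over `ℤ_p` does not have additive reduction;
* `isModular_of_twist_reduction`: an elliptic curve over `ℚ` with this property for every prime `p`
  is modular;
* `isModular_of_torsion_reduction`: an elliptic curve over `ℚ` with a rational point of order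
  `n = 4, 5, 6, 7, 8, 9, 10` or `12`, which does not have additive reduction at the primes dividing
  `n`, is modular.
-/

set_option autoImplicit false

noncomputable section

open WeierstrassCurve

namespace Fermat.Agent.Cor.Twist

open IsDedekindDomain.HeightOneSpectrum

variable {p : ℕ} [hp : Fact p.Prime]

local notation "v" => valuation ℚ_[p] (IsDiscreteValuationRing.maximalIdeal ℤ_[p])

theorem isUnit_iff_valuation (x : ℤ_[p]) : IsUnit x ↔ ¬ v (x : ℚ_[p]) < 1 := by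
  have e : (x : ℚ_[p]) = algebraMap ℤ_[p] ℚ_[p] x := rfl
  rw [e, valuation_lt_one_iff_mem]
  change _ ↔ ¬ x ∈ IsLocalRing.maximalIdeal ℤ_[p]
  rw [IsLocalRing.mem_maximalIdeal, mem_nonunits_iff, not_not]

theorem valuation_coe_le_one (x : ℤ_[p]) : v (x : ℚ_[p]) ≤ 1 := by
  have e : (x : ℚ_[p]) = algebraMap ℤ_[p] ℚ_[p] x := rfl
  rw [e]
  exact valuation_le_one _ _

/-- A minimal equation at `p` of the quadratic twist of `E` by `d`. -/
abbrev minTwist (E : WeierstrassCurve ℚ) (d : ℚ_[p]) : WeierstrassCurve ℚ_[p] :=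
  (quadTwist (E.map (algebraMap ℚ ℚ_[p])) d).minimal ℤ_[p]

theorem locSemi_of_not_additive {E : WeierstrassCurve ℚ} {d : ℚ_[p]} (hd : d ≠ 0)
    (h : ¬ (minTwist E d).HasAdditiveReduction ℤ_[p]) : LocSemi p E := by
  set F : WeierstrassCurve ℚ_[p] := minTwist E d with hF
  obtain ⟨C, hC⟩ : ∃ C : VariableChange ℚ_[p], C • quadTwist (E.map (algebraMap ℚ ℚ_[p])) d = F :=
    ⟨_, rfl⟩
  set V : WeierstrassCurve ℤ_[p] := integralModel ℤ_[p] F with hV
  have hVF : V.map (algebraMap ℤ_[p] ℚ_[p]) = F := baseChange_integralModel_eq ℤ_[p] F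
  refine locSemi_of_quadTwist hd (C := C) (V := V) ?_ ?_
  · have e : Rat.castHom ℚ_[p] = algebraMap ℚ ℚ_[p] := Subsingleton.elim _ _
    rw [e, hC, ← hVF]
    rfl
  · rw [hasAdditiveReduction_iff] at h
    by_contra hcon
    rw [not_or, isUnit_iff_valuation, isUnit_iff_valuation, not_not, not_not] at hcon
    refine h ⟨inferInstance, ?_, ?_⟩
    · rw [← hVF, WeierstrassCurve.map_Δ]
      exact hcon.1
    · rw [← hVF, WeierstrassCurve.map_c₄]
      exact hcon.2

/-- The discriminant of a minimal equation has the largest valuation. -/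
theorem le_valuation_Δ_minimal {W F : WeierstrassCurve ℚ_[p]} {C : VariableChange ℚ_[p]}
    (hF : F.IsMinimal ℤ_[p]) (hC : C • F = W) (hW : W.IsIntegral ℤ_[p]) : v W.Δ ≤ v F.Δ := by
  have h1 := hF.val_Δ_maximal
  have hFi : F.IsIntegral ℤ_[p] := inferInstance
  have h2 : (C • F).IsIntegral ℤ_[p] := by rw [hC]; exact hW
  have h3 := h1.2 h2
  have h4 : valuation_Δ_aux ℤ_[p] (C • F) ≤
      valuation_Δ_aux ℤ_[p] ((1 : VariableChange ℚ_[p]) • F) := by
    rcases le_total (valuation_Δ_aux ℤ_[p] ((1 : VariableChange ℚ_[p]) • F))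
      (valuation_Δ_aux ℤ_[p] (C • F)) with h | h
    · exact h3 h
    · exact h
  rw [one_smul, hC] at h4
  have h5 : (valuation_Δ_aux ℤ_[p] W : WithZero (Multiplicative ℤ)) ≤
      (valuation_Δ_aux ℤ_[p] F : WithZero (Multiplicative ℤ)) := h4
  rwa [valuation_Δ_aux_eq_of_isIntegral, valuation_Δ_aux_eq_of_isIntegral] at h5

theorem exists_not_additive {E : WeierstrassCurve ℚ} (hΔ : E.Δ ≠ 0) (h : LocSemi p E) :
    ∃ d : ℚ_[p], d ≠ 0 ∧ ¬ (minTwist E d).HasAdditiveReduction ℤ_[p] := by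
  obtain ⟨d, V, hd, h4, h6, hu⟩ := h
  refine ⟨d / 4, div_ne_zero hd (by norm_num), fun hadd => ?_⟩
  set Q : WeierstrassCurve ℚ_[p] := quadTwist (E.map (algebraMap ℚ ℚ_[p])) (d / 4) with hQ
  set F : WeierstrassCurve ℚ_[p] := minTwist E (d / 4) with hF
  set V' : WeierstrassCurve ℚ_[p] := V.map (algebraMap ℤ_[p] ℚ_[p]) with hV'
  have hm4 : (E.map (algebraMap ℚ ℚ_[p])).c₄ = (E.c₄ : ℚ_[p]) := by
    rw [WeierstrassCurve.map_c₄, eq_ratCast]
  have hm6 : (E.map (algebraMap ℚ ℚ_[p])).c₆ = (E.c₆ : ℚ_[p]) := by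
    rw [WeierstrassCurve.map_c₆, eq_ratCast]
  have e4 : Q.c₄ = V'.c₄ := by
    rw [hQ, quadTwist_c₄, hm4, hV', WeierstrassCurve.map_c₄]
    change _ = (V.c₄ : ℚ_[p])
    rw [h4]
    ring
  have e6 : Q.c₆ = V'.c₆ := by
    rw [hQ, quadTwist_c₆, hm6, hV', WeierstrassCurve.map_c₆]
    change _ = (V.c₆ : ℚ_[p])
    rw [h6]
    ring
  obtain ⟨C₁, hC₁⟩ := exists_variableChange_of_c₄_c₆ e4 e6
  obtain ⟨C₂, hC₂⟩ : ∃ C : VariableChange ℚ_[p], C • Q = F := ⟨_, rfl⟩
  -- `V' = C • F`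
  have hC : (C₁ * C₂⁻¹) • F = V' := by
    rw [← hC₂, ← mul_smul, mul_assoc, inv_mul_cancel, mul_one, hC₁]
  have hVi : V'.IsIntegral ℤ_[p] := ⟨V, rfl⟩
  have hle := le_valuation_Δ_minimal (F := F) inferInstance hC hVi
  have hVΔ : V'.Δ = (V.Δ : ℚ_[p]) := by
    rw [hV', WeierstrassCurve.map_Δ]
    rfl
  have hVc : V'.c₄ = (V.c₄ : ℚ_[p]) := by
    rw [hV', WeierstrassCurve.map_c₄]
    rfl
  have h1 := hadd.badReduction
  have h2 := hadd.additiveReduction
  rcases hu with hu | hu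
  · rw [isUnit_iff_valuation, ← hVΔ] at hu
    exact hu (hle.trans_lt h1)
  · -- `u = C.u⁻¹`: `Δ(V') = u¹² Δ(F)`, `c₄(V') = u⁴ c₄(F)`
    have hF0 : F.Δ ≠ 0 := by
      rw [← hC₂, variableChange_Δ, hQ, quadTwist_Δ, WeierstrassCurve.map_Δ, eq_ratCast]
      refine mul_ne_zero (pow_ne_zero _ (Units.ne_zero _)) (mul_ne_zero (mul_ne_zero (by norm_num)
        (pow_ne_zero _ (div_ne_zero hd (by norm_num)))) (by exact_mod_cast hΔ))
    have hvF0 : 0 < v F.Δ := zero_lt_iff.2 ((Valuation.ne_zero_iff _).2 hF0)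
    rw [← hC, variableChange_Δ, map_mul, map_pow] at hle
    set w := v ((((C₁ * C₂⁻¹).u⁻¹ : (ℚ_[p])ˣ)) : ℚ_[p]) with hw
    have hw1 : w ≤ 1 := by
      by_contra hcon
      have h5 : 1 < w ^ 12 := one_lt_pow₀ (not_le.1 hcon) (by norm_num)
      have h6 : v F.Δ < w ^ 12 * v F.Δ := lt_mul_of_one_lt_left hvF0 h5
      exact absurd hle (not_le.2 h6)
    rw [isUnit_iff_valuation, ← hVc, ← hC, variableChange_c₄, map_mul, map_pow] at hu
    refine hu ((mul_le_of_le_one_left' (pow_le_one' hw1 4)).trans_lt h2)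

/-- **The local condition in terms of the reduction type.** -/
theorem locSemi_iff {E : WeierstrassCurve ℚ} (hΔ : E.Δ ≠ 0) : LocSemi p E ↔
    ∃ d : ℚ_[p], d ≠ 0 ∧ ¬ (minTwist E d).HasAdditiveReduction ℤ_[p] :=
  ⟨exists_not_additive hΔ, fun ⟨_, hd, h⟩ => locSemi_of_not_additive hd h⟩

/-- **An elliptic curve over `ℚ` which, for every prime `p`, has a quadratic twist over `ℚ_p`
without additive reduction, is modular.** -/
theorem isModular_of_twist_reduction (E : WeierstrassCurve ℚ) [E.IsElliptic]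
    (h : ∀ (p : ℕ) [Fact p.Prime], ∃ d : ℚ_[p], d ≠ 0 ∧
      ¬ ((quadTwist (E.map (algebraMap ℚ ℚ_[p])) d).minimal ℤ_[p]).HasAdditiveReduction ℤ_[p]) :
    E.IsModular :=
  isModular_of_locSemi (Δ_ne_zero E) fun p _ => (locSemi_iff (Δ_ne_zero E)).2 (h p)

theorem locSemi_of_minimal {E : WeierstrassCurve ℚ}
    (h : ¬ ((E.map (algebraMap ℚ ℚ_[p])).minimal ℤ_[p]).HasAdditiveReduction ℤ_[p]) :
    LocSemi p E := by
  set F : WeierstrassCurve ℚ_[p] := (E.map (algebraMap ℚ ℚ_[p])).minimal ℤ_[p] with hF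
  obtain ⟨C, hC⟩ : ∃ C : VariableChange ℚ_[p], C • E.map (algebraMap ℚ ℚ_[p]) = F := ⟨_, rfl⟩
  set V : WeierstrassCurve ℤ_[p] := integralModel ℤ_[p] F with hV
  have hVF : V.map (algebraMap ℤ_[p] ℚ_[p]) = F := baseChange_integralModel_eq ℤ_[p] F
  have hu : ((C.u⁻¹ : (ℚ_[p])ˣ) : ℚ_[p]) ≠ 0 := Units.ne_zero _
  refine ⟨((C.u⁻¹ : (ℚ_[p])ˣ) : ℚ_[p]) ^ 2, V, pow_ne_zero _ hu, ?_, ?_, ?_⟩
  · have e : (V.c₄ : ℚ_[p]) = (V.map (algebraMap ℤ_[p] ℚ_[p])).c₄ := by
      rw [WeierstrassCurve.map_c₄]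
      rfl
    rw [e, hVF, ← hC, variableChange_c₄, WeierstrassCurve.map_c₄, eq_ratCast]
    ring
  · have e : (V.c₆ : ℚ_[p]) = (V.map (algebraMap ℤ_[p] ℚ_[p])).c₆ := by
      rw [WeierstrassCurve.map_c₆]
      rfl
    rw [e, hVF, ← hC, variableChange_c₆, WeierstrassCurve.map_c₆, eq_ratCast]
    ring
  · rw [hasAdditiveReduction_iff] at h
    by_contra hcon
    rw [not_or, isUnit_iff_valuation, isUnit_iff_valuation, not_not, not_not] at hcon
    refine h ⟨inferInstance, ?_, ?_⟩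
    · rw [← hVF, WeierstrassCurve.map_Δ]
      exact hcon.1
    · rw [← hVF, WeierstrassCurve.map_c₄]
      exact hcon.2

/-- **An elliptic curve over `ℚ` with a rational torsion point of order `n`, divisible by `4`, `5`,
`6`, `7` or `9`, which does not have additive reduction at the primes dividing `n`, is modular.** -/
theorem isModular_of_torsion_reduction (E : WeierstrassCurve ℚ) [E.IsElliptic]
    {P : E.toAffine.Point} (h0 : addOrderOf P ≠ 0)
    (hn : 4 ∣ addOrderOf P ∨ 5 ∣ addOrderOf P ∨ 6 ∣ addOrderOf P ∨ 7 ∣ addOrderOf P ∨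
      9 ∣ addOrderOf P)
    (hE : ∀ (p : ℕ) [Fact p.Prime], p ∣ addOrderOf P →
      ¬ ((E.map (algebraMap ℚ ℚ_[p])).minimal ℤ_[p]).HasAdditiveReduction ℤ_[p]) :
    E.IsModular :=
  isModular_of_torsion E h0 hn fun p _ hp => locSemi_of_minimal (hE p hp)

end Fermat.Agent.Cor.Twist

end
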