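import Fermat.Agent.Corollaries.Twist.Ten

/-!
# Elliptic curves over `ℚ` with at least `7` rational torsion points

* `isModular_of_order_seven_of_val`: an elliptic curve over `ℚ` with a rational point of order `7` is
  modular, unless `v₇(j)` is `1`, `4`, `7`, `10`, ...;
* `isModular_of_seven_le`: an elliptic curve over `ℚ` with at least `7` rational torsion points is
  modular, unless `v₂(j) = 1, 2, 4`, or `v₃(j) = 1`, or `v₅(j) = 0` and `v₅(j - 1728)` is odd, or
  `v₇(j) = 1, 4, 7, ...`.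
-/

set_option autoImplicit false

noncomputable section

open WeierstrassCurve

namespace Fermat.Agent.Cor.Twist

attribute [local instance] fact_five fact_seven

variable {E : WeierstrassCurve ℚ}

theorem curve7_c₄_ne_zero {u v : ℤ} (h : IsCoprime u v) : (curve7 u v).c₄ ≠ 0 := by
  intro h0
  rw [curve7_c₄] at h0
  have h2 : ((u : ZMod 2)) ^ 8 + (u : ZMod 2) ^ 4 * (v : ZMod 2) ^ 4 + (v : ZMod 2) ^ 8 = 0 := by
    have h3 := congrArg (fun z : ℤ => (z : ZMod 2)) h0
    push_cast at h3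
    have two : (2 : ZMod 2) = 0 := by decide
    linear_combination h3 + (6 * (u : ZMod 2) ^ 7 * v - 21 * (u : ZMod 2) ^ 6 * v ^ 2 +
      28 * (u : ZMod 2) ^ 5 * v ^ 3 - 17 * (u : ZMod 2) ^ 4 * v ^ 4 + 7 * (u : ZMod 2) ^ 2 * v ^ 6 -
      2 * (u : ZMod 2) * v ^ 7) * two
  have key : ∀ a b : ZMod 2, a ^ 8 + a ^ 4 * b ^ 4 + b ^ 8 = 0 → a = 0 ∧ b = 0 := by decide
  obtain ⟨ha, hb⟩ := key _ _ h2
  exact Int.prime_two.not_isUnit (h.isUnit_of_dvd'
    (by exact_mod_cast (ZMod.intCast_zmod_eq_zero_iff_dvd u 2).1 ha)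
    (by exact_mod_cast (ZMod.intCast_zmod_eq_zero_iff_dvd v 2).1 hb))

/-- If `E` has a rational point of order `7` then `E` is semistable at `7` up to a local quadratic
twist, or `v₇(j) = 3 n + 1` with `n ≥ 0`. -/
theorem locSemi_or_of_order_seven [E.IsElliptic] {P : E.toAffine.Point} (hP : addOrderOf P = 7) :
    LocSemi 7 E ∨ ∃ n : ℕ, padicValRat 7 E.j = 3 * n + 1 := by
  obtain ⟨x, y, s, g, t, hT⟩ := exists_tate_seven hP
  have hg := hT.hg
  have hn0 : (t.den : ℚ) ≠ 0 := by exact_mod_cast t.den_ne_zero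
  have hm := num_eq t
  have e4 : ((curve7 t.num t.den).c₄ : ℚ) =
      (t.den : ℚ) ^ 8 * (tate (t ^ 3 - t ^ 2) (t ^ 2 - t)).c₄ := by
    simp only [curve7, tate, WeierstrassCurve.c₄, WeierstrassCurve.b₂, WeierstrassCurve.b₄]
    push_cast
    rw [hm]
    ring
  have e6 : ((curve7 t.num t.den).c₆ : ℚ) =
      (t.den : ℚ) ^ 12 * (tate (t ^ 3 - t ^ 2) (t ^ 2 - t)).c₆ := by
    simp only [curve7, tate, WeierstrassCurve.c₆, WeierstrassCurve.b₂, WeierstrassCurve.b₄,
      WeierstrassCurve.b₆]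
    push_cast
    rw [hm]
    ring
  have eΔ : ((curve7 t.num t.den).Δ : ℚ) =
      (t.den : ℚ) ^ 24 * (tate (t ^ 3 - t ^ 2) (t ^ 2 - t)).Δ := by
    simp only [curve7, tate, WeierstrassCurve.Δ, WeierstrassCurve.b₂, WeierstrassCurve.b₄,
      WeierstrassCurve.b₆, WeierstrassCurve.b₈]
    push_cast
    rw [hm]
    ring
  have hco := isCoprime_num_den t
  have hg12 : g ^ 12 ≠ 0 := pow_ne_zero _ hg
  have hj : E.j * ((curve7 t.num t.den).Δ : ℚ) = ((curve7 t.num t.den).c₄ : ℚ) ^ 3 := by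
    rw [e4, eΔ]
    have h1 := j_mul_Δ E
    rw [hT.c₄_eq, hT.Δ_eq] at h1
    apply mul_left_cancel₀ hg12
    linear_combination (t.den : ℚ) ^ 24 * h1
  have hc40 := curve7_c₄_ne_zero hco
  by_cases hbad : (7 : ℤ) ∣ t.num - 5 * t.den
  · right
    obtain ⟨k, hk⟩ := hbad
    set u : ℤ := t.num with hu'
    set v : ℤ := (t.den : ℤ) with hv'
    have hu : u = 5 * v + 7 * k := by linarith
    have p7 : Prime (7 : ℤ) := Int.prime_iff_natAbs_prime.2 (by norm_num)
    have hv7 : ¬ (7 : ℤ) ∣ v := fun h4 => p7.not_isUnit (hco.isUnit_of_dvd' (by omega) h4)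
    have hu7 : ¬ (7 : ℤ) ∣ u := fun h4 => hv7 (by omega)
    have huv7 : ¬ (7 : ℤ) ∣ u - v := fun h4 => hv7 (by omega)
    have hpow : ∀ n : ℕ, ¬ (7 : ℤ) ∣ v ^ n := fun n h => hv7 (p7.dvd_of_dvd_pow h)
    have h7c4 : (7 : ℤ) ∣ (curve7 u v).c₄ := by
      refine ⟨-6297 * v ^ 8 - 57636 * k * v ^ 7 - 147098 * k ^ 2 * v ^ 6 +
        205800 * k ^ 3 * v ^ 5 + 1932805 * k ^ 4 * v ^ 4 + 4571504 * k ^ 5 * v ^ 3 +
        5411854 * k ^ 6 * v ^ 2 + 3294172 * k ^ 7 * v + 823543 * k ^ 8, ?_⟩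
      rw [curve7_c₄, hu]
      ring
    have hD : (curve7 u v).Δ = 49 * (u ^ 7 * v ^ 7 * (u - v) ^ 7 *
        (-v ^ 3 + 7 * (k ^ 2 * v + k ^ 3))) := by
      have h7 : u ^ 3 - 8 * u ^ 2 * v + 5 * u * v ^ 2 + v ^ 3 =
          49 * (-v ^ 3 + 7 * (k ^ 2 * v + k ^ 3)) := by
        rw [hu]
        ring
      rw [curve7_Δ]
      linear_combination u ^ 7 * v ^ 7 * (u - v) ^ 7 * h7
    have hW7 : ¬ (7 : ℤ) ∣ u ^ 7 * v ^ 7 * (u - v) ^ 7 * (-v ^ 3 + 7 * (k ^ 2 * v + k ^ 3)) := by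
      intro h
      rcases p7.dvd_or_dvd h with h | h
      · rcases p7.dvd_or_dvd h with h | h
        · rcases p7.dvd_or_dvd h with h | h
          · exact hu7 (p7.dvd_of_dvd_pow h)
          · exact hpow 7 h
        · exact huv7 (p7.dvd_of_dvd_pow h)
      · exact hpow 3 ((dvd_neg).1 ((dvd_add_left (dvd_mul_right _ _)).1 h))
    rw [hD] at hj
    generalize u ^ 7 * v ^ 7 * (u - v) ^ 7 * (-v ^ 3 + 7 * (k ^ 2 * v + k ^ 3)) = W at hj hW7
    generalize (curve7 u v).c₄ = c at hj hc40 h7c4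
    have hW0 : (W : ℚ) ≠ 0 := by
      intro h0
      have h1 : W = 0 := by exact_mod_cast h0
      exact hW7 (h1 ▸ dvd_zero _)
    have hc0 : (c : ℚ) ≠ 0 := by exact_mod_cast hc40
    have hj0 : E.j ≠ 0 := by
      intro h0
      rw [h0, zero_mul] at hj
      exact pow_ne_zero 3 hc0 hj.symm
    have h9 : E.j * ((7 : ℚ) ^ 2 * (W : ℚ)) = (c : ℚ) ^ 3 := by
      rw [← hj]
      push_cast
      ring
    have h10 := congrArg (padicValRat 7) h9
    have v7 : padicValRat 7 (7 : ℚ) = 1 := by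
      have h := padicValRat.self (p := 7) (by norm_num)
      rw [← h]
      norm_num
    have vW : padicValRat 7 (W : ℚ) = 0 := by
      rw [padicValRat.of_int, padicValInt.eq_zero_of_not_dvd (by exact_mod_cast hW7),
        Nat.cast_zero]
    obtain ⟨c', rfl⟩ := h7c4
    have hc'0 : (c' : ℚ) ≠ 0 := by
      intro h0
      apply hc0
      push_cast
      rw [h0, mul_zero]
    have vc : padicValRat 7 (((7 * c' : ℤ)) : ℚ) = 1 + (padicValInt 7 c' : ℤ) := by
      push_cast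
      rw [padicValRat.mul (by norm_num) hc'0, v7, padicValRat.of_int]
    rw [padicValRat.mul hj0 (mul_ne_zero (by norm_num) hW0),
      padicValRat.mul (by norm_num) hW0, padicValRat.pow, padicValRat.pow, v7, vW, vc] at h10
    refine ⟨padicValInt 7 c', ?_⟩
    push_cast at h10
    linarith
  · left
    refine locSemi_of_int (curve7 t.num t.den) (fun hΔ => curve7_semi hco (by norm_num)
      (fun _ => hbad) hΔ) (d := (t.den : ℚ) ^ 4 / g ^ 2)
      (div_ne_zero (pow_ne_zero _ hn0) (pow_ne_zero _ hg)) ?_ ?_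
    · rw [e4, hT.c₄_eq]
      field_simp
    · rw [e6, hT.c₆_eq]
      field_simp

/-- **An elliptic curve over `ℚ` with a rational point of order `7` is modular**, unless `v₇(j)` is
`1`, `4`, `7`, `10`, .... -/
theorem isModular_of_order_seven_of_val (E : WeierstrassCurve ℚ) [E.IsElliptic]
    {P : E.toAffine.Point} (hP : addOrderOf P = 7)
    (h : ∀ n : ℕ, padicValRat 7 E.j ≠ 3 * n + 1) : E.IsModular :=
  isModular_of_order_seven E hP
    ((locSemi_or_of_order_seven hP).resolve_right fun ⟨n, hn⟩ => h n hn)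

/-- **An elliptic curve over `ℚ` with at least `7` rational torsion points is modular**, unless
`v₂(j)` is `1`, `2` or `4`, or `v₃(j) = 1`, or `v₅(j) = 0` and `v₅(j - 1728)` is odd, or `v₇(j)` is
`1`, `4`, `7`, .... -/
theorem isModular_of_seven_le (E : WeierstrassCurve ℚ) [E.IsElliptic]
    (hc : 7 ≤ Nat.card (AddCommGroup.torsion E.toAffine.Point)) (h1 : padicValRat 2 E.j ≠ 1)
    (h2 : padicValRat 2 E.j ≠ 2) (h4 : padicValRat 2 E.j ≠ 4) (h3 : padicValRat 3 E.j ≠ 1)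
    (h5 : padicValRat 5 E.j = 0 → 2 ∣ padicValRat 5 (E.j - 1728))
    (h7 : ∀ n : ℕ, padicValRat 7 E.j ≠ 3 * n + 1) : E.IsModular := by
  rcases hc.eq_or_lt with h | h
  · have hfin : Finite (AddCommGroup.torsion E.toAffine.Point) :=
      Nat.finite_of_card_ne_zero (by omega)
    have hF : Fact (Nat.Prime 7) := fact_seven
    obtain ⟨g, hg⟩ := exists_prime_addOrderOf_dvd_card' (G := AddCommGroup.torsion
      E.toAffine.Point) 7 (by rw [← h])
    refine isModular_of_order_seven_of_val E (P := (g : E.toAffine.Point)) ?_ h7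
    rw [← hg]
    exact AddSubgroup.addOrderOf_coe g
  · exact isModular_of_eight_le E h h1 h2 h4 h3 h5

end Fermat.Agent.Cor.Twist

end
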