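import Fermat.Agent.Corollaries.Twist.JCrit

/-!
# The curves which are quadratic twists of semistable ones

* `forall_locSemi_iff_j_val`, `exists_semistable_twist_iff`: an elliptic curve over `ℚ` with
  `j ≠ 0, 1728` is a quadratic twist of a semistable elliptic curve over `ℚ` if and only if its
  `j`-invariant satisfies the conditions of `isModular_of_j_val`;
* `isModular_of_j_neg`: an elliptic curve over `ℚ` whose `j`-invariant is not integral at every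
  prime of bad reduction is modular.
-/

set_option autoImplicit false

noncomputable section

open WeierstrassCurve

namespace Fermat.Agent.Cor.Twist

section Padic

variable {p : ℕ} [hp : Fact p.Prime]

theorem rel_of_locSemi {E : WeierstrassCurve ℚ} [E.IsElliptic] (h : LocSemi p E) :
    ∃ V : WeierstrassCurve ℤ_[p], (V.Δ : ℚ_[p]) ≠ 0 ∧
      (V.c₄ : ℚ_[p]) ^ 3 = (E.j : ℚ_[p]) * (V.Δ : ℚ_[p]) ∧
      (V.c₆ : ℚ_[p]) ^ 2 = ((E.j : ℚ_[p]) - 1728) * (V.Δ : ℚ_[p]) ∧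
      (IsUnit V.Δ ∨ IsUnit V.c₄) := by
  obtain ⟨d, V, hd, h4, h6, hu⟩ := h
  have hΔ0 : (E.Δ : ℚ_[p]) ≠ 0 := by exact_mod_cast Δ_ne_zero E
  have e4 : (E.c₄ : ℚ_[p]) ^ 3 = (E.j : ℚ_[p]) * (E.Δ : ℚ_[p]) := by
    exact_mod_cast (j_mul_Δ E).symm
  have e6 : (E.c₆ : ℚ_[p]) ^ 2 = ((E.j : ℚ_[p]) - 1728) * (E.Δ : ℚ_[p]) := by
    exact_mod_cast (j_sub_mul_Δ E).symm
  have hΔ : (V.Δ : ℚ_[p]) = d ^ 6 * (E.Δ : ℚ_[p]) := by
    have h1 := congrArg (fun z : ℤ_[p] => (z : ℚ_[p])) V.c_relation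
    have hc : ((1728 : ℤ_[p]) : ℚ_[p]) = 1728 := rfl
    push_cast at h1
    rw [hc, h4, h6] at h1
    have h3 : (1728 : ℚ_[p]) ≠ 0 := by norm_num
    apply mul_left_cancel₀ h3
    rw [h1]
    linear_combination d ^ 6 * e4 - d ^ 6 * e6
  refine ⟨V, ?_, ?_, ?_, hu⟩
  · rw [hΔ]
    exact mul_ne_zero (pow_ne_zero _ hd) hΔ0
  · rw [h4, hΔ]
    linear_combination d ^ 6 * e4
  · rw [h6, hΔ]
    linear_combination d ^ 6 * e6

theorem valuation_eq_zero {x : ℤ_[p]} (h : IsUnit x) : (x : ℚ_[p]).valuation = 0 := by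
  have h0 : (x : ℚ_[p]) ≠ 0 := PadicInt.coe_ne_zero.2 h.ne_zero
  have h1 : ‖(x : ℚ_[p])‖ = 1 := PadicInt.isUnit_iff.1 h
  have h2 : 0 ≤ (x : ℚ_[p]).valuation := (Padic.norm_le_one_iff_val_nonneg _).1 h1.le
  have h3 : 0 ≤ ((x : ℚ_[p])⁻¹).valuation :=
    (Padic.norm_le_one_iff_val_nonneg _).1 (by rw [norm_inv, h1, inv_one])
  rw [Padic.valuation_inv] at h3
  omega

theorem valuation_pos {x : ℤ_[p]} (h0 : (x : ℚ_[p]) ≠ 0) (h : ¬ IsUnit x) :
    0 < (x : ℚ_[p]).valuation := by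
  have h2 : 0 ≤ (x : ℚ_[p]).valuation :=
    (Padic.norm_le_one_iff_val_nonneg _).1 (PadicInt.norm_le_one x)
  refine lt_of_le_of_ne h2 fun h' => h ?_
  rw [PadicInt.isUnit_iff, PadicInt.norm_def, Padic.norm_eq_zpow_neg_valuation h0, ← h', neg_zero,
    zpow_zero]

theorem le_valuation {x : ℤ_[p]} (h0 : (x : ℚ_[p]) ≠ 0) {n : ℕ} (h : (p : ℤ_[p]) ^ n ∣ x) :
    (n : ℤ) ≤ (x : ℚ_[p]).valuation := by
  obtain ⟨y, rfl⟩ := h
  rw [PadicInt.coe_mul, PadicInt.coe_pow, PadicInt.coe_natCast] at h0 ⊢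
  have hp0 : (p : ℚ_[p]) ^ n ≠ 0 := left_ne_zero_of_mul h0
  have hy0 : (y : ℚ_[p]) ≠ 0 := right_ne_zero_of_mul h0
  rw [Padic.valuation_mul hp0 hy0, Padic.valuation_pow, Padic.valuation_p]
  have h2 : 0 ≤ (y : ℚ_[p]).valuation :=
    (Padic.norm_le_one_iff_val_nonneg _).1 (PadicInt.norm_le_one y)
  omega

/-- The valuations of `j` and `j - 1728`. -/
theorem val_of_locSemi {E : WeierstrassCurve ℚ} [E.IsElliptic] (h0 : E.j ≠ 0)
    (h1728 : E.j ≠ 1728) (h : LocSemi p E) : ∃ V : WeierstrassCurve ℤ_[p],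
      (V.c₄ : ℚ_[p]) ≠ 0 ∧ (V.c₆ : ℚ_[p]) ≠ 0 ∧
      3 * (V.c₄ : ℚ_[p]).valuation = padicValRat p E.j + (V.Δ : ℚ_[p]).valuation ∧
      2 * (V.c₆ : ℚ_[p]).valuation = padicValRat p (E.j - 1728) + (V.Δ : ℚ_[p]).valuation ∧
      (IsUnit V.Δ ∨ IsUnit V.c₄ ∧ 0 < (V.Δ : ℚ_[p]).valuation) := by
  obtain ⟨V, hΔ, h4, h6, hu⟩ := rel_of_locSemi h
  have hj0 : (E.j : ℚ_[p]) ≠ 0 := by exact_mod_cast h0
  have hj1 : (E.j : ℚ_[p]) - 1728 ≠ 0 := by
    rw [sub_ne_zero]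
    exact_mod_cast h1728
  have n4 : (V.c₄ : ℚ_[p]) ≠ 0 := fun h' => by
    rw [h', zero_pow three_ne_zero] at h4
    exact mul_ne_zero hj0 hΔ h4.symm
  have n6 : (V.c₆ : ℚ_[p]) ≠ 0 := fun h' => by
    rw [h', zero_pow two_ne_zero] at h6
    exact mul_ne_zero hj1 hΔ h6.symm
  refine ⟨V, n4, n6, ?_, ?_, ?_⟩
  · have h5 := congrArg Padic.valuation h4
    rw [Padic.valuation_pow, Padic.valuation_mul hj0 hΔ, Padic.valuation_ratCast] at h5
    exact_mod_cast h5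
  · have h5 := congrArg Padic.valuation h6
    rw [Padic.valuation_pow, Padic.valuation_mul hj1 hΔ, valuation_sub_1728] at h5
    exact_mod_cast h5
  · by_cases h' : IsUnit V.Δ
    · exact Or.inl h'
    · exact Or.inr ⟨hu.resolve_left h', valuation_pos hΔ h'⟩

theorem five_le_of_locSemi {E : WeierstrassCurve ℚ} [E.IsElliptic] (h0 : E.j ≠ 0)
    (h1728 : E.j ≠ 1728) (h : LocSemi p E) :
    padicValRat p E.j < 0 ∨ 3 ∣ padicValRat p E.j ∧ 2 ∣ padicValRat p (E.j - 1728) := by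
  obtain ⟨V, -, -, h3, h2, hu | ⟨hu, hpos⟩⟩ := val_of_locSemi h0 h1728 h
  · rw [valuation_eq_zero hu, add_zero] at h3 h2
    exact Or.inr ⟨⟨_, h3.symm⟩, ⟨_, h2.symm⟩⟩
  · rw [valuation_eq_zero hu] at h3
    left
    omega

end Padic

theorem two_of_locSemi {E : WeierstrassCurve ℚ} [E.IsElliptic] (h0 : E.j ≠ 0)
    (h1728 : E.j ≠ 1728) (h : LocSemi 2 E) :
    padicValRat 2 E.j ≤ 0 ∨ 12 ≤ padicValRat 2 E.j ∧ 3 ∣ padicValRat 2 E.j := by
  obtain ⟨V, n4, -, h3, h2, hu | ⟨hu, hpos⟩⟩ := val_of_locSemi h0 h1728 h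
  · rw [valuation_eq_zero hu, add_zero] at h3
    by_cases h1 : (2 : ℤ_[2]) ∣ V.a₁
    · right
      obtain ⟨x, hx⟩ := h1
      have h5 : ((2 : ℕ) : ℤ_[2]) ^ 4 ∣ V.c₄ := by
        refine ⟨(x ^ 2 + V.a₂) ^ 2 - 3 * (V.a₄ + x * V.a₃), ?_⟩
        simp only [WeierstrassCurve.c₄, WeierstrassCurve.b₂, WeierstrassCurve.b₄, hx]
        push_cast
        ring
      have h6 := le_valuation n4 h5
      push_cast at h6
      exact ⟨by omega, ⟨_, h3.symm⟩⟩
    · left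
      have h5 : IsUnit V.c₄ := by
        rw [PadicInt.isUnit_iff]
        refine le_antisymm (PadicInt.norm_le_one _) (not_lt.1 fun h' => h1 ?_)
        rw [PadicInt.norm_lt_one_iff_dvd] at h'
        have h6 : (2 : ℤ_[2]) ∣ V.a₁ ^ 4 := by
          obtain ⟨y, hy⟩ := h'
          refine ⟨y - (4 * V.a₁ ^ 2 * V.a₂ + 8 * V.a₂ ^ 2) + 12 * V.b₄, ?_⟩
          simp only [WeierstrassCurve.c₄, WeierstrassCurve.b₂] at hy
          push_cast at hy
          linear_combination hy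
        exact (PadicInt.prime_p (p := 2)).dvd_of_dvd_pow (by exact_mod_cast h6)
      rw [valuation_eq_zero h5] at h3
      omega
  · rw [valuation_eq_zero hu] at h3
    left
    omega

theorem three_of_locSemi {E : WeierstrassCurve ℚ} [E.IsElliptic] (h0 : E.j ≠ 0)
    (h1728 : E.j ≠ 1728) (h : LocSemi 3 E) : padicValRat 3 E.j ≤ 0 ∨
      6 ≤ padicValRat 3 (E.j - 1728) ∧ 2 ∣ padicValRat 3 (E.j - 1728) := by
  obtain ⟨V, -, n6, h3, h2, hu | ⟨hu, hpos⟩⟩ := val_of_locSemi h0 h1728 h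
  · rw [valuation_eq_zero hu, add_zero] at h3 h2
    by_cases h1 : (3 : ℤ_[3]) ∣ V.b₂
    · right
      obtain ⟨x, hx⟩ := h1
      have h5 : ((3 : ℕ) : ℤ_[3]) ^ 3 ∣ V.c₆ := by
        refine ⟨-x ^ 3 + 4 * x * V.b₄ - 8 * V.b₆, ?_⟩
        simp only [WeierstrassCurve.c₆, hx]
        push_cast
        ring
      have h6 := le_valuation n6 h5
      push_cast at h6
      exact ⟨by omega, ⟨_, h2.symm⟩⟩
    · left
      have h5 : IsUnit V.c₄ := by
        rw [PadicInt.isUnit_iff]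
        refine le_antisymm (PadicInt.norm_le_one _) (not_lt.1 fun h' => h1 ?_)
        rw [PadicInt.norm_lt_one_iff_dvd] at h'
        have h6 : (3 : ℤ_[3]) ∣ V.b₂ ^ 2 := by
          obtain ⟨y, hy⟩ := h'
          refine ⟨y + 8 * V.b₄, ?_⟩
          simp only [WeierstrassCurve.c₄] at hy
          push_cast at hy
          linear_combination hy
        exact (PadicInt.prime_p (p := 3)).dvd_of_dvd_pow (by exact_mod_cast h6)
      rw [valuation_eq_zero h5] at h3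
      omega
  · rw [valuation_eq_zero hu] at h3
    left
    omega

/-- **The curves which are semistable at every prime up to a local quadratic twist, in terms of
the `j`-invariant.** -/
theorem forall_locSemi_iff_j_val {E : WeierstrassCurve ℚ} [E.IsElliptic] (h0 : E.j ≠ 0)
    (h1728 : E.j ≠ 1728) : (∀ (p : ℕ) [Fact p.Prime], LocSemi p E) ↔
      (padicValRat 2 E.j ≤ 0 ∨ 12 ≤ padicValRat 2 E.j ∧ 3 ∣ padicValRat 2 E.j) ∧
      (padicValRat 3 E.j ≤ 0 ∨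
        6 ≤ padicValRat 3 (E.j - 1728) ∧ 2 ∣ padicValRat 3 (E.j - 1728)) ∧
      ∀ p : ℕ, p.Prime → 5 ≤ p →
        padicValRat p E.j < 0 ∨ 3 ∣ padicValRat p E.j ∧ 2 ∣ padicValRat p (E.j - 1728) :=
  ⟨fun h => ⟨two_of_locSemi h0 h1728 (h 2), three_of_locSemi h0 h1728 (h 3), fun p hp _ => by
      haveI : Fact p.Prime := ⟨hp⟩
      exact five_le_of_locSemi h0 h1728 (h p)⟩,
    fun h p _ => locSemi_of_j_val h0 h1728 h.1 h.2.1 h.2.2 p⟩

/-- **The quadratic twists of the semistable elliptic curves over `ℚ`, in terms of the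
`j`-invariant.** -/
theorem exists_semistable_twist_iff {E : WeierstrassCurve ℚ} [E.IsElliptic] (h0 : E.j ≠ 0)
    (h1728 : E.j ≠ 1728) :
    (∃ (W : WeierstrassCurve ℤ) (d : ℚ), d ≠ 0 ∧ (W.c₄ : ℚ) = d ^ 2 * E.c₄ ∧
        (W.c₆ : ℚ) = d ^ 3 * E.c₆ ∧ W.Δ ≠ 0 ∧ W.IsSemistableModel) ↔
      (padicValRat 2 E.j ≤ 0 ∨ 12 ≤ padicValRat 2 E.j ∧ 3 ∣ padicValRat 2 E.j) ∧
      (padicValRat 3 E.j ≤ 0 ∨
        6 ≤ padicValRat 3 (E.j - 1728) ∧ 2 ∣ padicValRat 3 (E.j - 1728)) ∧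
      ∀ p : ℕ, p.Prime → 5 ≤ p →
        padicValRat p E.j < 0 ∨ 3 ∣ padicValRat p E.j ∧ 2 ∣ padicValRat p (E.j - 1728) :=
  (forall_locSemi_iff (Δ_ne_zero E)).symm.trans (forall_locSemi_iff_j_val h0 h1728)

/-- **An elliptic curve over `ℚ` whose `j`-invariant has a pole at every prime of bad reduction
is modular.** -/
theorem isModular_of_j_neg (W : WeierstrassCurve ℤ) [(W.map (Int.castRingHom ℚ)).IsElliptic]
    (h : ∀ p : ℕ, p.Prime → (p : ℤ) ∣ W.Δ → padicValRat p (W.map (Int.castRingHom ℚ)).j < 0) :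
    (W.map (Int.castRingHom ℚ)).IsModular := by
  refine isModular_of_locSemi (Δ_ne_zero _) fun p hp => ?_
  by_cases hpΔ : (p : ℤ) ∣ W.Δ
  · exact locSemi_of_neg (h p hp.out hpΔ)
  · refine ⟨1, W.map (Int.castRingHom ℤ_[p]), one_ne_zero, ?_, ?_, Or.inl ?_⟩
    · rw [WeierstrassCurve.map_c₄, WeierstrassCurve.map_c₄, eq_intCast, eq_intCast,
        PadicInt.coe_intCast]
      push_cast
      ring
    · rw [WeierstrassCurve.map_c₆, WeierstrassCurve.map_c₆, eq_intCast, eq_intCast,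
        PadicInt.coe_intCast]
      push_cast
      ring
    · rw [WeierstrassCurve.map_Δ, eq_intCast, PadicInt.isUnit_iff]
      exact le_antisymm (PadicInt.norm_le_one _) (not_lt.1 fun h' =>
        hpΔ ((PadicInt.norm_int_lt_one_iff_dvd _).1 h'))

end Fermat.Agent.Cor.Twist

end
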