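import Fermat.Agent.Corollaries.Twist.Eight
import Fermat.Agent.Corollaries.Twist.LargeSharp

/-!
# Elliptic curves over `ℚ` with at least `8` rational torsion points

* `three_dvd_val_of_two_of_odd`: if `E` has a rational point of order `2`, `p` is an odd prime and
  `v_p(j) > 0`, then `3 ∣ v_p(j)`;
* `isModular_of_order_ten_of_val`: an elliptic curve over `ℚ` with a rational point of order `10` is
  modular, unless `v₅(j) = 0` and `v₅(j - 1728)` is odd;
* `isModular_of_eight_le`: an elliptic curve over `ℚ` with at least `8` rational torsion points is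
  modular, unless `v₂(j) = 1, 2, 4` or `v₃(j) = 1` or `v₅(j) = 0` and `v₅(j - 1728)` is odd.
-/

set_option autoImplicit false

noncomputable section

open WeierstrassCurve

namespace Fermat.Agent.Cor.Twist

attribute [local instance] fact_five fact_seven

variable {E : WeierstrassCurve ℚ}

/-- If `E` has a rational point of order `2`, `p` is an odd prime and `v_p(j) > 0` then
`3 ∣ v_p(j)`. -/
theorem three_dvd_val_of_two_of_odd [E.IsElliptic] {p : ℕ} [hp : Fact p.Prime] (hp2 : p ≠ 2)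
    {T : E.toAffine.Point} (hT : addOrderOf T = 2) (h : 0 < padicValRat p E.j) :
    3 ∣ padicValRat p E.j := by
  have hP := Nat.prime_iff_prime_int.1 hp.out
  have n2 : ¬ (p : ℤ) ∣ 2 := fun h' =>
    hp2 ((Nat.prime_dvd_prime_iff_eq hp.out Nat.prime_two).1 (by exact_mod_cast h'))
  have hΔ := Δ_ne_zero E
  obtain ⟨e, y, h₁, he, hy⟩ := two_torsion_coords hT
  have g := cubic_of_coords h₁.1 hy
  have hj0 : E.j ≠ 0 := by
    intro h'
    rw [h', padicValRat.zero] at h
    exact lt_irrefl _ h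
  have hD := Δ_of_root g
  have hc := c₄_of_root E e
  have hj := j_mul_Δ E
  generalize E.b₂ + 12 * e = A at hD hc
  generalize 6 * e ^ 2 + E.b₂ * e + E.b₄ = B at hD hc
  have hB0 : B ≠ 0 := by
    intro h0
    rw [h0] at hD
    exact hΔ (by linear_combination hD / 4)
  obtain ⟨r, s, hrs, hs, hr⟩ := exists_coprime ((A ^ 2 - 24 * B) / B)
  have hsQ : (s : ℚ) ≠ 0 := by exact_mod_cast hs
  have hr' : (r : ℚ) * B = (A ^ 2 - 24 * B) * s := by
    rw [hr]
    field_simp
  have hj1 : E.j * (((s ^ 2 * (r - 8 * s)) : ℤ) : ℚ) = 4 * (r : ℚ) ^ 3 := by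
    apply mul_left_cancel₀ (pow_ne_zero 3 hB0)
    have h1 : E.j * (B ^ 2 * (A ^ 2 - 32 * B)) = 4 * (A ^ 2 - 24 * B) ^ 3 := by
      rw [← hD, ← hc]
      linear_combination 4 * hj
    push_cast
    have h2 : B ^ 3 * (4 * (r : ℚ) ^ 3) = 4 * ((A ^ 2 - 24 * B) * s) ^ 3 := by
      rw [← hr']
      ring
    rw [h2]
    linear_combination (s : ℚ) ^ 3 * h1 + E.j * B ^ 2 * (s : ℚ) ^ 2 * hr'
  have hr0 : (r : ℚ) ≠ 0 := by
    intro h0
    rw [h0] at hj1
    have h2 : (((s ^ 2 * (r - 8 * s)) : ℤ) : ℚ) = 0 := by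
      have h3 : E.j * (((s ^ 2 * (r - 8 * s)) : ℤ) : ℚ) = 0 := by rw [hj1]; ring
      exact (mul_eq_zero.1 h3).resolve_left hj0
    push_cast at h2
    rw [h0] at h2
    have h4 : (s : ℚ) ^ 3 = 0 := by linear_combination -h2 / 8
    exact pow_ne_zero _ hsQ h4
  have hne : (((s ^ 2 * (r - 8 * s)) : ℤ) : ℚ) ≠ 0 := by
    intro h0
    rw [h0, mul_zero] at hj1
    exact mul_ne_zero four_ne_zero (pow_ne_zero _ hr0) hj1.symm
  have h5 := congrArg (padicValRat p) hj1
  have v4 : padicValRat p (4 : ℚ) = 0 := by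
    have h6 := padicValRat.of_int (p := p) (z := 4)
    rw [padicValInt.eq_zero_of_not_dvd (fun h' => n2 (hP.dvd_of_dvd_pow
      (by norm_num at h' ⊢; exact h' : (p : ℤ) ∣ 2 ^ 2))), Nat.cast_zero] at h6
    rw [← h6]
    norm_num
  rw [padicValRat.mul hj0 hne, padicValRat.mul four_ne_zero (pow_ne_zero _ hr0), v4,
    padicValRat.pow, padicValRat.of_int, padicValRat.of_int] at h5
  by_cases h3 : (p : ℤ) ∣ r
  · have h7 : ¬ (p : ℤ) ∣ s ^ 2 * (r - 8 * s) := by
      intro h8
      have hsp : (p : ℤ) ∣ s := by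
        rcases hP.dvd_or_dvd h8 with h9 | h9
        · exact hP.dvd_of_dvd_pow h9
        · have h10 : (p : ℤ) ∣ 2 ^ 3 * s := by
            have h11 := dvd_sub h3 h9
            have e8 : r - (r - 8 * s) = 2 ^ 3 * s := by ring
            rwa [e8] at h11
          rcases hP.dvd_or_dvd h10 with h11 | h11
          · exact absurd (hP.dvd_of_dvd_pow h11) n2
          · exact h11
      exact hP.not_isUnit (hrs.isUnit_of_dvd' h3 hsp)
    rw [padicValInt.eq_zero_of_not_dvd h7] at h5
    exact ⟨(padicValInt p r : ℤ), by push_cast at h5; linarith⟩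
  · rw [padicValInt.eq_zero_of_not_dvd (z := r) h3] at h5
    push_cast at h5
    omega

theorem curve5_c₆_ne_zero {u v : ℤ} (h : IsCoprime u v) : (curve5 u v).c₆ ≠ 0 := by
  intro h0
  have h1 : (3 : ℤ) ∣ (curve5 u v).b₂ := by
    apply Int.prime_three.dvd_of_dvd_pow (n := 3)
    refine ⟨12 * (curve5 u v).b₂ * (curve5 u v).b₄ - 72 * (curve5 u v).b₆, ?_⟩
    rw [WeierstrassCurve.c₆] at h0
    linear_combination -h0
  have h2 : ((u : ZMod 3)) ^ 2 + (v : ZMod 3) ^ 2 = 0 := by
    have h3 := (ZMod.intCast_zmod_eq_zero_iff_dvd _ 3).2 (by exact_mod_cast h1 :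
      ((3 : ℕ) : ℤ) ∣ (curve5 u v).b₂)
    simp only [curve5, WeierstrassCurve.b₂] at h3
    push_cast at h3
    have three : (3 : ZMod 3) = 0 := by decide
    linear_combination h3 + 2 * (u : ZMod 3) * v * three
  have key : ∀ a b : ZMod 3, a ^ 2 + b ^ 2 = 0 → a = 0 ∧ b = 0 := by decide
  obtain ⟨ha, hb⟩ := key _ _ h2
  exact Int.prime_three.not_isUnit (h.isUnit_of_dvd'
    (by exact_mod_cast (ZMod.intCast_zmod_eq_zero_iff_dvd u 3).1 ha)
    (by exact_mod_cast (ZMod.intCast_zmod_eq_zero_iff_dvd v 3).1 hb))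

/-- If `E` has a rational point of order `5` then `E` is semistable at `5` up to a local quadratic
twist, or `v₅(j) = 1`, or `v₅(j) = 0` and `v₅(j - 1728)` is odd. -/
theorem locSemi_or_of_order_five [E.IsElliptic] {P : E.toAffine.Point} (hP : addOrderOf P = 5) :
    LocSemi 5 E ∨ padicValRat 5 E.j = 1 ∨
      padicValRat 5 E.j = 0 ∧ ¬ 2 ∣ padicValRat 5 (E.j - 1728) := by
  obtain ⟨x, y, s, g, t, hT⟩ := exists_tate_five hP
  have hg := hT.hg
  have hn0 : (t.den : ℚ) ≠ 0 := by exact_mod_cast t.den_ne_zero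
  have hm := num_eq t
  have e4 : ((curve5 t.num t.den).c₄ : ℚ) = (t.den : ℚ) ^ 4 * (tate t t).c₄ := by
    simp only [curve5, tate, WeierstrassCurve.c₄, WeierstrassCurve.b₂, WeierstrassCurve.b₄]
    push_cast
    rw [hm]
    ring
  have e6 : ((curve5 t.num t.den).c₆ : ℚ) = (t.den : ℚ) ^ 6 * (tate t t).c₆ := by
    simp only [curve5, tate, WeierstrassCurve.c₆, WeierstrassCurve.b₂, WeierstrassCurve.b₄,
      WeierstrassCurve.b₆]
    push_cast
    rw [hm]
    ring
  have eΔ : ((curve5 t.num t.den).Δ : ℚ) = (t.den : ℚ) ^ 12 * (tate t t).Δ := by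
    simp only [curve5, tate, WeierstrassCurve.Δ, WeierstrassCurve.b₂, WeierstrassCurve.b₄,
      WeierstrassCurve.b₆, WeierstrassCurve.b₈]
    push_cast
    rw [hm]
    ring
  have hco := isCoprime_num_den t
  have hg12 : g ^ 12 ≠ 0 := pow_ne_zero _ hg
  have hj : E.j * ((curve5 t.num t.den).Δ : ℚ) = ((curve5 t.num t.den).c₄ : ℚ) ^ 3 := by
    rw [e4, eΔ]
    have h1 := j_mul_Δ E
    rw [hT.c₄_eq, hT.Δ_eq] at h1
    apply mul_left_cancel₀ hg12
    linear_combination (t.den : ℚ) ^ 12 * h1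
  have hj6 : (E.j - 1728) * ((curve5 t.num t.den).Δ : ℚ) = ((curve5 t.num t.den).c₆ : ℚ) ^ 2 := by
    rw [e6, eΔ]
    have h1 := j_sub_mul_Δ E
    rw [hT.c₆_eq, hT.Δ_eq] at h1
    apply mul_left_cancel₀ hg12
    linear_combination (t.den : ℚ) ^ 12 * h1
  have hc60 := curve5_c₆_ne_zero hco
  by_cases hbad : (5 : ℤ) ∣ t.num - 3 * t.den
  · right
    obtain ⟨k, hk⟩ := hbad
    set u : ℤ := t.num with hu'
    set v : ℤ := (t.den : ℤ) with hv'
    have hu : u = 3 * v + 5 * k := by linarith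
    have p5 : Prime (5 : ℤ) := Int.prime_iff_natAbs_prime.2 (by norm_num)
    have hv5 : ¬ (5 : ℤ) ∣ v := fun h4 => p5.not_isUnit (hco.isUnit_of_dvd' (by omega) h4)
    have hu5 : ¬ (5 : ℤ) ∣ u := fun h4 => hv5 (by omega)
    have hpow : ∀ n : ℕ, ¬ (5 : ℤ) ∣ v ^ n := fun n h => hv5 (p5.dvd_of_dvd_pow h)
    have hc4 : (curve5 u v).c₄ = 5 * (-v ^ 4 + 5 * (-3 * v ^ 4 - 24 * k * v ^ 3 -
        40 * k ^ 2 * v ^ 2 + 25 * k ^ 4)) := by
      rw [curve5_c₄, hu]
      ring
    have hC5 : ¬ (5 : ℤ) ∣ -v ^ 4 + 5 * (-3 * v ^ 4 - 24 * k * v ^ 3 -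
        40 * k ^ 2 * v ^ 2 + 25 * k ^ 4) := fun h =>
      hpow 4 ((dvd_neg).1 ((dvd_add_left (dvd_mul_right _ _)).1 h))
    have hΔ5 : (curve5 u v).Δ = 25 * (u ^ 5 * v ^ 5 * (k ^ 2 - k * v - v ^ 2)) := by
      have h7 : u ^ 2 - 11 * u * v - v ^ 2 = 25 * (k ^ 2 - k * v - v ^ 2) := by
        rw [hu]
        ring
      rw [curve5_Δ]
      linear_combination u ^ 5 * v ^ 5 * h7
    by_cases hk5 : (5 : ℤ) ∣ k ^ 2 - k * v - v ^ 2
    · -- `v₅(Δ) = 3`
      right
      have hk3 : (5 : ℤ) ∣ k - 3 * v := by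
        have h8 : (5 : ℤ) ∣ (k - 3 * v) ^ 2 := by
          have e : (k - 3 * v) ^ 2 = (k ^ 2 - k * v - v ^ 2) + 5 * (2 * v ^ 2 - k * v) := by ring
          rw [e]
          exact dvd_add hk5 (dvd_mul_right _ _)
        exact p5.dvd_of_dvd_pow h8
      obtain ⟨l, hl⟩ := hk3
      have hk' : k = 3 * v + 5 * l := by linarith
      have hD : (curve5 u v).Δ = 125 * (u ^ 5 * v ^ 5 * (v ^ 2 + 5 * (l * v + l ^ 2))) := by
        rw [hΔ5, hk']
        ring
      have hne : E.j - 1728 ≠ 0 := by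
        intro h0
        rw [h0, zero_mul] at hj6
        exact pow_ne_zero 2 (by exact_mod_cast hc60 : ((curve5 u v).c₆ : ℚ) ≠ 0) hj6.symm
      have hW5 : ¬ (5 : ℤ) ∣ u ^ 5 * v ^ 5 * (v ^ 2 + 5 * (l * v + l ^ 2)) := by
        intro h
        rcases p5.dvd_or_dvd h with h | h
        · rcases p5.dvd_or_dvd h with h | h
          · exact hu5 (p5.dvd_of_dvd_pow h)
          · exact hpow 5 h
        · exact hpow 2 ((dvd_add_left (dvd_mul_right _ _)).1 h)
      generalize u ^ 5 * v ^ 5 * (v ^ 2 + 5 * (l * v + l ^ 2)) = W at hD hW5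
      rw [hc4, hD] at hj
      generalize -v ^ 4 + 5 * (-3 * v ^ 4 - 24 * k * v ^ 3 -
          40 * k ^ 2 * v ^ 2 + 25 * k ^ 4) = C at hj hC5
      constructor
      · have h := val_eq (p := 5) (j := E.j) (k := 0) (W := W) (U := C ^ 3)
          (by exact_mod_cast hW5) (fun h => hC5 (p5.dvd_of_dvd_pow (by exact_mod_cast h))) (by
            have h125 : (125 : ℚ) ≠ 0 := by norm_num
            apply mul_left_cancel₀ h125
            push_cast at hj ⊢
            linear_combination hj)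
        exact_mod_cast h
      rintro ⟨q, hq⟩
      have hW0 : (W : ℚ) ≠ 0 := by
        intro h0
        have h1 : W = 0 := by exact_mod_cast h0
        exact hW5 (h1 ▸ dvd_zero _)
      rw [hD] at hj6
      have h9 : (E.j - 1728) * ((5 : ℚ) ^ 3 * (W : ℚ)) = ((curve5 u v).c₆ : ℚ) ^ 2 := by
        rw [← hj6]
        push_cast
        ring
      have h10 := congrArg (padicValRat 5) h9
      have hc6Q : ((curve5 u v).c₆ : ℚ) ≠ 0 := by exact_mod_cast hc60
      have v5 : padicValRat 5 (5 : ℚ) = 1 := by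
        have h := padicValRat.self (p := 5) (by norm_num)
        rw [← h]
        norm_num
      have vW : padicValRat 5 (W : ℚ) = 0 := by
        rw [padicValRat.of_int, padicValInt.eq_zero_of_not_dvd (by exact_mod_cast hW5),
          Nat.cast_zero]
      rw [padicValRat.mul hne (mul_ne_zero (by norm_num) hW0),
        padicValRat.mul (by norm_num) hW0, padicValRat.pow, padicValRat.pow, v5, vW, hq] at h10
      push_cast at h10
      omega
    · -- `v₅(Δ) = 2`
      left
      have hW5 : ¬ (5 : ℤ) ∣ u ^ 5 * v ^ 5 * (k ^ 2 - k * v - v ^ 2) := by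
        intro h
        rcases p5.dvd_or_dvd h with h | h
        · rcases p5.dvd_or_dvd h with h | h
          · exact hu5 (p5.dvd_of_dvd_pow h)
          · exact hpow 5 h
        · exact hk5 h
      rw [hc4, hΔ5] at hj
      generalize -v ^ 4 + 5 * (-3 * v ^ 4 - 24 * k * v ^ 3 -
          40 * k ^ 2 * v ^ 2 + 25 * k ^ 4) = C at hj hC5
      generalize u ^ 5 * v ^ 5 * (k ^ 2 - k * v - v ^ 2) = W at hj hW5
      have h := val_eq (p := 5) (j := E.j) (k := 1) (W := W) (U := C ^ 3)
        (by exact_mod_cast hW5) (fun h => hC5 (p5.dvd_of_dvd_pow (by exact_mod_cast h))) (by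
          have h25 : (25 : ℚ) ≠ 0 := by norm_num
          apply mul_left_cancel₀ h25
          push_cast at hj ⊢
          linear_combination hj)
      exact_mod_cast h
  · left
    refine locSemi_of_int (curve5 t.num t.den) (fun hΔ => curve5_semi hco Nat.prime_five
      (fun _ => hbad) hΔ) (d := (t.den : ℚ) ^ 2 / g ^ 2)
      (div_ne_zero (pow_ne_zero _ hn0) (pow_ne_zero _ hg)) ?_ ?_
    · rw [e4, hT.c₄_eq]
      field_simp
    · rw [e6, hT.c₆_eq]
      field_simp

/-- **An elliptic curve over `ℚ` with a rational point of order `5` is modular**, unless `v₅(j) = 1`,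
or `v₅(j) = 0` and `v₅(j - 1728)` is odd. -/
theorem isModular_of_order_five_of_val (E : WeierstrassCurve ℚ) [E.IsElliptic]
    {P : E.toAffine.Point} (hP : addOrderOf P = 5) (h1 : padicValRat 5 E.j ≠ 1)
    (h2 : padicValRat 5 E.j = 0 → 2 ∣ padicValRat 5 (E.j - 1728)) : E.IsModular :=
  isModular_of_order_five E hP
    (((locSemi_or_of_order_five hP).resolve_right fun h => h.elim h1 fun h' => h'.2 (h2 h'.1)))

/-- **An elliptic curve over `ℚ` with a rational point of order `10` is modular**, unless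
`v₅(j) = 0` and `v₅(j - 1728)` is odd. -/
theorem isModular_of_order_ten_of_val (E : WeierstrassCurve ℚ) [E.IsElliptic]
    {R : E.toAffine.Point} (hR : addOrderOf R = 10)
    (h2 : padicValRat 5 E.j = 0 → 2 ∣ padicValRat 5 (E.j - 1728)) : E.IsModular := by
  have h5 : addOrderOf ((2 : ℕ) • R) = 5 := by
    rw [addOrderOf_nsmul_of_dvd (by norm_num) (by rw [hR]; norm_num), hR]
  have hT : addOrderOf ((5 : ℕ) • R) = 2 := by
    rw [addOrderOf_nsmul_of_dvd (by norm_num) (by rw [hR]; norm_num), hR]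
  refine isModular_of_order_five_of_val E h5 (fun h => ?_) h2
  have h3 := three_dvd_val_of_two_of_odd (p := 5) (by norm_num) hT (by rw [h]; norm_num)
  rw [h] at h3
  omega

/-- **An elliptic curve over `ℚ` with at least `8` rational torsion points is modular**, unless
`v₂(j)` is `1`, `2` or `4`, or `v₃(j) = 1`, or `v₅(j) = 0` and `v₅(j - 1728)` is odd. -/
theorem isModular_of_eight_le (E : WeierstrassCurve ℚ) [E.IsElliptic]
    (h8 : 8 ≤ Nat.card (AddCommGroup.torsion E.toAffine.Point)) (h1 : padicValRat 2 E.j ≠ 1)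
    (h2 : padicValRat 2 E.j ≠ 2) (h4 : padicValRat 2 E.j ≠ 4) (h3 : padicValRat 3 E.j ≠ 1)
    (h5 : padicValRat 5 E.j = 0 → 2 ∣ padicValRat 5 (E.j - 1728)) : E.IsModular := by
  by_cases h12 : 12 ≤ Nat.card (AddCommGroup.torsion E.toAffine.Point)
  · exact isModular_of_twelve_le E h12
  rcases MT.mazur_sharp E with ⟨n, hn, he⟩ | ⟨m, hm, he⟩ | ⟨d, hd, P, hP⟩
  · have hc := Nat.card_congr he.some.toEquiv
    rw [Nat.card_zmod] at hc
    obtain ⟨f, hf⟩ := exists_injective he
    have hf1 : addOrderOf (f 1) = n := by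
      rw [addOrderOf_injective f hf, ZMod.addOrderOf_one]
    have hn' : n = 8 ∨ n = 9 ∨ n = 10 := by
      simp only [Set.mem_insert_iff, Set.mem_singleton_iff] at hn
      omega
    rcases hn' with rfl | rfl | rfl
    · exact isModular_of_order_eight_of_val E hf1 h1
    · exact isModular_of_order_nine_of_val E hf1 h3
    · exact isModular_of_order_ten_of_val E hf1 h5
  · have hc := Nat.card_congr he.some.toEquiv
    rw [Nat.card_prod, Nat.card_zmod, Nat.card_zmod] at hc
    refine isModular_of_eight_dvd E ?_ h1 h2 h4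
    simp only [Set.mem_insert_iff, Set.mem_singleton_iff] at hm
    obtain rfl : m = 2 := by omega
    rw [hc]
  · simp only [Set.mem_insert_iff, Set.mem_singleton_iff] at hd
    rcases hd with rfl | rfl | rfl | rfl
    · exact isModular_of_prime_order E (by norm_num : Nat.Prime 13) (by norm_num) hP
    · exact isModular_of_order_eighteen E hP
    · exact isModular_of_order_twentyfive E hP
    · exact isModular_of_order_thirtyfive E hP

end Fermat.Agent.Cor.Twist

end
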