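import Fermat.Agent.Corollaries.Twist.Nine
import Fermat.Agent.Corollaries.Mazur.Main

/-!
# Modularity of elliptic curves with a rational torsion point of order at least `4`

`isModular_of_torsion_ge_four`: with Mazur's theorem on the points of prime order (`Cor.mazur`), the
divisibility hypothesis of `isModular_of_torsion` becomes `4 ≤ n`, `13 ∤ n`.
-/

set_option autoImplicit false

noncomputable section

open WeierstrassCurve

namespace Fermat.Agent.Cor.Twist

/-- **An elliptic curve over `ℚ` with a rational torsion point of order `n ≥ 4`, `13 ∤ n`, which is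
semistable at the primes dividing `n` up to local quadratic twists, is modular.** -/
theorem isModular_of_torsion_ge_four (E : WeierstrassCurve ℚ) [E.IsElliptic]
    {P : E.toAffine.Point} (h4 : 4 ≤ addOrderOf P) (h13 : ¬ 13 ∣ addOrderOf P)
    (hE : ∀ (p : ℕ) [Fact p.Prime], p ∣ addOrderOf P → LocSemi p E) : E.IsModular := by
  have h0 : addOrderOf P ≠ 0 := by omega
  have key : ∀ q : ℕ, q.Prime → q ∣ addOrderOf P → q = 2 ∨ q = 3 ∨ q = 5 ∨ q = 7 := by
    intro q hq hd
    have h1 := prime_dvd_addOrderOf E h0 hq hd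
    simp only [Finset.mem_insert, Finset.mem_singleton] at h1
    rcases h1 with h | h | h | h | h
    · exact Or.inl h
    · exact Or.inr (Or.inl h)
    · exact Or.inr (Or.inr (Or.inl h))
    · exact Or.inr (Or.inr (Or.inr h))
    · exact absurd (h ▸ hd) h13
  refine isModular_of_torsion E h0 ?_ hE
  set n := addOrderOf P with hn
  obtain ⟨q, hq, m, hm⟩ := Nat.exists_prime_and_dvd (n := n) (by omega)
  rcases key q hq ⟨m, hm⟩ with rfl | rfl | rfl | rfl
  · obtain ⟨r, hr, k, hk⟩ := Nat.exists_prime_and_dvd (n := m) (by omega)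
    rcases key r hr ⟨2 * k, by rw [hm, hk]; ring⟩ with rfl | rfl | rfl | rfl
    · exact Or.inl ⟨k, by rw [hm, hk]; ring⟩
    · exact Or.inr (Or.inr (Or.inl ⟨k, by rw [hm, hk]; ring⟩))
    · exact Or.inr (Or.inl ⟨2 * k, by rw [hm, hk]; ring⟩)
    · exact Or.inr (Or.inr (Or.inr (Or.inl ⟨2 * k, by rw [hm, hk]; ring⟩)))
  · obtain ⟨r, hr, k, hk⟩ := Nat.exists_prime_and_dvd (n := m) (by omega)
    rcases key r hr ⟨3 * k, by rw [hm, hk]; ring⟩ with rfl | rfl | rfl | rfl
    · exact Or.inr (Or.inr (Or.inl ⟨k, by rw [hm, hk]; ring⟩))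
    · exact Or.inr (Or.inr (Or.inr (Or.inr ⟨k, by rw [hm, hk]; ring⟩)))
    · exact Or.inr (Or.inl ⟨3 * k, by rw [hm, hk]; ring⟩)
    · exact Or.inr (Or.inr (Or.inr (Or.inl ⟨3 * k, by rw [hm, hk]; ring⟩)))
  · exact Or.inr (Or.inl ⟨m, hm⟩)
  · exact Or.inr (Or.inr (Or.inr (Or.inl ⟨m, hm⟩)))

end Fermat.Agent.Cor.Twist

end
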