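import Fermat.Agent.Corollaries.Twist.Semistable

/-!
# Elliptic curves with full rational `2`-torsion

`isModular_of_full_two_torsion`: an elliptic curve over `ℚ` with two rational points of order `2`
and `v₂(j) ≤ 0` is modular.
-/

set_option autoImplicit false

noncomputable section

open WeierstrassCurve

namespace Fermat.Agent.Cor.Twist

/-! ### The semistable model of `y² = x (x + m) (x + n)` -/

section Model

/-- The semistable model of `y² = x (x + 16 m) (x + 4 n + 1)`. -/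
def legW (m n : ℤ) : WeierstrassCurve ℤ := ⟨1, 4 * m + n, 0, m * (4 * n + 1), 0⟩

variable {m n : ℤ}

theorem legW_c₄ : (legW m n).c₄ = (16 * m) ^ 2 - 16 * m * (4 * n + 1) + (4 * n + 1) ^ 2 := by
  simp only [WeierstrassCurve.c₄, WeierstrassCurve.b₂, WeierstrassCurve.b₄, legW]
  ring

theorem legW_c₆ : (legW m n).c₆ = -(16 * m + (4 * n + 1)) ^ 3 +
    72 * m * (4 * n + 1) * (16 * m + (4 * n + 1)) := by
  simp only [WeierstrassCurve.c₆, WeierstrassCurve.b₂, WeierstrassCurve.b₄, WeierstrassCurve.b₆,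
    legW]
  ring

theorem legW_Δ : (legW m n).Δ = (m * (4 * n + 1) * (16 * m - (4 * n + 1))) ^ 2 := by
  simp only [WeierstrassCurve.Δ, WeierstrassCurve.b₂, WeierstrassCurve.b₄, WeierstrassCurve.b₆,
    WeierstrassCurve.b₈, legW]
  ring

theorem legW_Δ_ne_zero (hm : m ≠ 0) (h : 16 * m ≠ 4 * n + 1) : (legW m n).Δ ≠ 0 := by
  rw [legW_Δ]
  exact pow_ne_zero _ (mul_ne_zero (mul_ne_zero hm (by omega)) (sub_ne_zero.mpr h))

theorem legW_semistable (hc : IsCoprime (16 * m) (4 * n + 1)) :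
    (legW m n).IsSemistableModel := by
  intro p hp h1 h2
  have hP : Prime (p : ℤ) := Nat.prime_iff_prime_int.mp hp
  rw [legW_Δ] at h1
  rw [legW_c₄] at h2
  have h3 : ∀ {a b : ℤ}, IsCoprime a b → (p : ℤ) ∣ a → (p : ℤ) ∣ b → False := fun hab ha hb =>
    hP.not_isUnit (hab.isUnit_of_dvd' ha hb)
  rcases hP.dvd_or_dvd (hP.dvd_of_dvd_pow h1) with h4 | h4
  · rcases hP.dvd_or_dvd h4 with h5 | h5
    · have h6 : (p : ℤ) ∣ 16 * m := h5.mul_left _
      have h7 : (p : ℤ) ∣ (4 * n + 1) ^ 2 := by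
        have h8 : (4 * n + 1) ^ 2 = ((16 * m) ^ 2 - 16 * m * (4 * n + 1) + (4 * n + 1) ^ 2) -
            16 * m * (16 * m - (4 * n + 1)) := by ring
        rw [h8]
        exact dvd_sub h2 (h6.mul_right _)
      exact h3 hc h6 (hP.dvd_of_dvd_pow h7)
    · have h7 : (p : ℤ) ∣ (16 * m) ^ 2 := by
        have h8 : (16 * m) ^ 2 = ((16 * m) ^ 2 - 16 * m * (4 * n + 1) + (4 * n + 1) ^ 2) -
            (4 * n + 1) * ((4 * n + 1) - 16 * m) := by ring
        rw [h8]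
        exact dvd_sub h2 (h5.mul_right _)
      exact h3 hc (hP.dvd_of_dvd_pow h7) h5
  · have h7 : (p : ℤ) ∣ 16 * m * (4 * n + 1) := by
      have h8 : 16 * m * (4 * n + 1) = ((16 * m) ^ 2 - 16 * m * (4 * n + 1) + (4 * n + 1) ^ 2) -
          (16 * m - (4 * n + 1)) * (16 * m - (4 * n + 1)) := by ring
      rw [h8]
      exact dvd_sub h2 (h4.mul_right _)
    rcases hP.dvd_or_dvd h7 with h5 | h5
    · refine h3 hc h5 ?_
      have h6 : 4 * n + 1 = 16 * m - (16 * m - (4 * n + 1)) := by ring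
      rw [h6]
      exact dvd_sub h5 h4
    · refine h3 hc ?_ h5
      have h6 : 16 * m = (16 * m - (4 * n + 1)) + (4 * n + 1) := by ring
      rw [h6]
      exact dvd_add h4 h5

end Model

/-! ### The roots of the `2`-division polynomial -/

/-- The roots `e₁, e₂, e₃` of the `2`-division polynomial. -/
structure TwoRoots (E : WeierstrassCurve ℚ) (e₁ e₂ e₃ : ℚ) : Prop where
  b₂ : E.b₂ = -4 * (e₁ + e₂ + e₃)
  b₄ : E.b₄ = 2 * (e₁ * e₂ + e₂ * e₃ + e₃ * e₁)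
  b₆ : E.b₆ = -4 * (e₁ * e₂ * e₃)

namespace TwoRoots

variable {E : WeierstrassCurve ℚ} {e₁ e₂ e₃ : ℚ}

theorem swap (h : TwoRoots E e₁ e₂ e₃) : TwoRoots E e₁ e₃ e₂ :=
  ⟨by rw [h.b₂]; ring, by rw [h.b₄]; ring, by rw [h.b₆]; ring⟩

theorem rotate (h : TwoRoots E e₁ e₂ e₃) : TwoRoots E e₂ e₃ e₁ :=
  ⟨by rw [h.b₂]; ring, by rw [h.b₄]; ring, by rw [h.b₆]; ring⟩

theorem c₄ (h : TwoRoots E e₁ e₂ e₃) {t m n : ℚ} (h2 : e₁ - e₂ = t * m) (h3 : e₁ - e₃ = t * n) :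
    E.c₄ = 16 * t ^ 2 * (m ^ 2 - m * n + n ^ 2) := by
  have e2 : e₂ = e₁ - t * m := by linear_combination -h2
  have e3 : e₃ = e₁ - t * n := by linear_combination -h3
  rw [WeierstrassCurve.c₄, h.b₂, h.b₄, e2, e3]
  ring

theorem c₆ (h : TwoRoots E e₁ e₂ e₃) {t m n : ℚ} (h2 : e₁ - e₂ = t * m) (h3 : e₁ - e₃ = t * n) :
    E.c₆ = 64 * t ^ 3 * (-(m + n) ^ 3 + 9 / 2 * (m * n) * (m + n)) := by
  have e2 : e₂ = e₁ - t * m := by linear_combination -h2
  have e3 : e₃ = e₁ - t * n := by linear_combination -h3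
  rw [WeierstrassCurve.c₆, h.b₂, h.b₄, h.b₆, e2, e3]
  ring

theorem Δ (h : TwoRoots E e₁ e₂ e₃) {t m n : ℚ} (h2 : e₁ - e₂ = t * m) (h3 : e₁ - e₃ = t * n) :
    E.Δ = 16 * t ^ 6 * (m * n * (m - n)) ^ 2 := by
  have h4 := E.c_relation
  rw [h.c₄ h2 h3, h.c₆ h2 h3] at h4
  have h5 : (1728 : ℚ) ≠ 0 := by norm_num
  apply mul_left_cancel₀ h5
  rw [h4]
  ring

/-- **Modularity**, for `e₁ - e₂ = 16 t m`, `e₁ - e₃ = t (4 n + 1)`. -/
theorem isModular (h : TwoRoots E e₁ e₂ e₃) (hΔ : E.Δ ≠ 0) {t : ℚ} {m n : ℤ}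
    (h2 : e₁ - e₂ = t * (16 * m : ℤ)) (h3 : e₁ - e₃ = t * (4 * n + 1 : ℤ))
    (hc : IsCoprime (16 * m) (4 * n + 1)) : E.IsModular := by
  have h5 := h.Δ h2 h3
  have ht : t ≠ 0 := by
    rintro rfl
    exact hΔ (by rw [h5]; ring)
  have hm : m ≠ 0 := by
    rintro rfl
    exact hΔ (by rw [h5]; push_cast; ring)
  have hmn : 16 * m ≠ 4 * n + 1 := by omega
  refine isModular_of_semistable_c₄_c₆ (legW_Δ_ne_zero hm hmn) (legW_semistable hc)
    (d := 4 * t) (mul_ne_zero (by norm_num) ht) ?_ ?_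
  · rw [h.c₄ h2 h3, legW_c₄]
    push_cast
    ring
  · rw [h.c₆ h2 h3, legW_c₆]
    push_cast
    ring

/-- **Modularity**, for `e₁ - e₂ = t m`, `e₁ - e₃ = t n`, `16 ∣ m`, `n` odd. -/
theorem isModular' (h : TwoRoots E e₁ e₂ e₃) (hΔ : E.Δ ≠ 0) {t : ℚ} {m n : ℤ}
    (h2 : e₁ - e₂ = t * m) (h3 : e₁ - e₃ = t * n) (hc : IsCoprime m n) (hm : 16 ∣ m)
    (hn : ¬ 2 ∣ n) : E.IsModular := by
  obtain ⟨m', rfl⟩ := hm
  rcases (by omega : n % 4 = 1 ∨ n % 4 = 3) with h4 | h4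
  · obtain ⟨n', rfl⟩ : ∃ n', n = 4 * n' + 1 := ⟨n / 4, by omega⟩
    exact h.isModular hΔ h2 h3 hc
  · obtain ⟨n', hn'⟩ : ∃ n', -n = 4 * n' + 1 := ⟨(-n) / 4, by omega⟩
    refine h.isModular hΔ (t := -t) (m := -m') (n := n') ?_ ?_ ?_
    · rw [h2]
      push_cast
      ring
    · rw [h3, ← hn']
      push_cast
      ring
    · rw [← hn', mul_neg]
      exact hc.neg_neg

end TwoRoots

/-- The three differences of the roots, up to a permutation. -/
theorem exists_normal {E : WeierstrassCurve ℚ} (hΔ : E.Δ ≠ 0) {e₁ e₂ e₃ : ℚ}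
    (h : TwoRoots E e₁ e₂ e₃) : ∃ (e₁ e₂ e₃ t : ℚ) (m n : ℤ), TwoRoots E e₁ e₂ e₃ ∧
      e₁ - e₂ = t * m ∧ e₁ - e₃ = t * n ∧ IsCoprime m n ∧ 2 ∣ m ∧ ¬ 2 ∣ n := by
  have h13 : e₁ - e₃ ≠ 0 := by
    intro h3
    exact hΔ (by rw [h.Δ (t := 1) (m := e₁ - e₂) (n := e₁ - e₃) (by ring) (by ring), h3]; ring)
  set q : ℚ := (e₁ - e₂) / (e₁ - e₃) with hq
  have hd : ((q.den : ℤ) : ℚ) ≠ 0 := by exact_mod_cast q.den_ne_zero
  have hqe : q * (e₁ - e₃) = e₁ - e₂ := div_mul_cancel₀ _ h13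
  have hqd : q * ((q.den : ℤ) : ℚ) = (q.num : ℚ) := by
    rw [Int.cast_natCast]
    exact Rat.mul_den_eq_num q
  set t : ℚ := (e₁ - e₃) / ((q.den : ℤ) : ℚ) with ht
  have h3 : e₁ - e₃ = t * ((q.den : ℤ) : ℚ) := (div_mul_cancel₀ _ hd).symm
  have h2 : e₁ - e₂ = t * (q.num : ℚ) := by
    rw [← hqe, ← hqd, h3]
    ring
  have hc : IsCoprime q.num (q.den : ℤ) := by
    rw [Int.isCoprime_iff_gcd_eq_one, Int.gcd_eq_natAbs, Int.natAbs_natCast]
    exact q.reduced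
  generalize q.num = m at h2 hc
  generalize (q.den : ℤ) = n at h3 hc
  have h2u : ¬ IsUnit (2 : ℤ) := by decide
  by_cases hm : 2 ∣ m
  · refine ⟨e₁, e₂, e₃, t, m, n, h, h2, h3, hc, hm, fun hn => ?_⟩
    exact h2u (hc.isUnit_of_dvd' hm hn)
  · by_cases hn : 2 ∣ n
    · exact ⟨e₁, e₃, e₂, t, n, m, h.swap, h3, h2, hc.symm, hn, hm⟩
    · refine ⟨e₂, e₃, e₁, t, n - m, -m, h.rotate, ?_, ?_, ?_, by omega, by omega⟩
      · push_cast
        linear_combination h3 - h2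
      · push_cast
        linear_combination -h2
      · obtain ⟨a, b, hab⟩ := hc
        exact ⟨b, -(a + b), by linear_combination hab⟩

/-! ### The `2`-adic valuation of `j` -/

theorem odd_quad {m n : ℤ} (hm : 2 ∣ m) (hn : ¬ 2 ∣ n) : ¬ 2 ∣ m ^ 2 - m * n + n ^ 2 := by
  intro h
  have h1 : (2 : ℤ) ∣ n ^ 2 := by
    have h2 : n ^ 2 = (m ^ 2 - m * n + n ^ 2) - m * (m - n) := by ring
    rw [h2]
    exact dvd_sub h (hm.mul_right _)
  exact hn (Int.prime_two.dvd_of_dvd_pow h1)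

/-- If `v₂(j) ≤ 0` then `16 ∣ m`. -/
theorem sixteen_dvd {E : WeierstrassCurve ℚ} [E.IsElliptic] {e₁ e₂ e₃ t : ℚ} {m n : ℤ}
    (h : TwoRoots E e₁ e₂ e₃) (h2 : e₁ - e₂ = t * m) (h3 : e₁ - e₃ = t * n) (hm : 2 ∣ m)
    (hn : ¬ 2 ∣ n) (hj : padicValRat 2 E.j ≤ 0) : 16 ∣ m := by
  have hΔ : E.Δ ≠ 0 := E.coe_Δ' ▸ E.Δ'.ne_zero
  have hΔ' := h.Δ h2 h3
  have ht : t ≠ 0 := by
    rintro rfl
    exact hΔ (by rw [hΔ']; ring)
  have hm0 : m ≠ 0 := by
    rintro rfl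
    exact hΔ (by rw [hΔ']; push_cast; ring)
  have hn0 : n ≠ 0 := by
    rintro rfl
    exact hn (dvd_zero 2)
  have hmn : ¬ 2 ∣ m - n := by omega
  have hmn0 : m - n ≠ 0 := fun h => hmn (h ▸ dvd_zero 2)
  have hq : ¬ 2 ∣ m ^ 2 - m * n + n ^ 2 := odd_quad hm hn
  have hq0 : m ^ 2 - m * n + n ^ 2 ≠ 0 := fun h => hq (h ▸ dvd_zero 2)
  have hjd : E.j * (((m * (n * (m - n))) ^ 2 : ℤ) : ℚ) =
      ((256 * (m ^ 2 - m * n + n ^ 2) ^ 3 : ℤ) : ℚ) := by
    have h4 : E.j * E.Δ = E.c₄ ^ 3 := by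
      rw [WeierstrassCurve.j, Units.val_inv_eq_inv_val, E.coe_Δ']
      field_simp
    rw [h.Δ h2 h3, h.c₄ h2 h3] at h4
    have h5 : (16 * t ^ 6 : ℚ) ≠ 0 := mul_ne_zero (by norm_num) (pow_ne_zero _ ht)
    apply mul_left_cancel₀ h5
    push_cast
    linear_combination h4
  have hj0 : E.j ≠ 0 := by
    intro h0
    rw [h0, zero_mul] at hjd
    have h5 : (256 * (m ^ 2 - m * n + n ^ 2) ^ 3 : ℤ) ≠ 0 :=
      mul_ne_zero (by norm_num) (pow_ne_zero _ hq0)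
    exact h5 (by exact_mod_cast hjd.symm)
  have hp : Fact (Nat.Prime 2) := ⟨Nat.prime_two⟩
  have hodd : ∀ {a : ℤ}, ¬ 2 ∣ a → padicValInt 2 a = 0 := fun {a} ha => by
    rw [padicValInt.eq_zero_iff]
    exact Or.inr (Or.inr (by exact_mod_cast ha))
  have hL : padicValRat 2 (E.j * (((m * (n * (m - n))) ^ 2 : ℤ) : ℚ)) =
      padicValRat 2 E.j + 2 * padicValInt 2 m := by
    rw [padicValRat.mul hj0 (by
      have : ((m * (n * (m - n))) ^ 2 : ℤ) ≠ 0 :=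
        pow_ne_zero _ (mul_ne_zero hm0 (mul_ne_zero hn0 hmn0))
      exact_mod_cast this), padicValRat.of_int]
    congr 1
    rw [sq, padicValInt.mul (mul_ne_zero hm0 (mul_ne_zero hn0 hmn0))
      (mul_ne_zero hm0 (mul_ne_zero hn0 hmn0)), padicValInt.mul hm0 (mul_ne_zero hn0 hmn0),
      padicValInt.mul hn0 hmn0, hodd hn, hodd hmn]
    push_cast
    ring
  have hR : padicValRat 2 ((256 * (m ^ 2 - m * n + n ^ 2) ^ 3 : ℤ) : ℚ) = 8 := by
    rw [padicValRat.of_int, padicValInt.mul (by norm_num) (pow_ne_zero _ hq0), pow_three,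
      padicValInt.mul hq0 (mul_ne_zero hq0 hq0), padicValInt.mul hq0 hq0, hodd hq]
    have h256 : padicValInt 2 256 = 8 := by
      have : (256 : ℤ) = ((2 ^ 8 : ℕ) : ℤ) := by norm_num
      rw [this, padicValInt.of_nat, padicValNat.prime_pow]
    rw [h256]
    norm_num
  rw [hjd, hR] at hL
  have h4 : 4 ≤ padicValInt 2 m := by
    have : (4 : ℤ) ≤ padicValInt 2 m := by linarith
    exact_mod_cast this
  have h5 : ((2 : ℤ) ^ 4) ∣ m := by
    have := (padicValInt_dvd_iff (p := 2) 4 m).mpr (Or.inr h4)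
    exact_mod_cast this
  exact (by norm_num : (16 : ℤ) = 2 ^ 4) ▸ h5

/-- **Modularity of elliptic curves with full rational `2`-torsion and `v₂(j) ≤ 0`**, in terms of
the roots of the `2`-division polynomial. -/
theorem isModular_of_twoRoots {E : WeierstrassCurve ℚ} [E.IsElliptic] {e₁ e₂ e₃ : ℚ}
    (h : TwoRoots E e₁ e₂ e₃) (hj : padicValRat 2 E.j ≤ 0) : E.IsModular := by
  have hΔ : E.Δ ≠ 0 := E.coe_Δ' ▸ E.Δ'.ne_zero
  obtain ⟨e₁, e₂, e₃, t, m, n, h', h2, h3, hc, hm, hn⟩ := exists_normal hΔ h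
  exact h'.isModular' hΔ h2 h3 hc (sixteen_dvd h' h2 h3 hm hn hj) hn

/-! ### Rational points of order `2` -/

section Points

variable {E : WeierstrassCurve ℚ}

/-- The coordinates of a point of order `2`. -/
theorem two_torsion_coords {P : E.toAffine.Point} (hP : addOrderOf P = 2) :
    ∃ x y : ℚ, ∃ h : E.toAffine.Nonsingular x y, P = .some x y h ∧
      2 * y + E.a₁ * x + E.a₃ = 0 := by
  rcases P with _ | ⟨x, y, h⟩
  · exfalso
    have h1 : addOrderOf (0 : E.toAffine.Point) = 2 := hP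
    rw [addOrderOf_zero] at h1
    exact absurd h1 (by norm_num)
  · refine ⟨x, y, h, rfl, ?_⟩
    have h1 : 2 • (Affine.Point.some x y h : E.toAffine.Point) = 0 := by
      rw [← hP]
      exact addOrderOf_nsmul_eq_zero _
    rw [two_nsmul, add_eq_zero_iff_eq_neg, Affine.Point.neg_some, Affine.Point.some.injEq] at h1
    have h2 := h1.2
    rw [Affine.negY] at h2
    linear_combination h2

theorem cubic_of_coords {x y : ℚ} (h : E.toAffine.Equation x y)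
    (h2 : 2 * y + E.a₁ * x + E.a₃ = 0) :
    4 * x ^ 3 + E.b₂ * x ^ 2 + 2 * E.b₄ * x + E.b₆ = 0 := by
  have h1 := (Affine.equation_iff' _ _).mp h
  simp only [WeierstrassCurve.b₂, WeierstrassCurve.b₄, WeierstrassCurve.b₆]
  linear_combination -4 * h1 + (2 * y + E.a₁ * x + E.a₃) * h2

/-- Two rational points of order `2` give the three roots of the `2`-division polynomial. -/
theorem exists_twoRoots {P Q : E.toAffine.Point} (hP : addOrderOf P = 2)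
    (hQ : addOrderOf Q = 2) (hPQ : P ≠ Q) : ∃ e₁ e₂ e₃ : ℚ, TwoRoots E e₁ e₂ e₃ := by
  obtain ⟨x, y, h, rfl, h2⟩ := two_torsion_coords hP
  obtain ⟨x', y', h', rfl, h2'⟩ := two_torsion_coords hQ
  have hx : x ≠ x' := by
    rintro rfl
    have hy : y = y' := by linarith
    subst hy
    exact hPQ rfl
  have g := cubic_of_coords h.1 h2
  have g' := cubic_of_coords h'.1 h2'
  have hx' : x - x' ≠ 0 := sub_ne_zero.mpr hx
  have hb₄ : 2 * E.b₄ = -4 * (x ^ 2 + x * x' + x' ^ 2) - E.b₂ * (x + x') := by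
    apply mul_left_cancel₀ hx'
    linear_combination g - g'
  refine ⟨x, x', -E.b₂ / 4 - x - x', ?_, ?_, ?_⟩
  · ring
  · linear_combination hb₄ / 2
  · linear_combination g - x * hb₄

end Points

/-- **Every elliptic curve over `ℚ` with full rational `2`-torsion and `v₂(j) ≤ 0` is modular.** -/
theorem isModular_of_full_two_torsion (E : WeierstrassCurve ℚ) [E.IsElliptic]
    (P Q : E.toAffine.Point) (hP : addOrderOf P = 2) (hQ : addOrderOf Q = 2) (hPQ : P ≠ Q)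
    (hj : padicValRat 2 E.j ≤ 0) : E.IsModular := by
  obtain ⟨e₁, e₂, e₃, h⟩ := exists_twoRoots hP hQ hPQ
  exact isModular_of_twoRoots h hj

/-- The curve `d y² = x (x - A) (x + B)`, `A`, `B` coprime, `B` divisible by `16`, is modular. -/
theorem isModular_legendre {A B : ℤ} (hAB : IsCoprime A B) (hB : 16 ∣ B) (hB0 : B ≠ 0)
    {d : ℚ} (hd : d ≠ 0) :
    (⟨0, d * (B - A), 0, -(d ^ 2 * (A * B)), 0⟩ : WeierstrassCurve ℚ).IsModular := by
  have hA : ¬ 2 ∣ A := fun h => by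
    have h2 : (2 : ℤ) ∣ B := Dvd.dvd.trans (by norm_num) hB
    exact (by decide : ¬ IsUnit (2 : ℤ)) (hAB.isUnit_of_dvd' h h2)
  have hA0 : A ≠ 0 := by
    rintro rfl
    exact hA (dvd_zero 2)
  have hAB0 : A + B ≠ 0 := by omega
  set E : WeierstrassCurve ℚ := ⟨0, d * (B - A), 0, -(d ^ 2 * (A * B)), 0⟩ with hE
  have hT : TwoRoots E 0 (-(d * B)) (d * A) := by
    refine ⟨?_, ?_, ?_⟩
    · simp only [WeierstrassCurve.b₂, hE]
      ring
    · simp only [WeierstrassCurve.b₄, hE]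
      ring
    · simp only [WeierstrassCurve.b₆, hE]
      ring
  have h2 : (0 : ℚ) - -(d * B) = d * ((B : ℤ) : ℚ) := by ring
  have h3 : (0 : ℚ) - d * A = d * (((-A : ℤ)) : ℚ) := by push_cast; ring
  refine hT.isModular' ?_ h2 h3 hAB.symm.neg_right hB (by omega)
  rw [hT.Δ h2 h3]
  have h4 : ((B * -A * (B - -A) : ℤ) : ℚ) ≠ 0 := by
    rw [Int.cast_ne_zero]
    exact mul_ne_zero (mul_ne_zero hB0 (neg_ne_zero.mpr hA0)) (by omega)
  push_cast at h4 ⊢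
  exact mul_ne_zero (mul_ne_zero (by norm_num) (pow_ne_zero _ hd)) (pow_ne_zero _ h4)

end Fermat.Agent.Cor.Twist

end
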