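import Fermat.Agent.Corollaries.Twist.JCrit
import Fermat.Agent.Corollaries.Twist.TwoTorsion

/-!
# The valuation of `j` at `2`
-/

set_option autoImplicit false

noncomputable section

open WeierstrassCurve

namespace Fermat.Agent.Cor.Twist

/-- If `j K = 2ᵏ U` with `U` odd and `2ᵏ ∣ K ≠ 0` then `j ≠ 0` and `v₂(j) ≤ 0`. -/
theorem val_le_zero {j : ℚ} {U K : ℤ} {k : ℕ} (hU : ¬ 2 ∣ U) (hK0 : K ≠ 0)
    (hK : (2 : ℤ) ^ k ∣ K) (h : j * (K : ℚ) = 2 ^ k * (U : ℚ)) :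
    j ≠ 0 ∧ padicValRat 2 j ≤ 0 := by
  obtain ⟨L, rfl⟩ := hK
  have hL0 : L ≠ 0 := right_ne_zero_of_mul hK0
  have h2 : (2 : ℚ) ^ k ≠ 0 := pow_ne_zero _ two_ne_zero
  have h1 : j * (L : ℚ) = (U : ℚ) := by
    apply mul_left_cancel₀ h2
    push_cast at h
    linear_combination h
  have hU0 : U ≠ 0 := by
    rintro rfl
    exact hU (dvd_zero 2)
  have hj0 : j ≠ 0 := by
    rintro rfl
    rw [zero_mul] at h1
    exact hU0 (by exact_mod_cast h1.symm)
  have h3 := congrArg (padicValRat 2) h1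
  have hU' : padicValInt 2 U = 0 := padicValInt.eq_zero_of_not_dvd (by exact_mod_cast hU)
  rw [padicValRat.mul hj0 (by exact_mod_cast hL0), padicValRat.of_int, padicValRat.of_int,
    hU'] at h3
  push_cast at h3
  exact ⟨hj0, by omega⟩

theorem padicValRat_1728 : padicValRat 2 (1728 : ℚ) = 6 := by
  have h27 : padicValRat 2 (27 : ℚ) = 0 := by
    have h := padicValRat.of_int (p := 2) (z := 27)
    rw [padicValInt.eq_zero_of_not_dvd (by norm_num), Nat.cast_zero] at h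
    rw [← h]
    norm_num
  have h2 : padicValRat 2 (2 : ℚ) = 1 := by
    have h := padicValRat.self (p := 2) (by norm_num)
    rw [← h]
    norm_num
  rw [show (1728 : ℚ) = 2 ^ 6 * 27 by norm_num, padicValRat.mul (by norm_num) (by norm_num), h27,
    padicValRat.pow, h2]
  norm_num

/-- **`v₂(j) ≤ 0`** if the differences of the roots of the `2`-division polynomial are `t m`, `t n`
with `m`, `n` not both even and `16 ∣ m n (m - n)`. -/
theorem TwoRoots.val_j {E : WeierstrassCurve ℚ} [E.IsElliptic] {e₁ e₂ e₃ t : ℚ}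
    (h : TwoRoots E e₁ e₂ e₃) {m n : ℤ} (h2 : e₁ - e₂ = t * m) (h3 : e₁ - e₃ = t * n)
    (hmn : ¬ (2 ∣ m ∧ 2 ∣ n)) (h16 : 16 ∣ m * n * (m - n)) :
    E.j ≠ 0 ∧ padicValRat 2 E.j ≤ 0 := by
  have hΔ := Δ_ne_zero E
  have h4 := h.c₄ h2 h3
  have h5 := h.Δ h2 h3
  have ht : t ≠ 0 := by
    rintro rfl
    exact hΔ (by rw [h5]; ring)
  have hK0 : m * n * (m - n) ≠ 0 := by
    intro h0
    have h6 : (m : ℚ) * n * (m - n) = 0 := by exact_mod_cast h0
    exact hΔ (by rw [h5, h6]; ring)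
  have hodd : ¬ 2 ∣ m ^ 2 - m * n + n ^ 2 := by
    intro hd
    obtain ⟨k, hk⟩ := hd
    rcases Int.even_or_odd m with ⟨a, ha⟩ | ⟨a, ha⟩ <;> rcases Int.even_or_odd n with ⟨b, hb⟩ | ⟨b, hb⟩
    · exact hmn ⟨⟨a, by omega⟩, ⟨b, by omega⟩⟩
    · subst ha hb
      have : 2 * k = 2 * (2 * a ^ 2 - a * (2 * b + 1) + 2 * b ^ 2 + 2 * b) + 1 := by
        linear_combination -hk
      omega
    · subst ha hb
      have : 2 * k = 2 * (2 * a ^ 2 + 2 * a - b * (2 * a + 1) + 2 * b ^ 2) + 1 := by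
        linear_combination -hk
      omega
    · subst ha hb
      have : 2 * k = 2 * (2 * a ^ 2 + a - 2 * a * b + 2 * b ^ 2 + b) + 1 := by
        linear_combination -hk
      omega
  refine val_le_zero (U := (m ^ 2 - m * n + n ^ 2) ^ 3) (K := (m * n * (m - n)) ^ 2) (k := 8)
    (fun hd => hodd (Int.prime_two.dvd_of_dvd_pow hd)) (pow_ne_zero _ hK0) ?_ ?_
  · obtain ⟨L, hL⟩ := h16
    rw [hL]
    exact ⟨L ^ 2, by ring⟩
  · have h6 := j_mul_Δ E
    rw [h4, h5] at h6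
    have h7 : 16 * t ^ 6 ≠ 0 := mul_ne_zero (by norm_num) (pow_ne_zero _ ht)
    apply mul_left_cancel₀ h7
    push_cast
    linear_combination h6

end Fermat.Agent.Cor.Twist

end
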